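import Mathlib

/-!
# The twisted `X(5)` family in Tate normal form coordinates

A point of order `5` on a Weierstrass curve corresponds to a pair `(U, V)` such that the curve has
`c₄ = fourForm U V` and `c₆ = sixForm U V`.  The pair `(utForm U V a b, vtForm U V a b)` is the
deformation of `(U, V)` along the twisted `X(5)`; it is killed by an explicit derivation, whence
its two invariants are polynomials in `fourForm U V, sixForm U V, a, b`.
-/

set_option autoImplicit false

namespace Fermat.Agent.Switch35

section Defs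

variable {R : Type*} [CommRing R]

/-- The `c₄` of the curve attached to `(U, V)`. -/
def fourForm (U V : R) : R :=
  U ^ 4 + 12 * U ^ 3 * V + 14 * U ^ 2 * V ^ 2 - 12 * U * V ^ 3 + V ^ 4

/-- The `c₆` of the curve attached to `(U, V)`. -/
def sixForm (U V : R) : R :=
  -((U ^ 2 + V ^ 2) * (U ^ 4 + 18 * U ^ 3 * V + 74 * U ^ 2 * V ^ 2 - 18 * U * V ^ 3 + V ^ 4))

/-- The quadratic cusp form in `(U, V)`. -/
def cuspForm2 (U V : R) : R := V ^ 2 - 11 * U * V - U ^ 2

/-- The discriminant of the curve attached to `(U, V)`. -/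
def discForm (U V : R) : R := U ^ 5 * V ^ 5 * cuspForm2 U V

/-- Rational part of `(p + q √5) ^ 5`. -/
def evenFive (p q : R) : R := p ^ 5 + 50 * p ^ 3 * q ^ 2 + 125 * p * q ^ 4

/-- One fifth of the `√5` part of `(p + q √5) ^ 5`. -/
def oddFive (p q : R) : R := p ^ 4 * q + 10 * p ^ 2 * q ^ 3 + 5 * q ^ 5

/-- The deformed `U`. -/
def utForm (U V a b : R) : R :=
  U * evenFive (b + a * (U ^ 2 + V ^ 2)) (6 * a * U * V)
    - (2 * V - 11 * U) * oddFive (b + a * (U ^ 2 + V ^ 2)) (6 * a * U * V)

/-- The deformed `V`. -/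
def vtForm (U V a b : R) : R :=
  V * evenFive (b + a * (U ^ 2 + V ^ 2)) (6 * a * U * V)
    - (2 * U + 11 * V) * oddFive (b + a * (U ^ 2 + V ^ 2)) (6 * a * U * V)

theorem utForm_zero (U V : R) (b : R) : utForm U V 0 b = b ^ 5 * U := by
  simp only [utForm, evenFive, oddFive]; ring

theorem vtForm_zero (U V : R) (b : R) : vtForm U V 0 b = b ^ 5 * V := by
  simp only [vtForm, evenFive, oddFive]; ring

theorem vtForm_eq_utForm (U V a b : R) : vtForm U V a b = utForm V (-U) a b := by
  simp only [utForm, vtForm, evenFive, oddFive]; ring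

theorem utForm_neg (U V a b : R) : utForm (-U) (-V) a b = -utForm U V a b := by
  simp only [utForm, evenFive, oddFive]; ring

theorem vtForm_neg (U V a b : R) : vtForm (-U) (-V) a b = -vtForm U V a b := by
  simp only [vtForm, evenFive, oddFive]; ring

theorem utForm_mul (U V a b c : R) :
    utForm U V (c * a) (c * b) = c ^ 5 * utForm U V a b := by
  simp only [utForm, evenFive, oddFive]; ring

theorem vtForm_mul (U V a b c : R) :
    vtForm U V (c * a) (c * b) = c ^ 5 * vtForm U V a b := by
  simp only [vtForm, evenFive, oddFive]; ring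

theorem fourForm_scale (U V c : R) : fourForm (c * U) (c * V) = c ^ 4 * fourForm U V := by
  simp only [fourForm]; ring

theorem sixForm_scale (U V c : R) : sixForm (c * U) (c * V) = c ^ 6 * sixForm U V := by
  simp only [sixForm]; ring

theorem forms_relation (U V : R) :
    fourForm U V ^ 3 - sixForm U V ^ 2 = 1728 * discForm U V := by
  simp only [fourForm, sixForm, discForm, cuspForm2]; ring

/-- The cusp lines are multiplied by fifth powers along the deformation. -/
theorem line_utForm (U V a b s : R) (hs : s ^ 2 = 5) :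
    2 * vtForm U V a b - (11 + 5 * s) * utForm U V a b
      = (2 * V - (11 + 5 * s) * U) * (b + a * (U ^ 2 + V ^ 2 + 6 * s * U * V)) ^ 5 := by
  have key : ∀ p q : R, (p + s * q) ^ 5 = evenFive p q + 5 * s * oddFive p q := by
    intro p q
    simp only [evenFive, oddFive]
    linear_combination
      (10 * p ^ 3 * q ^ 2 + 10 * p ^ 2 * q ^ 3 * s + 5 * p * q ^ 4 * (s ^ 2 + 5)
        + q ^ 5 * s * (s ^ 2 + 5)) * hs
  rw [show b + a * (U ^ 2 + V ^ 2 + 6 * s * U * V)
      = (b + a * (U ^ 2 + V ^ 2)) + s * (6 * a * U * V) by ring, key]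
  simp only [utForm, vtForm]
  linear_combination (25 * U * oddFive (b + a * (U ^ 2 + V ^ 2)) (6 * a * U * V)) * hs

theorem map_fourForm {S : Type*} [CommRing S] (f : R →+* S) (U V : R) :
    f (fourForm U V) = fourForm (f U) (f V) := by simp [fourForm, map_ofNat]

theorem map_sixForm {S : Type*} [CommRing S] (f : R →+* S) (U V : R) :
    f (sixForm U V) = sixForm (f U) (f V) := by simp [sixForm, map_ofNat]

theorem map_utForm {S : Type*} [CommRing S] (f : R →+* S) (U V a b : R) :
    f (utForm U V a b) = utForm (f U) (f V) (f a) (f b) := by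
  simp [utForm, evenFive, oddFive, map_ofNat]

theorem map_vtForm {S : Type*} [CommRing S] (f : R →+* S) (U V a b : R) :
    f (vtForm U V a b) = vtForm (f U) (f V) (f a) (f b) := by
  simp [vtForm, evenFive, oddFive, map_ofNat]

end Defs

section Field

variable {k : Type*} [Field k]

/-- `fourForm` and `discForm` have no common zero except the origin, away from characteristic 5. -/
theorem eq_zero_of_fourForm_eq_zero (h5 : (5 : k) ≠ 0) {U V : k}
    (h4 : fourForm U V = 0) (hd : discForm U V = 0) : U = 0 ∧ V = 0 := by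
  simp only [discForm, mul_eq_zero, pow_eq_zero_iff (show 5 ≠ 0 by norm_num)] at hd
  rcases hd with (rfl | rfl) | hc
  · exact ⟨rfl, by simpa [fourForm] using h4⟩
  · exact ⟨by simpa [fourForm] using h4, rfl⟩
  · simp only [cuspForm2] at hc
    have hV : (5 : k) * (V ^ 2 * U ^ 2) = 0 := by
      simp only [fourForm] at h4
      linear_combination h4 - (V ^ 2 - U * V - U ^ 2 + U * 0) * hc
    rcases mul_eq_zero.mp ((mul_eq_zero.mp hV).resolve_left h5) with hV | hU
    · obtain rfl : V = 0 := by simpa using hV
      exact ⟨by simpa using hc, rfl⟩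
    · obtain rfl : U = 0 := by simpa using hU
      exact ⟨rfl, by simpa using hc⟩

/-- A deformation of a nonsingular pair does not degenerate to the origin. -/
theorem utForm_ne_zero_or (h2 : (2 : k) ≠ 0) (h3 : (3 : k) ≠ 0) (h5 : (5 : k) ≠ 0) {s : k}
    (hs : s ^ 2 = 5) {U V a b : k} (hab : a ≠ 0 ∨ b ≠ 0) (hd : discForm U V ≠ 0) :
    utForm U V a b ≠ 0 ∨ vtForm U V a b ≠ 0 := by
  by_contra hcon
  push Not at hcon
  obtain ⟨hu, hv⟩ := hcon
  have hU : U ≠ 0 := fun h => hd (by simp [discForm, h])
  have hV : V ≠ 0 := fun h => hd (by simp [discForm, h])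
  have hc : cuspForm2 U V ≠ 0 := fun h => hd (by simp [discForm, h])
  have h4 : (4 : k) ≠ 0 := by
    rw [show (4 : k) = 2 * 2 by norm_num]; exact mul_ne_zero h2 h2
  have hprod : (2 * V - (11 + 5 * s) * U) * (2 * V - (11 + 5 * -s) * U) = 4 * cuspForm2 U V := by
    simp only [cuspForm2]; linear_combination (-25 * U ^ 2) * hs
  have hne := mul_ne_zero_iff.mp (hprod ▸ mul_ne_zero h4 hc)
  have hA := line_utForm U V a b s hs
  have hB := line_utForm U V a b (-s) (by rw [neg_sq, hs])
  simp only [hu, hv, mul_zero, sub_zero] at hA hB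
  have hA' := eq_zero_of_pow_eq_zero (((mul_eq_zero.mp hA.symm)).resolve_left hne.1)
  have hB' := eq_zero_of_pow_eq_zero (((mul_eq_zero.mp hB.symm)).resolve_left hne.2)
  have : (2 * 2 * 3) * (a * s * U * V) = 0 := by linear_combination hA' - hB'
  have hs0 : s ≠ 0 := by
    intro h; apply h5; rw [← hs, h]; simp
  have ha : a = 0 := by simpa [h2, h3, hs0, hU, hV] using this
  rw [ha, zero_mul, add_zero] at hA'
  exact hab.elim (· ha) (· hA')

end Field

section Invariance

open MvPolynomial

/-- The ring `ℚ[U, V, b, a]`. -/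
abbrev R4 := MvPolynomial (Fin 4) ℚ

noncomputable section

/-- The substitution `(c₄, c₆, b, a) ↦ (fourForm U V, sixForm U V, b, a)`. -/
def invMap : R4 →ₐ[ℚ] R4 :=
  aeval ![fourForm (X 0) (X 1), sixForm (X 0) (X 1), X 2, X 3]

/-- The derivation killing the deformation. -/
def deformDer : Derivation ℚ R4 R4 :=
  mkDerivation ℚ
    ![X 0 * (5 * X 0 ^ 2 + 66 * X 0 * X 1 - 7 * X 1 ^ 2),
      X 1 * (5 * X 1 ^ 2 - 66 * X 0 * X 1 - 7 * X 0 ^ 2),
      -11 * fourForm (X 0) (X 1) * X 3,
      -X 2]

theorem deformDer_natCast (n : ℕ) : deformDer (n : R4) = 0 := by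
  simpa using deformDer.map_algebraMap (n : ℚ)

theorem deformDer_ofNat (n : ℕ) [n.AtLeastTwo] : deformDer (ofNat(n) : R4) = 0 :=
  deformDer_natCast n

theorem deformDer_utForm : deformDer (utForm (X 0) (X 1) (X 3) (X 2)) = 0 := by
  simp only [utForm, evenFive, oddFive, map_add, map_sub, Derivation.leibniz,
    Derivation.leibniz_pow, deformDer_ofNat, smul_eq_mul]
  simp only [deformDer, mkDerivation_X, fourForm, Matrix.cons_val, nsmul_eq_mul, Nat.cast_ofNat]
  ring

theorem deformDer_vtForm : deformDer (vtForm (X 0) (X 1) (X 3) (X 2)) = 0 := by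
  simp only [vtForm, evenFive, oddFive, map_add, map_sub, Derivation.leibniz,
    Derivation.leibniz_pow, deformDer_ofNat, smul_eq_mul]
  simp only [deformDer, mkDerivation_X, fourForm, Matrix.cons_val, nsmul_eq_mul, Nat.cast_ofNat]
  ring

theorem deformDer_fourForm :
    deformDer (fourForm (X 0) (X 1)) = -20 * sixForm (X 0) (X 1) := by
  simp only [fourForm, map_add, map_sub, Derivation.leibniz, Derivation.leibniz_pow,
    deformDer_ofNat, smul_eq_mul]
  simp only [deformDer, mkDerivation_X, sixForm, Matrix.cons_val, nsmul_eq_mul, Nat.cast_ofNat]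
  ring

theorem deformDer_sixForm :
    deformDer (sixForm (X 0) (X 1)) = -30 * fourForm (X 0) (X 1) ^ 2 := by
  simp only [sixForm, map_neg, map_add, map_sub, Derivation.leibniz, Derivation.leibniz_pow,
    deformDer_ofNat, smul_eq_mul]
  simp only [deformDer, mkDerivation_X, fourForm, Matrix.cons_val, nsmul_eq_mul, Nat.cast_ofNat]
  ring

theorem deformDer_mem_range {F : R4} (hF : F ∈ invMap.range) :
    deformDer F ∈ invMap.range := by
  obtain ⟨G, rfl⟩ := hF
  simp only [AlgHom.toRingHom_eq_coe, RingHom.coe_coe]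
  induction G using MvPolynomial.induction_on with
  | C r => simp
  | add p q hp hq => rw [map_add, map_add]; exact add_mem hp hq
  | mul_X p i hp =>
    rw [map_mul, Derivation.leibniz, smul_eq_mul, smul_eq_mul]
    refine add_mem (mul_mem ⟨p, rfl⟩ ?_) (mul_mem ⟨X i, rfl⟩ hp)
    fin_cases i
    · exact ⟨-20 * X 1, by simp [invMap, deformDer_fourForm, map_ofNat]⟩
    · exact ⟨-30 * X 0 ^ 2, by simp [invMap, deformDer_sixForm, map_ofNat]⟩
    · exact ⟨-11 * X 0 * X 3, by simp [invMap, deformDer, map_ofNat]⟩
    · exact ⟨-X 2, by simp [invMap, deformDer]⟩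

/-- Setting the variable `j` to zero. -/
def kill (j : Fin 4) : R4 →ₐ[ℚ] R4 := aeval (Function.update X j 0)

theorem dvd_sub_kill (j : Fin 4) (G : R4) : X j ∣ G - kill j G := by
  induction G using MvPolynomial.induction_on with
  | C r => simp [kill]
  | add p q hp hq => rw [map_add, add_sub_add_comm]; exact dvd_add hp hq
  | mul_X p i hp =>
    rw [map_mul, show p * X i - kill j p * kill j (X i)
      = (p - kill j p) * X i + kill j p * (X i - kill j (X i)) by ring]
    refine dvd_add (hp.mul_right _) (dvd_mul_of_dvd_right ?_ _)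
    rcases eq_or_ne i j with rfl | h
    · simp [kill]
    · simp [kill, h]

theorem kill_comm (j : Fin 4) (hj : j = 2 ∨ j = 3) (G : R4) :
    kill j (invMap G) = invMap (kill j G) := by
  show ((kill j).comp invMap) G = (invMap.comp (kill j)) G
  congr 1
  ext i
  rcases hj with rfl | rfl <;> fin_cases i <;>
    simp [kill, invMap, fourForm, sixForm, map_ofNat]

theorem mem_range_of_X_mul_mem {j : Fin 4} (hj : j = 2 ∨ j = 3) {F : R4}
    (hF : X j * F ∈ invMap.range) : F ∈ invMap.range := by
  obtain ⟨G, hG⟩ := hF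
  change invMap G = X j * F at hG
  obtain ⟨G', hG'⟩ := dvd_sub_kill j G
  have hX : invMap (X j) = X j := by rcases hj with rfl | rfl <;> simp [invMap]
  have h0 : invMap (kill j G) = 0 := by
    rw [← kill_comm j hj, hG, map_mul]; simp [kill]
  refine ⟨G', mul_left_cancel₀ (MvPolynomial.X_ne_zero j) ?_⟩
  show X j * invMap G' = X j * F
  calc X j * invMap G' = invMap (X j * G') := by rw [map_mul, hX]
    _ = invMap G - invMap (kill j G) := by rw [← hG', map_sub]
    _ = X j * F := by rw [h0, hG, sub_zero]

theorem mem_range_of_X_pow_mul_mem {F : R4} :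
    ∀ n : ℕ, X 3 ^ n * F ∈ invMap.range → F ∈ invMap.range
  | 0, h => by simpa using h
  | n + 1, h => by
    rw [pow_succ', mul_assoc] at h
    exact mem_range_of_X_pow_mul_mem n (mem_range_of_X_mul_mem (.inr rfl) h)

theorem X_mem_range (j : Fin 4) (hj : j = 2 ∨ j = 3) : X j ∈ invMap.range :=
  ⟨X j, by rcases hj with rfl | rfl <;> simp [invMap]⟩

theorem kill_mem_range {j : Fin 4} (hj : j = 2 ∨ j = 3) {F : R4} (hF : F ∈ invMap.range) :
    kill j F ∈ invMap.range := by
  obtain ⟨G, rfl⟩ := hF
  exact ⟨kill j G, (kill_comm j hj G).symm⟩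

/-- Viewing a polynomial as a polynomial in the last variable. -/
def inLast : R4 →ₐ[ℚ] Polynomial R4 :=
  aeval (Function.update (fun i => Polynomial.C (X i)) 3 Polynomial.X)

theorem eval_inLast (F : R4) : Polynomial.eval (X 3) (inLast F) = F := by
  induction F using MvPolynomial.induction_on with
  | C r => simp [inLast, IsScalarTower.algebraMap_apply ℚ R4 (Polynomial R4)]
  | add p q hp hq => simp [hp, hq]
  | mul_X p i hp =>
    rw [map_mul, Polynomial.eval_mul, hp]
    fin_cases i <;> simp [inLast]

theorem natDegree_inLast_kill (F : R4) : (inLast (kill 3 F)).natDegree = 0 := by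
  induction F using MvPolynomial.induction_on with
  | C r => simp [inLast, kill, IsScalarTower.algebraMap_apply ℚ R4 (Polynomial R4)]
  | add p q hp hq =>
    rw [map_add, map_add]
    exact Nat.le_zero.mp ((Polynomial.natDegree_add_le _ _).trans (by simp [hp, hq]))
  | mul_X p i hp =>
    rw [map_mul, map_mul]
    refine Nat.le_zero.mp (Polynomial.natDegree_mul_le.trans ?_)
    rw [hp, zero_add]
    fin_cases i <;> simp [inLast, kill]

/-- A polynomial killed by the derivation with invariant initial value is invariant. -/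
theorem mem_range_of_deformDer_eq_zero {F : R4} (h0 : kill 3 F ∈ invMap.range)
    (hF : deformDer F = 0) : F ∈ invMap.range := by
  have key : ∀ i : ℕ, ∃ P H : R4, P ∈ invMap.range ∧ (inLast P).natDegree ≤ i ∧
      F = P + X 3 ^ (i + 1) * H := by
    intro i
    induction i with
    | zero =>
      obtain ⟨H, hH⟩ := dvd_sub_kill 3 F
      exact ⟨kill 3 F, H, h0, (natDegree_inLast_kill F).le, by linear_combination hH⟩
    | succ i ih =>
      obtain ⟨P, H, hP, hdeg, hPH⟩ := ih
      have hm : X 3 ^ i * (((i + 1 : ℕ) : R4) * (X 2 * H) - X 3 * deformDer H) ∈ invMap.range := by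
        have hd := deformDer_mem_range hP
        have := congrArg deformDer hPH
        rw [hF, map_add, Derivation.leibniz, Derivation.leibniz_pow] at this
        simp only [show deformDer (X 3) = -X 2 by simp [deformDer], smul_eq_mul,
          nsmul_eq_mul, Nat.add_sub_cancel] at this
        convert hd using 1
        linear_combination this
      have hm' := kill_mem_range (.inr rfl) (mem_range_of_X_pow_mul_mem i hm)
      have hH0 : kill 3 H ∈ invMap.range := by
        have h2 : X 2 * kill 3 H ∈ invMap.range := by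
          have := Subalgebra.smul_mem _ hm' (((i + 1 : ℕ) : ℚ)⁻¹)
          convert this using 1
          rw [map_sub, map_mul, map_mul, map_mul, map_natCast, Algebra.smul_def,
            show kill 3 (X 3 : R4) = 0 by simp [kill],
            show kill 3 (X 2 : R4) = X 2 by simp [kill],
            zero_mul, sub_zero, ← mul_assoc, ← map_natCast (algebraMap ℚ R4), ← map_mul,
            inv_mul_cancel₀ (by positivity), map_one, one_mul]
        exact mem_range_of_X_mul_mem (.inl rfl) h2
      obtain ⟨H', hH'⟩ := dvd_sub_kill 3 H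
      refine ⟨P + X 3 ^ (i + 1) * kill 3 H, H',
        add_mem hP (mul_mem (pow_mem (X_mem_range 3 (.inr rfl)) _) hH0), ?_, ?_⟩
      · rw [map_add, map_mul, map_pow]
        refine (Polynomial.natDegree_add_le _ _).trans (max_le (hdeg.trans (Nat.le_succ i)) ?_)
        refine Polynomial.natDegree_mul_le.trans ?_
        rw [natDegree_inLast_kill, add_zero]
        simp [inLast]
      · linear_combination hPH + X 3 ^ (i + 1) * hH'
  obtain ⟨P, H, hP, hdeg, hPH⟩ := key (inLast F).natDegree
  have hH : inLast H = 0 := by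
    by_contra hne
    have h1 := congrArg inLast hPH
    rw [map_add, map_mul, map_pow, show inLast (X 3 : R4) = Polynomial.X by simp [inLast]] at h1
    have h2 : (inLast F - inLast P).natDegree ≤ (inLast F).natDegree :=
      (Polynomial.natDegree_sub_le _ _).trans (max_le le_rfl hdeg)
    rw [h1, add_sub_cancel_left, ← h1, mul_comm, Polynomial.natDegree_mul_X_pow _ hne] at h2
    omega
  have : H = 0 := by rw [← eval_inLast H, hH, Polynomial.eval_zero]
  rw [hPH, this, mul_zero, add_zero]; exact hP

theorem deformDer_fourForm_deform :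
    deformDer (fourForm (utForm (X 0 : R4) (X 1) (X 3) (X 2)) (vtForm (X 0) (X 1) (X 3) (X 2))) = 0 := by
  generalize hu : utForm (X 0 : R4) (X 1) (X 3) (X 2) = u
  generalize hv : vtForm (X 0 : R4) (X 1) (X 3) (X 2) = v
  have h1 : deformDer u = 0 := hu ▸ deformDer_utForm
  have h2 : deformDer v = 0 := hv ▸ deformDer_vtForm
  simp [fourForm, Derivation.leibniz, Derivation.leibniz_pow, deformDer_ofNat, h1, h2]

theorem deformDer_sixForm_deform :
    deformDer (sixForm (utForm (X 0 : R4) (X 1) (X 3) (X 2)) (vtForm (X 0) (X 1) (X 3) (X 2))) = 0 := by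
  generalize hu : utForm (X 0 : R4) (X 1) (X 3) (X 2) = u
  generalize hv : vtForm (X 0 : R4) (X 1) (X 3) (X 2) = v
  have h1 : deformDer u = 0 := hu ▸ deformDer_utForm
  have h2 : deformDer v = 0 := hv ▸ deformDer_vtForm
  simp [sixForm, Derivation.leibniz, Derivation.leibniz_pow, deformDer_ofNat, h1, h2]

theorem fourForm_deform_mem_range :
    fourForm (utForm (X 0) (X 1) (X 3) (X 2)) (vtForm (X 0) (X 1) (X 3) (X 2)) ∈ invMap.range := by
  refine mem_range_of_deformDer_eq_zero ?_ deformDer_fourForm_deform
  refine ⟨X 0 * X 2 ^ 20, ?_⟩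
  show invMap _ = (kill 3).toRingHom _
  rw [map_fourForm (kill 3).toRingHom, map_utForm, map_vtForm]
  simp [kill, invMap, utForm_zero, vtForm_zero, fourForm_scale]
  ring

theorem sixForm_deform_mem_range :
    sixForm (utForm (X 0) (X 1) (X 3) (X 2)) (vtForm (X 0) (X 1) (X 3) (X 2)) ∈ invMap.range := by
  refine mem_range_of_deformDer_eq_zero ?_ deformDer_sixForm_deform
  refine ⟨X 1 * X 2 ^ 30, ?_⟩
  show invMap _ = (kill 3).toRingHom _
  rw [map_sixForm (kill 3).toRingHom, map_utForm, map_vtForm]
  simp [kill, invMap, utForm_zero, vtForm_zero, sixForm_scale]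
  ring

/-- The polynomial giving the deformed `c₄`, in the variables `c₄, c₆, b, a`. -/
def fourPoly : R4 := fourForm_deform_mem_range.choose

/-- The polynomial giving the deformed `c₆`, in the variables `c₄, c₆, b, a`. -/
def sixPoly : R4 := sixForm_deform_mem_range.choose

variable {K : Type*} [CommRing K] [Algebra ℚ K]

/-- The deformed `c₄`. -/
def fourFam (c₄ c₆ a b : K) : K := aeval ![c₄, c₆, b, a] fourPoly

/-- The deformed `c₆`. -/
def sixFam (c₄ c₆ a b : K) : K := aeval ![c₄, c₆, b, a] sixPoly

theorem aeval_invMap (U V a b : K) (G : R4) :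
    aeval ![U, V, b, a] (invMap G) = aeval ![fourForm U V, sixForm U V, b, a] G := by
  show ((aeval ![U, V, b, a]).comp invMap) G = _
  congr 1
  ext i
  fin_cases i <;> simp [invMap, fourForm, sixForm, map_ofNat]

theorem fourFam_forms (U V a b : K) :
    fourFam (fourForm U V) (sixForm U V) a b
      = fourForm (utForm U V a b) (vtForm U V a b) := by
  have h : invMap fourPoly = _ := fourForm_deform_mem_range.choose_spec
  rw [fourFam, ← aeval_invMap, h]
  show (aeval ![U, V, b, a]).toRingHom _ = _
  rw [map_fourForm, map_utForm, map_vtForm]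
  simp

theorem sixFam_forms (U V a b : K) :
    sixFam (fourForm U V) (sixForm U V) a b
      = sixForm (utForm U V a b) (vtForm U V a b) := by
  have h : invMap sixPoly = _ := sixForm_deform_mem_range.choose_spec
  rw [sixFam, ← aeval_invMap, h]
  show (aeval ![U, V, b, a]).toRingHom _ = _
  rw [map_sixForm, map_utForm, map_vtForm]
  simp

theorem map_fourFam {L : Type*} [CommRing L] [Algebra ℚ L] (f : K →ₐ[ℚ] L) (c₄ c₆ a b : K) :
    f (fourFam c₄ c₆ a b) = fourFam (f c₄) (f c₆) (f a) (f b) := by
  show (f.comp (aeval ![c₄, c₆, b, a])) fourPoly = _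
  rw [fourFam]
  congr 1
  ext i
  fin_cases i <;> simp

theorem map_sixFam {L : Type*} [CommRing L] [Algebra ℚ L] (f : K →ₐ[ℚ] L) (c₄ c₆ a b : K) :
    f (sixFam c₄ c₆ a b) = sixFam (f c₄) (f c₆) (f a) (f b) := by
  show (f.comp (aeval ![c₄, c₆, b, a])) sixPoly = _
  rw [sixFam]
  congr 1
  ext i
  fin_cases i <;> simp

end

end Invariance

end Fermat.Agent.Switch35
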