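import Mathlib
import Fermat.Agent.Switch35.Forms

/-!
# Points of order five in Tate normal form coordinates

For a Weierstrass curve `W` over a field of characteristic zero, the points of exact order `5`
correspond bijectively to the pairs `(U, V)` with `fourForm U V = c₄` and `sixForm U V = c₆`.
-/

set_option autoImplicit false

noncomputable section

namespace Fermat.Agent.Switch35

open WeierstrassCurve

variable {K : Type*} [Field K]

/-- A pair attached to a point of order five of `W`. -/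
def IsFivePair (W : WeierstrassCurve K) (p : K × K) : Prop :=
  fourForm p.1 p.2 = W.c₄ ∧ sixForm p.1 p.2 = W.c₆

/-- The abscissa attached to a pair. -/
def fiveX (W : WeierstrassCurve K) (p : K × K) : K :=
  (p.1 ^ 2 - 6 * p.1 * p.2 + p.2 ^ 2 - W.b₂) / 12

/-- The ordinate attached to a pair. -/
def fiveY (W : WeierstrassCurve K) (p : K × K) : K :=
  (-(p.1 ^ 2 * p.2) - W.a₁ * fiveX W p - W.a₃) / 2

/-- The pair of twice a point. -/
def turn (p : K × K) : K × K := (p.2, -p.1)

variable {W : WeierstrassCurve K}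

theorem IsFivePair.turn {p : K × K} (hp : IsFivePair W p) : IsFivePair W (turn p) := by
  obtain ⟨h4, h6⟩ := hp
  refine ⟨h4 ▸ ?_, h6 ▸ ?_⟩ <;> simp only [Switch35.turn, fourForm, sixForm] <;> ring

theorem IsFivePair.neg {p : K × K} (hp : IsFivePair W p) : IsFivePair W (-p) := by
  obtain ⟨h4, h6⟩ := hp
  refine ⟨h4 ▸ ?_, h6 ▸ ?_⟩ <;> simp only [Prod.fst_neg, Prod.snd_neg, fourForm, sixForm] <;> ring

theorem turn_turn (p : K × K) : Switch35.turn (Switch35.turn p) = -p := rfl

variable [CharZero K]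

theorem IsFivePair.discForm_eq {p : K × K} (hp : IsFivePair W p) :
    discForm p.1 p.2 = W.Δ := by
  have h := forms_relation p.1 p.2
  rw [hp.1, hp.2, ← W.c_relation] at h
  exact (mul_left_cancel₀ (by norm_num) h).symm

theorem IsFivePair.ne_zero (hΔ : W.Δ ≠ 0) {p : K × K} (hp : IsFivePair W p) :
    p.1 ≠ 0 ∧ p.2 ≠ 0 := by
  constructor <;> intro h <;> apply hΔ <;> rw [← hp.discForm_eq, discForm, h] <;> ring

theorem IsFivePair.equation {p : K × K} (hp : IsFivePair W p) :
    W.toAffine.Equation (fiveX W p) (fiveY W p) := by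
  obtain ⟨U, V⟩ := p
  obtain ⟨h4, h6⟩ := hp
  simp only at h4 h6
  rw [Affine.equation_iff]
  simp only [fourForm, sixForm, c₄, c₆, b₂, b₄, b₆, fiveY, fiveX] at h4 h6 ⊢
  linear_combination (-(U ^ 2 - 6 * U * V + V ^ 2) / 12 / 48) * h4 - (1 / 864) * h6

theorem IsFivePair.nonsingular (hΔ : W.Δ ≠ 0) {p : K × K} (hp : IsFivePair W p) :
    W.toAffine.Nonsingular (fiveX W p) (fiveY W p) :=
  (Affine.equation_iff_nonsingular_of_Δ_ne_zero hΔ).mp hp.equation

/-- The point attached to a pair. -/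
def fivePoint (hΔ : W.Δ ≠ 0) (p : K × K) (hp : IsFivePair W p) : W.toAffine.Point :=
  .some _ _ (hp.nonsingular hΔ)

theorem fivePoint_ne_zero (hΔ : W.Δ ≠ 0) (p : K × K) (hp : IsFivePair W p) :
    fivePoint hΔ p hp ≠ 0 := by
  simp [fivePoint]

theorem fivePoint_neg (hΔ : W.Δ ≠ 0) (p : K × K) (hp : IsFivePair W p) :
    fivePoint hΔ (-p) hp.neg = -fivePoint hΔ p hp := by
  simp only [fivePoint, Affine.Point.neg_some, Affine.Point.some.injEq, Affine.negY, fiveY, fiveX,
    Prod.fst_neg, Prod.snd_neg]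
  constructor <;> ring

theorem fiveY_ne_negY (hΔ : W.Δ ≠ 0) {p : K × K} (hp : IsFivePair W p) :
    fiveY W p ≠ W.toAffine.negY (fiveX W p) (fiveY W p) := by
  intro h
  obtain ⟨hU, hV⟩ := hp.ne_zero hΔ
  have : p.1 ^ 2 * p.2 = 0 := by
    simp only [Affine.negY, fiveY] at h
    linear_combination -h
  simp [hU, hV] at this

theorem fiveX_injective (hΔ : W.Δ ≠ 0) {p q : K × K} (hp : IsFivePair W p)
    (hq : IsFivePair W q) (hx : fiveX W p = fiveX W q) (hy : fiveY W p = fiveY W q) : p = q := by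
  obtain ⟨U, V⟩ := p
  obtain ⟨U', V'⟩ := q
  obtain ⟨hU, hV⟩ := hp.ne_zero hΔ
  have h4 := hp.1.trans hq.1.symm
  simp only [fiveX, fiveY] at hx hy
  simp only [fourForm] at h4 hU hV
  have e2 : U ^ 2 * V = U' ^ 2 * V' := by linear_combination -2 * hy - W.a₁ * hx
  have e1 : (U - V) ^ 2 - 4 * U * V = (U' - V') ^ 2 - 4 * U' * V' := by linear_combination 12 * hx
  have e3 : (U - V) = (U' - V') := by
    have h : U ^ 2 * V * ((U - V) - (U' - V')) = 0 := by
      linear_combination (U' - V') * (-e2) + (1 / 24) * h4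
        - ((U ^ 2 - 6 * U * V + V ^ 2) + (U' ^ 2 - 6 * U' * V' + V' ^ 2)) / 24 * e1
    rcases mul_eq_zero.mp h with h | h
    · simp [hU, hV] at h
    · linear_combination h
  have e4 : U * V = U' * V' := by
    linear_combination (-1 / 4) * e1 + ((U - V) + (U' - V')) / 4 * e3
  have e5 : U = U' := by
    apply mul_right_cancel₀ (mul_ne_zero hU hV)
    linear_combination e2 - U' * e4
  subst e5
  exact Prod.ext rfl (by linear_combination -e3)

variable [DecidableEq K]

theorem fiveSlope (hΔ : W.Δ ≠ 0) {p : K × K} (hp : IsFivePair W p) :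
    W.toAffine.slope (fiveX W p) (fiveX W p) (fiveY W p) (fiveY W p)
      = (p.1 - p.2 - W.a₁) / 2 := by
  rw [Affine.slope_of_Y_ne rfl (fiveY_ne_negY hΔ hp), div_eq_iff
    (sub_ne_zero.mpr (fiveY_ne_negY hΔ hp))]
  obtain ⟨U, V⟩ := p
  have h4 := hp.1
  simp only [fourForm, c₄, b₂, b₄] at h4
  simp only [Affine.negY, fiveY, fiveX, b₂]
  linear_combination (1 / 48) * h4

theorem fivePoint_add_self (hΔ : W.Δ ≠ 0) (p : K × K) (hp : IsFivePair W p) :
    fivePoint hΔ p hp + fivePoint hΔ p hp = fivePoint hΔ (turn p) hp.turn := by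
  simp only [fivePoint]
  rw [Affine.Point.add_self_of_Y_ne (fiveY_ne_negY hΔ hp)]
  simp only [Affine.Point.some.injEq]
  rw [fiveSlope hΔ hp]
  simp only [Affine.addX, Affine.addY, Affine.negAddY,
    Affine.negY, fiveY, fiveX, turn, b₂]
  constructor <;> ring

theorem five_nsmul_fivePoint (hΔ : W.Δ ≠ 0) (p : K × K) (hp : IsFivePair W p) :
    (5 : ℕ) • fivePoint hΔ p hp = 0 := by
  have h4 : (4 : ℕ) • fivePoint hΔ p hp = -fivePoint hΔ p hp := by
    rw [show (4 : ℕ) = 2 * 2 from rfl, mul_nsmul, two_nsmul, two_nsmul, fivePoint_add_self,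
      fivePoint_add_self, ← fivePoint_neg]
    rfl
  rw [succ_nsmul, h4, neg_add_cancel]

/-- Every point of order five comes from a pair. -/
theorem exists_fivePair (hΔ : W.Δ ≠ 0) {P : W.toAffine.Point} (hP : P ≠ 0)
    (h5 : (5 : ℕ) • P = 0) :
    ∃ (p : K × K) (hp : IsFivePair W p), fivePoint hΔ p hp = P := by
  have h2 : P + P ≠ 0 := by
    intro h
    apply hP
    have : (5 : ℕ) • P = (P + P) + (P + P) + P := by abel
    rwa [h5, h, add_zero, zero_add, eq_comm] at this
  have h3 : (3 : ℕ) • P ≠ 0 := by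
    intro h
    apply h2
    have : (5 : ℕ) • P = (3 : ℕ) • P + (P + P) := by abel
    rwa [h5, h, zero_add, eq_comm] at this
  have hPQ : P + (P + P) = -(P + P) := by
    rw [← add_eq_zero_iff_eq_neg, ← h5]; abel
  rcases P with - | ⟨x, y, hns⟩
  · exact absurd rfl hP
  have hy : y ≠ W.toAffine.negY x y := fun h => h2 (Affine.Point.add_self_of_Y_eq h)
  have hadd := Affine.Point.add_self_of_Y_ne (h₁ := hns) hy
  obtain ⟨l, hl⟩ : ∃ l, W.toAffine.slope x x y y = l := ⟨_, rfl⟩
  simp only [hl] at hadd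
  rw [hadd] at hPQ
  set x2 := W.toAffine.addX x x l with hx2
  set y2 := W.toAffine.addY x x y l with hy2
  have hx : x ≠ x2 := by
    intro hx
    rcases Affine.Y_eq_of_X_eq hns.left (Affine.nonsingular_add hns hns
        (fun hxy => hy hxy.right)).left (hx.trans (by rw [hl])) with h | h
    · apply hP
      have hEq : Affine.Point.some x y hns + Affine.Point.some x y hns
          = Affine.Point.some x y hns := by
        rw [Affine.Point.add_self_of_Y_ne hy]
        simp only [Affine.Point.some.injEq]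
        exact ⟨(hx.trans (by rw [hl])).symm, h.symm⟩
      simp at hEq
    · apply h3
      have : (3 : ℕ) • Affine.Point.some x y hns
          = Affine.Point.some x y hns + (Affine.Point.some x y hns + Affine.Point.some x y hns) := by
        abel
      rw [this, Affine.Point.add_self_of_Y_ne hy]
      exact Affine.Point.add_of_Y_eq (hx.trans (by rw [hl])) h
  rw [Affine.Point.add_of_X_ne hx, Affine.Point.neg_some] at hPQ
  obtain ⟨hX3, -⟩ := Affine.Point.some.inj hPQ
  rw [Affine.slope_of_X_ne hx] at hX3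
  rw [Affine.slope_of_Y_ne rfl hy, div_eq_iff (sub_ne_zero.mpr hy)] at hl
  have heq := (Affine.equation_iff _ _).mp hns.left
  obtain ⟨δ, hδ⟩ : ∃ δ, x2 - x = δ := ⟨_, rfl⟩
  have hδ0 : δ ≠ 0 := hδ ▸ sub_ne_zero.mpr (Ne.symm hx)
  obtain ⟨Y, hYd⟩ : ∃ Y, 2 * y + W.a₁ * x + W.a₃ = Y := ⟨_, rfl⟩
  obtain ⟨m, hmd⟩ : ∃ m, l + W.a₁ / 2 = m := ⟨_, rfl⟩
  obtain ⟨U, hUd⟩ : ∃ U, -Y / δ = U := ⟨_, rfl⟩
  have hUδ : U * δ = -Y := by rw [← hUd, div_mul_cancel₀ _ hδ0]
  obtain ⟨X, hXd⟩ : ∃ X, x + W.b₂ / 12 = X := ⟨_, rfl⟩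
  have hX2 : x2 = l ^ 2 + W.a₁ * l - W.a₂ - x - x := rfl
  have hXm : 3 * X = m ^ 2 - δ := by
    rw [← hXd, ← hmd, ← hδ, hX2, b₂]; ring
  have hUV : U * (U - 2 * m) = δ := by
    simp only [Affine.addX] at hX3
    have hslope : (y - y2) / (x - x2) = -m + U - W.a₁ / 2 := by
      have hy2' : y2 = -(l * (x2 - x) + y) - W.a₁ * x2 - W.a₃ := rfl
      rw [div_eq_iff (sub_ne_zero.mpr hx), hy2']
      linear_combination hYd + hUδ + (x2 - x) * hmd + U * hδ
    rw [hslope] at hX3
    rw [← hmd] at hX3 ⊢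
    linear_combination hX3 + hδ
  have hslope4 : 3 * X ^ 2 - W.c₄ / 48 = m * Y := by
    simp only [Affine.negY] at hl
    rw [← hXd, ← hmd, ← hYd]
    simp only [c₄, b₂, b₄]
    linear_combination hl
  have hcub : Y ^ 2 = 4 * X ^ 3 - W.c₄ / 12 * X - W.c₆ / 216 := by
    rw [← hXd, ← hYd]
    simp only [c₄, c₆, b₂, b₄, b₆]
    linear_combination 4 * heq
  have hY' : Y = -(U ^ 2 * (U - 2 * m)) := by
    rw [← hUV] at hUδ
    linear_combination hUδ
  have hX' : X = (U ^ 2 - 6 * U * (U - 2 * m) + (U - 2 * m) ^ 2) / 12 := by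
    linear_combination (1 / 3) * hXm + (1 / 3) * hUV
  refine ⟨(U, U - 2 * m), ⟨?_, ?_⟩, ?_⟩
  · simp only [fourForm]
    rw [hX', hY'] at hslope4
    linear_combination 48 * hslope4
  · simp only [sixForm]
    rw [hX', hY'] at hcub hslope4
    linear_combination -216 * hcub - 864 * ((U ^ 2 - 6 * U * (U - 2 * m) + (U - 2 * m) ^ 2) / 12)
      * hslope4
  · simp only [fivePoint, Affine.Point.some.injEq]
    have hx' : fiveX W (U, U - 2 * m) = x := by
      simp only [fiveX]
      linear_combination -hX' - hXd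
    refine ⟨hx', ?_⟩
    simp only [fiveY, hx']
    rw [hY'] at hYd
    linear_combination (-1 / 2) * hYd

end Fermat.Agent.Switch35
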