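import Mathlib
import Fermat.Agent.Switch35.FiveTorsion

/-!
# The count of the pairs attached to a curve, and the deformed curve
-/

set_option autoImplicit false

noncomputable section

namespace Fermat.Agent.Switch35

open Polynomial

variable {K : Type*} [Field K] [CharZero K]

/-- The curve with the same `a₁, a₂, a₃` as `W` and with invariants `C₄, C₆`. -/
def modCurve (W : WeierstrassCurve K) (C₄ C₆ : K) : WeierstrassCurve K :=
  ⟨W.a₁, W.a₂, W.a₃, W.a₄ + (W.c₄ - C₄) / 48,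
    W.a₆ + W.b₂ * (W.c₄ - C₄) / 576 + (W.c₆ - C₆) / 864⟩

theorem modCurve_b₂ (W : WeierstrassCurve K) (C₄ C₆ : K) : (modCurve W C₄ C₆).b₂ = W.b₂ := rfl

theorem modCurve_c₄ (W : WeierstrassCurve K) (C₄ C₆ : K) : (modCurve W C₄ C₆).c₄ = C₄ := by
  simp only [modCurve, WeierstrassCurve.c₄, WeierstrassCurve.b₂, WeierstrassCurve.b₄]; ring

theorem modCurve_c₆ (W : WeierstrassCurve K) (C₄ C₆ : K) : (modCurve W C₄ C₆).c₆ = C₆ := by
  simp only [modCurve, WeierstrassCurve.c₄, WeierstrassCurve.c₆, WeierstrassCurve.b₂,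
    WeierstrassCurve.b₄, WeierstrassCurve.b₆]
  ring

theorem modCurve_Δ (W : WeierstrassCurve K) (C₄ C₆ : K) :
    1728 * (modCurve W C₄ C₆).Δ = C₄ ^ 3 - C₆ ^ 2 := by
  rw [WeierstrassCurve.c_relation, modCurve_c₄, modCurve_c₆]

variable [IsAlgClosed K]

theorem exists_fivePairs (W : WeierstrassCurve K) (hΔ : W.Δ ≠ 0) (h4 : W.c₄ ≠ 0)
    (h6 : W.c₆ ≠ 0) :
    ∃ F : Finset (K × K), F.card = 24 ∧ ∀ p, p ∈ F ↔ IsFivePair W p := by
  classical
  set P : K[X] := C (W.c₆ ^ 2) * fourForm 1 X ^ 3 - C (W.c₄ ^ 3) * sixForm 1 X ^ 2 with hP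
  have hlead : W.c₆ ^ 2 - W.c₄ ^ 3 ≠ 0 := by
    intro h
    apply hΔ
    have := W.c_relation
    rw [← neg_sub, h, neg_zero] at this
    simpa using this
  have hdeg : P.natDegree = 12 := by
    have e4 : fourForm (1 : K[X]) X
        = X ^ 4 - C 12 * X ^ 3 + C 14 * X ^ 2 + C 12 * X + C 1 := by
      simp only [fourForm, map_ofNat, map_one]; ring
    have e6 : sixForm (1 : K[X]) X
        = -(X ^ 6 - C 18 * X ^ 5 + C 75 * X ^ 4 + C 75 * X ^ 2 + C 18 * X + C 1) := by
      simp only [sixForm, map_ofNat, map_one]; ring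
    rw [hP, e4, e6, neg_sq]
    compute_degree!
  have heval : ∀ b : K, P.eval b
      = W.c₆ ^ 2 * fourForm 1 b ^ 3 - W.c₄ ^ 3 * sixForm 1 b ^ 2 := by
    intro b
    simp [hP, fourForm, sixForm]
  have hderiv : ∀ b : K, P.derivative.eval b
      = W.c₆ ^ 2 * (3 * fourForm 1 b ^ 2 * (12 + 28 * b - 36 * b ^ 2 + 4 * b ^ 3))
        - W.c₄ ^ 3 * (2 * sixForm 1 b * -(2 * b * (1 + 18 * b + 74 * b ^ 2 - 18 * b ^ 3 + b ^ 4)
          + (1 + b ^ 2) * (18 + 148 * b - 54 * b ^ 2 + 4 * b ^ 3))) := by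
    intro b
    simp [hP, fourForm, sixForm, derivative_pow, mul_add, add_mul, sub_mul]
    ring
  have hne : ∀ b : K, P.IsRoot b → fourForm 1 b ≠ 0 ∧ sixForm 1 b ≠ 0 := by
    intro b hb
    rw [IsRoot, heval] at hb
    constructor <;> intro h <;> rw [h] at hb <;> simp [h4, h6] at hb <;>
      exact one_ne_zero (eq_zero_of_fourForm_eq_zero (k := K) (by norm_num) (U := 1) (V := b)
        (by first | exact h | exact hb)
        (by
          have := forms_relation (1 : K) b
          rw [h, hb] at this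
          simpa using this.symm)).1
  have hsimple : P.roots.Nodup := by
    have hP0 : P ≠ 0 := ne_zero_of_natDegree_gt (n := 0) (by omega)
    rw [Multiset.nodup_iff_count_le_one]
    intro b
    rw [count_roots]
    by_contra hcon
    push Not at hcon
    obtain ⟨hb, hb'⟩ := (one_lt_rootMultiplicity_iff_isRoot hP0).mp hcon
    obtain ⟨hC, hS⟩ := hne b hb
    have hb0 : b ≠ 0 := by
      rintro rfl
      apply hlead
      rw [IsRoot, heval] at hb
      simp [fourForm, sixForm] at hb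
      linear_combination hb
    rw [IsRoot, heval] at hb
    rw [IsRoot, hderiv] at hb'
    have : W.c₄ ^ 3 * sixForm 1 b ^ 2 * (8640 * b ^ 4) = 0 := by
      have key : 3 * (12 + 28 * b - 36 * b ^ 2 + 4 * b ^ 3) * sixForm 1 b
          - 2 * fourForm 1 b * -(2 * b * (1 + 18 * b + 74 * b ^ 2 - 18 * b ^ 3 + b ^ 4)
            + (1 + b ^ 2) * (18 + 148 * b - 54 * b ^ 2 + 4 * b ^ 3)) = 8640 * b ^ 4 := by
        simp only [fourForm, sixForm]; ring
      rw [← key]
      linear_combination (fourForm 1 b * sixForm 1 b) * hb'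
        - (3 * (12 + 28 * b - 36 * b ^ 2 + 4 * b ^ 3) * sixForm 1 b) * hb
    simp [h4, hS, hb0] at this
  have hcard : P.roots.toFinset.card = 12 := by
    rw [Multiset.toFinset_card_of_nodup hsimple, ← hdeg]
    exact (IsAlgClosed.splits P).natDegree_eq_card_roots.symm
  have hsq : ∀ b : K, ∃ r : K, r ^ 2 = W.c₆ * fourForm 1 b / (W.c₄ * sixForm 1 b) := fun b =>
    IsAlgClosed.exists_pow_nat_eq _ two_pos
  choose r hr using hsq
  refine ⟨(P.roots.toFinset ×ˢ ({1, -1} : Finset K)).image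
    (fun x => (x.2 * r x.1, x.2 * r x.1 * x.1)), ?_, ?_⟩
  · have hr0 : ∀ b ∈ P.roots.toFinset, r b ≠ 0 := by
      intro b hb h
      obtain ⟨hC, hS⟩ := hne b (isRoot_of_mem_roots (Multiset.mem_toFinset.mp hb))
      have := hr b
      rw [h] at this
      rw [zero_pow two_ne_zero] at this
      exact div_ne_zero (mul_ne_zero h6 hC) (mul_ne_zero h4 hS) this.symm
    rw [Finset.card_image_of_injOn, Finset.card_product, hcard,
      Finset.card_pair (by norm_num)]
    rintro ⟨b, e⟩ hbe ⟨b', e'⟩ hbe' h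
    simp only [Finset.coe_product, Set.mem_prod, Finset.mem_coe, Finset.mem_insert,
      Finset.mem_singleton] at hbe hbe'
    simp only [Prod.mk.injEq] at h
    have hne' : e * r b ≠ 0 := mul_ne_zero (by rcases hbe.2 with rfl | rfl <;> norm_num)
      (hr0 b hbe.1)
    obtain rfl : b = b' := mul_left_cancel₀ hne' (by rw [h.2, h.1])
    rw [mul_right_cancel₀ (hr0 b hbe.1) h.1]
  · intro p
    simp only [Finset.mem_image, Finset.mem_product, Finset.mem_insert, Finset.mem_singleton,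
      Multiset.mem_toFinset, mem_roots', Prod.exists]
    constructor
    · rintro ⟨b, e, ⟨⟨-, hb⟩, he⟩, rfl⟩
      obtain ⟨hC, hS⟩ := hne b hb
      have hb' := hb
      rw [IsRoot, heval] at hb'
      have he2 : e ^ 2 = 1 := by rcases he with rfl | rfl <;> norm_num
      have h2 : (e * r b) ^ 2 * (W.c₄ * sixForm 1 b) = W.c₆ * fourForm 1 b := by
        rw [mul_pow, he2, one_mul, hr, div_mul_cancel₀ _ (mul_ne_zero h4 hS)]
      have s4 : fourForm (e * r b) (e * r b * b) = (e * r b) ^ 4 * fourForm 1 b := by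
        rw [← fourForm_scale]; simp
      have s6 : sixForm (e * r b) (e * r b * b) = (e * r b) ^ 6 * sixForm 1 b := by
        rw [← sixForm_scale]; simp
      refine ⟨?_, ?_⟩
      · apply mul_right_cancel₀ (pow_ne_zero 2 (mul_ne_zero h4 hS))
        simp only [s4]
        linear_combination fourForm 1 b * ((e * r b) ^ 2 * (W.c₄ * sixForm 1 b)
          + W.c₆ * fourForm 1 b) * h2 + hb'
      · apply mul_right_cancel₀ (mul_ne_zero (pow_ne_zero 3 (mul_ne_zero h4 hS)) h6)
        simp only [s6]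
        linear_combination sixForm 1 b * W.c₆ * (((e * r b) ^ 2 * (W.c₄ * sixForm 1 b)) ^ 2
          + ((e * r b) ^ 2 * (W.c₄ * sixForm 1 b)) * (W.c₆ * fourForm 1 b)
          + (W.c₆ * fourForm 1 b) ^ 2) * h2 + W.c₆ ^ 2 * sixForm 1 b * hb'
    · intro hp
      obtain ⟨U, V⟩ := p
      obtain ⟨hU, -⟩ := hp.ne_zero hΔ
      simp only at hU
      obtain ⟨e4, e6⟩ := hp
      simp only at e4 e6
      have s4 : W.c₄ = U ^ 4 * fourForm 1 (V / U) := by
        rw [← fourForm_scale, mul_one, mul_div_cancel₀ _ hU, e4]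
      have s6 : W.c₆ = U ^ 6 * sixForm 1 (V / U) := by
        rw [← sixForm_scale, mul_one, mul_div_cancel₀ _ hU, e6]
      have hb : P.IsRoot (V / U) := by
        rw [IsRoot, heval, s4, s6]; ring
      obtain ⟨hC, hS⟩ := hne _ hb
      have hU2 : r (V / U) ^ 2 = U ^ 2 := by
        rw [hr, div_eq_iff (mul_ne_zero h4 hS), s4, s6]; ring
      rcases eq_or_eq_neg_of_sq_eq_sq _ _ hU2 with h | h
      · refine ⟨V / U, 1, ⟨⟨ne_zero_of_natDegree_gt (n := 0) (by omega), hb⟩, .inl rfl⟩, ?_⟩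
        rw [h, one_mul, mul_div_cancel₀ _ hU]
      · refine ⟨V / U, -1, ⟨⟨ne_zero_of_natDegree_gt (n := 0) (by omega), hb⟩, .inr rfl⟩, ?_⟩
        rw [h, neg_one_mul, neg_neg, mul_div_cancel₀ _ hU]

end Fermat.Agent.Switch35
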