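import Mathlib
import Fermat.Agent.Switch35.Pairs

/-!
# The deformation preserves the `5`-torsion module

The map on pairs `(U, V) ↦ (utForm U V a b, vtForm U V a b)` induces an isomorphism of the groups
of `5`-torsion points.  Additivity is obtained from a polynomial identity along the line joining
`(0, 1)` to `(a, b)`.
-/

set_option autoImplicit false

noncomputable section

namespace Fermat.Agent.Switch35

open Polynomial WeierstrassCurve

variable {K : Type*} [Field K] [CharZero K]

/-- The deformed pair. -/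
def deformPair {R : Type*} [CommRing R] (a b : R) (p : R × R) : R × R :=
  (utForm p.1 p.2 a b, vtForm p.1 p.2 a b)

theorem deformPair_turn (a b : K) (p : K × K) :
    deformPair a b (turn p) = turn (deformPair a b p) := by
  simp only [deformPair, turn, utForm, vtForm, evenFive, oddFive, Prod.mk.injEq]
  constructor <;> ring

theorem deformPair_neg (a b : K) (p : K × K) : deformPair a b (-p) = -deformPair a b p := by
  simp [deformPair, utForm_neg, vtForm_neg]

theorem deformPair_zero_one (p : K × K) : deformPair 0 1 p = p := by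
  simp [deformPair, utForm_zero, vtForm_zero]

/-- The deformation of `W` with parameters `(a, b)`. -/
def famCurve (W : WeierstrassCurve K) (a b : K) : WeierstrassCurve K :=
  modCurve W (fourFam W.c₄ W.c₆ a b) (sixFam W.c₄ W.c₆ a b)

theorem IsFivePair.deform {W : WeierstrassCurve K} {p : K × K} (hp : IsFivePair W p) (a b : K) :
    IsFivePair (famCurve W a b) (deformPair a b p) := by
  constructor
  · rw [famCurve, modCurve_c₄, ← hp.1, ← hp.2, fourFam_forms, deformPair]
  · rw [famCurve, modCurve_c₆, ← hp.1, ← hp.2, sixFam_forms, deformPair]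

section Residual

variable {R : Type*} [CommRing R] [Algebra K R] (W : WeierstrassCurve K)

/-- The abscissa of a pair with coordinates in an algebra. -/
def algX (p : R × R) : R :=
  algebraMap K R 12⁻¹ * (p.1 ^ 2 - 6 * p.1 * p.2 + p.2 ^ 2 - algebraMap K R W.b₂)

/-- The ordinate of a pair with coordinates in an algebra. -/
def algY (p : R × R) : R :=
  algebraMap K R 2⁻¹ *
    (-(p.1 ^ 2 * p.2) - algebraMap K R W.a₁ * algX W p - algebraMap K R W.a₃)

/-- Vanishes iff the abscissa of `r` is that of the sum of `p` and `q`. -/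
def addRes₁ (p q r : R × R) : R :=
  (algX W p - algX W q) ^ 2 * (algX W r + algebraMap K R W.a₂ + algX W p + algX W q)
    - (algY W p - algY W q) ^ 2
    - algebraMap K R W.a₁ * (algY W p - algY W q) * (algX W p - algX W q)

/-- Vanishes, with `addRes₁`, iff `r` is the sum of `p` and `q`. -/
def addRes₂ (p q r : R × R) : R :=
  (algY W r + algebraMap K R W.a₁ * algX W r + algebraMap K R W.a₃ + algY W p)
      * (algX W p - algX W q)
    + (algY W p - algY W q) * (algX W r - algX W p)

variable {S : Type*} [CommRing S] [Algebra K S]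

omit [CharZero K] in
theorem map_algX (f : R →ₐ[K] S) (p : R × R) : f (algX W p) = algX W (f p.1, f p.2) := by
  simp [algX, map_ofNat]

omit [CharZero K] in
theorem map_algY (f : R →ₐ[K] S) (p : R × R) : f (algY W p) = algY W (f p.1, f p.2) := by
  simp [algY, map_algX]

omit [CharZero K] in
theorem map_addRes₁ (f : R →ₐ[K] S) (p q r : R × R) :
    f (addRes₁ W p q r) = addRes₁ W (f p.1, f p.2) (f q.1, f q.2) (f r.1, f r.2) := by
  simp [addRes₁, map_algX, map_algY]

omit [CharZero K] in
theorem map_addRes₂ (f : R →ₐ[K] S) (p q r : R × R) :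
    f (addRes₂ W p q r) = addRes₂ W (f p.1, f p.2) (f q.1, f q.2) (f r.1, f r.2) := by
  simp [addRes₂, map_algX, map_algY]

end Residual

omit [CharZero K] in
theorem algX_eq (W : WeierstrassCurve K) (p : K × K) : algX W p = fiveX W p := by
  simp only [algX, fiveX, Algebra.algebraMap_self, RingHom.id_apply]
  ring

omit [CharZero K] in
theorem algY_eq (W : WeierstrassCurve K) (p : K × K) : algY W p = fiveY W p := by
  simp only [algY, fiveY, algX_eq, Algebra.algebraMap_self, RingHom.id_apply]
  ring

omit [CharZero K] in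
theorem addRes₁_congr {W W' : WeierstrassCurve K} (h₁ : W'.a₁ = W.a₁) (h₂ : W'.a₂ = W.a₂)
    (h₃ : W'.a₃ = W.a₃) (p q r : K × K) : addRes₁ W' p q r = addRes₁ W p q r := by
  simp [addRes₁, algY, algX, b₂, h₁, h₂, h₃]

omit [CharZero K] in
theorem addRes₂_congr {W W' : WeierstrassCurve K} (h₁ : W'.a₁ = W.a₁) (h₂ : W'.a₂ = W.a₂)
    (h₃ : W'.a₃ = W.a₃) (p q r : K × K) : addRes₂ W' p q r = addRes₂ W p q r := by
  simp [addRes₂, algY, algX, b₂, h₁, h₂, h₃]

variable [DecidableEq K]

theorem fivePoint_add_iff {W : WeierstrassCurve K} (hΔ : W.Δ ≠ 0) {p q r : K × K}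
    (hp : IsFivePair W p) (hq : IsFivePair W q) (hr : IsFivePair W r)
    (hx : fiveX W p ≠ fiveX W q) :
    fivePoint hΔ p hp + fivePoint hΔ q hq = fivePoint hΔ r hr ↔
      addRes₁ W p q r = 0 ∧ addRes₂ W p q r = 0 := by
  have hd := sub_ne_zero.mpr hx
  simp only [fivePoint, Affine.Point.add_of_X_ne hx, Affine.Point.some.injEq,
    Affine.slope_of_X_ne hx, Affine.addY, Affine.negAddY, Affine.addX, Affine.negY, addRes₁,
    addRes₂, algX_eq, algY_eq, Algebra.algebraMap_self, RingHom.id_apply]
  generalize fiveX W p = xp at *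
  generalize fiveX W q = xq at *
  generalize fiveX W r = xr at *
  generalize fiveY W p = yp at *
  generalize fiveY W q = yq at *
  generalize fiveY W r = yr at *
  obtain ⟨l, hl⟩ : ∃ l, (yp - yq) / (xp - xq) = l := ⟨_, rfl⟩
  rw [hl]
  have hl' : yp - yq = l * (xp - xq) := by rw [← hl, div_mul_cancel₀ _ hd]
  constructor
  · rintro ⟨h₁, h₂⟩
    subst h₁
    subst h₂
    constructor <;> rw [hl'] <;> ring
  · rintro ⟨h₁, h₂⟩
    have e₁ : l ^ 2 + W.a₁ * l - W.a₂ - xp - xq = xr := by
      apply mul_left_cancel₀ (pow_ne_zero 2 hd)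
      rw [hl'] at h₁
      linear_combination -h₁
    refine ⟨e₁, ?_⟩
    apply mul_right_cancel₀ hd
    rw [hl'] at h₂
    linear_combination -h₂ - (l + W.a₁) * (xp - xq) * e₁

variable [IsAlgClosed K]

theorem add_deformPair {W : WeierstrassCurve K} (hΔ : W.Δ ≠ 0) (h4 : W.c₄ ≠ 0) (h6 : W.c₆ ≠ 0)
    (a b : K) (hΔ' : (famCurve W a b).Δ ≠ 0) {p q r : K × K}
    (hp : IsFivePair W p) (hq : IsFivePair W q) (hr : IsFivePair W r)
    (hx : fiveX W p ≠ fiveX W q)
    (hx' : fiveX (famCurve W a b) (deformPair a b p) ≠ fiveX (famCurve W a b) (deformPair a b q))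
    (hsum : fivePoint hΔ p hp + fivePoint hΔ q hq = fivePoint hΔ r hr) :
    fivePoint hΔ' (deformPair a b p) (hp.deform a b) +
        fivePoint hΔ' (deformPair a b q) (hq.deform a b) =
      fivePoint hΔ' (deformPair a b r) (hr.deform a b) := by
  classical
  obtain ⟨F, hF24, hF⟩ := exists_fivePairs W hΔ h4 h6
  let A : K[X] := C a * X
  let B : K[X] := 1 + X * (C b - 1)
  let φ : K × K → K[X] × K[X] := fun s => deformPair A B (C s.1, C s.2)
  have hev : ∀ (z : K) (s : K × K),
      (aeval z (φ s).1, aeval z (φ s).2) = deformPair (a * z) (1 + z * (b - 1)) s := by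
    intro z s
    show ((aeval z).toRingHom _, (aeval z).toRingHom _) = _
    simp only [φ, deformPair, map_utForm, map_vtForm, A, B]
    simp
  let H₁ : K × K → K[X] := fun s => addRes₁ W (φ p) (φ q) (φ s)
  let H₂ : K × K → K[X] := fun s => addRes₂ W (φ p) (φ q) (φ s)
  have heq : ∀ z s, aeval z (H₁ s) =
      addRes₁ W (deformPair (a * z) (1 + z * (b - 1)) p) (deformPair (a * z) (1 + z * (b - 1)) q)
        (deformPair (a * z) (1 + z * (b - 1)) s) := by
    intro z s; simp only [H₁, map_addRes₁, hev]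
  have heq₂ : ∀ z s, aeval z (H₂ s) =
      addRes₂ W (deformPair (a * z) (1 + z * (b - 1)) p) (deformPair (a * z) (1 + z * (b - 1)) q)
        (deformPair (a * z) (1 + z * (b - 1)) s) := by
    intro z s; simp only [H₂, map_addRes₂, hev]
  -- some candidate satisfies both identities
  have hex : ∃ s ∈ F, H₁ s = 0 ∧ H₂ s = 0 := by
    by_contra hcon
    push Not at hcon
    have hpick : ∀ s ∈ F, ∃ H : K[X], H ≠ 0 ∧ (H = H₁ s ∨ H = H₂ s) := by
      intro s hs
      by_cases h : H₁ s = 0
      · exact ⟨H₂ s, hcon s hs h, .inr rfl⟩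
      · exact ⟨H₁ s, h, .inl rfl⟩
    choose! H hH0 hH using hpick
    let sep : (K × K) × (K × K) → K[X] := fun st =>
      if (φ st.1).1 = (φ st.2).1 then (φ st.1).2 - (φ st.2).2 else (φ st.1).1 - (φ st.2).1
    have hsep : ∀ st ∈ F.offDiag, sep st ≠ 0 := by
      intro st hst
      simp only [Finset.mem_offDiag] at hst
      simp only [sep]
      split_ifs with h
      · intro h'
        apply hst.2.2
        have e := hev 0 st.1
        rw [h, sub_eq_zero.mp h', hev 0 st.2] at e
        simpa [deformPair_zero_one] using e.symm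
      · exact sub_ne_zero.mpr h
    let G : K[X] := fourForm (φ p).1 (φ p).2 * sixForm (φ p).1 (φ p).2
      * (fourForm (φ p).1 (φ p).2 ^ 3 - sixForm (φ p).1 (φ p).2 ^ 2)
      * (algX W (φ p) - algX W (φ q))
    have hGev : ∀ z, aeval z G = fourForm (deformPair (a * z) (1 + z * (b - 1)) p).1
        (deformPair (a * z) (1 + z * (b - 1)) p).2
        * sixForm (deformPair (a * z) (1 + z * (b - 1)) p).1
          (deformPair (a * z) (1 + z * (b - 1)) p).2
        * (fourForm (deformPair (a * z) (1 + z * (b - 1)) p).1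
            (deformPair (a * z) (1 + z * (b - 1)) p).2 ^ 3
          - sixForm (deformPair (a * z) (1 + z * (b - 1)) p).1
            (deformPair (a * z) (1 + z * (b - 1)) p).2 ^ 2)
        * (algX W (deformPair (a * z) (1 + z * (b - 1)) p)
          - algX W (deformPair (a * z) (1 + z * (b - 1)) q)) := by
      intro z
      have h1 := congrArg Prod.fst (hev z p)
      have h2 := congrArg Prod.snd (hev z p)
      simp only at h1 h2
      simp only [G, map_mul, map_sub, map_pow, map_algX, hev]
      rw [show aeval z (fourForm (φ p).1 (φ p).2) = fourForm (aeval z (φ p).1) (aeval z (φ p).2)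
          from map_fourForm (aeval z : K[X] →ₐ[K] K).toRingHom _ _,
        show aeval z (sixForm (φ p).1 (φ p).2) = sixForm (aeval z (φ p).1) (aeval z (φ p).2)
          from map_sixForm (aeval z : K[X] →ₐ[K] K).toRingHom _ _, h1, h2]
    have hG : G ≠ 0 := by
      intro h
      have := hGev 0
      rw [h, map_zero, mul_zero, zero_mul, add_zero, deformPair_zero_one, deformPair_zero_one,
        hp.1, hp.2, ← c_relation, algX_eq, algX_eq] at this
      simp [h4, h6, hΔ, sub_ne_zero.mpr hx] at this
    have hbig : G * (∏ st ∈ F.offDiag, sep st) * ∏ s ∈ F, H s ≠ 0 :=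
      mul_ne_zero (mul_ne_zero hG (Finset.prod_ne_zero_iff.mpr hsep))
        (Finset.prod_ne_zero_iff.mpr hH0)
    obtain ⟨z, hz⟩ := Polynomial.exists_eval_ne_zero_of_natDegree_lt_card _ hbig
      ((Cardinal.natCast_lt_aleph0).trans_le (Cardinal.infinite_iff.mp inferInstance))
    rw [← coe_aeval_eq_eval, map_mul, map_mul, map_prod, map_prod] at hz
    obtain ⟨⟨hzG, hzsep⟩, hzH⟩ : (aeval z G ≠ 0 ∧ ∀ st ∈ F.offDiag, aeval z (sep st) ≠ 0) ∧
        ∀ s ∈ F, aeval z (H s) ≠ 0 := by
      simpa [mul_eq_zero, Finset.prod_ne_zero_iff] using hz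
    rw [hGev] at hzG
    set a' := a * z
    set b' := 1 + z * (b - 1)
    obtain ⟨⟨⟨hz4, hz6⟩, hzΔ⟩, hzx⟩ := by simpa [mul_eq_zero, not_or] using hzG
    set W' := famCurve W a' b'
    have hW4 : W'.c₄ ≠ 0 := (hp.deform a' b').1 ▸ hz4
    have hW6 : W'.c₆ ≠ 0 := (hp.deform a' b').2 ▸ hz6
    have hWΔ : W'.Δ ≠ 0 := by
      intro h
      apply hzΔ
      rw [(hp.deform a' b').1, (hp.deform a' b').2, ← c_relation, h, mul_zero]
    obtain ⟨F', hF'24, hF'⟩ := exists_fivePairs W' hWΔ hW4 hW6
    have himg : F.image (deformPair a' b') = F' := by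
      apply Finset.eq_of_subset_of_card_le
      · intro s hs
        obtain ⟨t, ht, rfl⟩ := Finset.mem_image.mp hs
        exact (hF' _).mpr (((hF _).mp ht).deform a' b')
      · rw [hF'24, Finset.card_image_of_injOn, hF24]
        intro s hs t ht hst
        by_contra hne
        apply hzsep (s, t) (Finset.mem_offDiag.mpr ⟨hs, ht, hne⟩)
        have e₁ := hev z s
        have e₂ := hev z t
        simp only [sep]
        rw [hst, ← e₂, Prod.mk.injEq] at e₁
        split_ifs <;> simp [e₁.1, e₁.2]
    have hb₂ : W'.b₂ = W.b₂ := rfl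
    have hxz : fiveX W' (deformPair a' b' p) ≠ fiveX W' (deformPair a' b' q) := by
      intro h
      apply hzx
      rw [algX_eq, algX_eq]
      simp only [fiveX, hb₂] at h ⊢
      rw [h, sub_self]
    set P' := fivePoint hWΔ _ (hp.deform a' b') + fivePoint hWΔ _ (hq.deform a' b') with hP'
    have hP'0 : P' ≠ 0 := by
      simp only [hP', fivePoint, Affine.Point.add_of_X_ne hxz]
      exact Affine.Point.some_ne_zero _
    have hP'5 : (5 : ℕ) • P' = 0 := by
      rw [hP', nsmul_add, five_nsmul_fivePoint, five_nsmul_fivePoint, add_zero]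
    obtain ⟨s', hs', hs'P⟩ := exists_fivePair hWΔ hP'0 hP'5
    have hmem : s' ∈ F.image (deformPair a' b') := himg ▸ (hF' s').mpr hs'
    obtain ⟨s, hs, rfl⟩ := Finset.mem_image.mp hmem
    obtain ⟨r₁, r₂⟩ := (fivePoint_add_iff hWΔ _ _ hs' hxz).mp hs'P.symm
    rw [addRes₁_congr (W := W) (W' := W') rfl rfl rfl] at r₁
    rw [addRes₂_congr (W := W) (W' := W') rfl rfl rfl] at r₂
    rcases hH s hs with e | e
    · exact hzH s hs (by rw [e, heq, r₁])
    · exact hzH s hs (by rw [e, heq₂, r₂])
  obtain ⟨s, hs, hs₁, hs₂⟩ := hex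
  -- identification at the origin
  have h0 : s = r := by
    have hs' := (hF s).mp hs
    have e₁ := heq 0 s
    have e₂ := heq₂ 0 s
    simp only [hs₁, hs₂, map_zero, mul_zero, zero_mul, add_zero, deformPair_zero_one] at e₁ e₂
    have := (fivePoint_add_iff hΔ hp hq hs' hx).mpr ⟨e₁.symm, e₂.symm⟩
    rw [hsum] at this
    simp only [fivePoint, Affine.Point.some.injEq] at this
    exact (fiveX_injective hΔ hr hs' this.1 this.2).symm
  subst h0
  have e₁ := heq 1 s
  have e₂ := heq₂ 1 s
  simp only [hs₁, hs₂, map_zero, mul_one, one_mul, add_sub_cancel] at e₁ e₂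
  apply (fivePoint_add_iff hΔ' _ _ _ hx').mpr
  exact ⟨(addRes₁_congr (W := W) (W' := famCurve W a b) rfl rfl rfl _ _ _).trans e₁.symm,
    (addRes₂_congr (W := W) (W' := famCurve W a b) rfl rfl rfl _ _ _).trans e₂.symm⟩

end Fermat.Agent.Switch35
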