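import Mathlib
import Fermat.Agent.Switch35.FiveIso

/-!
# The isomorphism of `5`-torsion groups
-/

set_option autoImplicit false

noncomputable section

namespace Fermat.Agent.Switch35

open WeierstrassCurve

variable {K : Type*} [Field K] [CharZero K] [DecidableEq K] {W : WeierstrassCurve K} {a b : K}

open scoped Classical in
/-- The map induced by the deformation on points of order five. -/
def deformPoint (hΔ : W.Δ ≠ 0) (hΔ' : (famCurve W a b).Δ ≠ 0) (P : W.toAffine.Point) :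
    (famCurve W a b).toAffine.Point :=
  if h : ∃ (p : K × K) (hp : IsFivePair W p), fivePoint hΔ p hp = P then
    fivePoint hΔ' (deformPair a b h.choose) (h.choose_spec.choose.deform a b)
  else 0

section

variable (hΔ : W.Δ ≠ 0) (hΔ' : (famCurve W a b).Δ ≠ 0)

omit [DecidableEq K] in
theorem fivePoint_inj {p q : K × K} (hp : IsFivePair W p) (hq : IsFivePair W q)
    (h : fivePoint hΔ p hp = fivePoint hΔ q hq) : p = q := by
  simp only [fivePoint, Affine.Point.some.injEq] at h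
  exact fiveX_injective hΔ hp hq h.1 h.2

omit [DecidableEq K] in
theorem deformPoint_fivePoint {p : K × K} (hp : IsFivePair W p) :
    deformPoint hΔ hΔ' (fivePoint hΔ p hp) =
      fivePoint hΔ' (deformPair a b p) (hp.deform a b) := by
  have h : ∃ (q : K × K) (hq : IsFivePair W q), fivePoint hΔ q hq = fivePoint hΔ p hp :=
    ⟨p, hp, rfl⟩
  rw [deformPoint, dif_pos h]
  have e := fivePoint_inj hΔ _ hp h.choose_spec.choose_spec
  have key : ∀ (q : K × K) (hq : IsFivePair W q), q = p →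
      fivePoint hΔ' (deformPair a b q) (hq.deform a b) =
        fivePoint hΔ' (deformPair a b p) (hp.deform a b) := by rintro q hq rfl; rfl
  exact key _ h.choose_spec.choose e

omit [DecidableEq K] in
theorem deformPoint_zero : deformPoint hΔ hΔ' (0 : W.toAffine.Point) = 0 := by
  rw [deformPoint, dif_neg]
  rintro ⟨p, hp, h⟩
  exact fivePoint_ne_zero hΔ p hp h

theorem five_nsmul_deformPoint (P : W.toAffine.Point) :
    (5 : ℕ) • deformPoint hΔ hΔ' P = 0 := by
  unfold deformPoint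
  split_ifs with h
  · exact five_nsmul_fivePoint hΔ' _ _
  · exact smul_zero _

theorem deformPoint_neg {P : W.toAffine.Point} (h5 : (5 : ℕ) • P = 0) :
    deformPoint hΔ hΔ' (-P) = -deformPoint hΔ hΔ' P := by
  rcases eq_or_ne P 0 with rfl | hP
  · simp [deformPoint_zero]
  obtain ⟨p, hp, rfl⟩ := exists_fivePair hΔ hP h5
  rw [← fivePoint_neg, deformPoint_fivePoint, deformPoint_fivePoint, ← fivePoint_neg]
  simp only [fivePoint, deformPair_neg]

theorem deformPoint_ne_zero {P : W.toAffine.Point} (h5 : (5 : ℕ) • P = 0) (hP : P ≠ 0) :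
    deformPoint hΔ hΔ' P ≠ 0 := by
  obtain ⟨p, hp, rfl⟩ := exists_fivePair hΔ hP h5
  rw [deformPoint_fivePoint]
  exact fivePoint_ne_zero hΔ' _ _

theorem deformPoint_double {P : W.toAffine.Point} (h5 : (5 : ℕ) • P = 0) :
    deformPoint hΔ hΔ' (P + P) = deformPoint hΔ hΔ' P + deformPoint hΔ hΔ' P := by
  rcases eq_or_ne P 0 with rfl | hP
  · simp [deformPoint_zero]
  obtain ⟨p, hp, rfl⟩ := exists_fivePair hΔ hP h5
  rw [fivePoint_add_self, deformPoint_fivePoint, deformPoint_fivePoint, fivePoint_add_self]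
  simp only [fivePoint, deformPair_turn]

variable [IsAlgClosed K] (h4 : W.c₄ ≠ 0) (h6 : W.c₆ ≠ 0)

include h4 h6

theorem deformPoint_add_of_ne {P Q : W.toAffine.Point} (hP5 : (5 : ℕ) • P = 0)
    (hQ5 : (5 : ℕ) • Q = 0) (hP : P ≠ 0) (hQ : Q ≠ 0) (hne : P ≠ Q) (hne' : P ≠ -Q)
    (hG : deformPoint hΔ hΔ' P ≠ deformPoint hΔ hΔ' Q)
    (hG' : deformPoint hΔ hΔ' P ≠ -deformPoint hΔ hΔ' Q) :
    deformPoint hΔ hΔ' (P + Q) = deformPoint hΔ hΔ' P + deformPoint hΔ hΔ' Q := by
  obtain ⟨p, hp, rfl⟩ := exists_fivePair hΔ hP hP5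
  obtain ⟨q, hq, rfl⟩ := exists_fivePair hΔ hQ hQ5
  simp only [deformPoint_fivePoint] at hG hG' ⊢
  have hx : fiveX W p ≠ fiveX W q := by
    intro h
    rcases (Affine.Point.X_eq_iff (h₁ := hp.nonsingular hΔ)
      (h₂ := hq.nonsingular hΔ)).mp h with h | h
    · exact hne h
    · exact hne' h
  have hx' : fiveX (famCurve W a b) (deformPair a b p) ≠
      fiveX (famCurve W a b) (deformPair a b q) := by
    intro h
    rcases (Affine.Point.X_eq_iff (h₁ := (hp.deform a b).nonsingular hΔ')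
      (h₂ := (hq.deform a b).nonsingular hΔ')).mp h with h | h
    · exact hG h
    · exact hG' h
  obtain ⟨r, hr, hsum⟩ := exists_fivePair hΔ
    (P := fivePoint hΔ p hp + fivePoint hΔ q hq)
    (fun h => hne' (add_eq_zero_iff_eq_neg.mp h)) (by rw [nsmul_add, hP5, hQ5, add_zero])
  rw [← hsum, deformPoint_fivePoint]
  exact (add_deformPair hΔ h4 h6 a b hΔ' hp hq hr hx hx' hsum.symm).symm

theorem deformPoint_injective {P Q : W.toAffine.Point} (hP5 : (5 : ℕ) • P = 0)
    (hQ5 : (5 : ℕ) • Q = 0) (h : deformPoint hΔ hΔ' P = deformPoint hΔ hΔ' Q) : P = Q := by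
  classical
  by_contra hne
  rcases eq_or_ne P 0 with rfl | hP
  · exact deformPoint_ne_zero hΔ hΔ' hQ5 (Ne.symm hne) (h.symm.trans (deformPoint_zero hΔ hΔ'))
  rcases eq_or_ne Q 0 with rfl | hQ
  · exact deformPoint_ne_zero hΔ hΔ' hP5 hP (h.trans (deformPoint_zero hΔ hΔ'))
  set g := deformPoint hΔ hΔ' with hg
  obtain ⟨T, hT⟩ : ∃ T, g P = T := ⟨_, rfl⟩
  have hT' : g Q = T := h ▸ hT
  have hT5 : (5 : ℕ) • T = 0 := hT ▸ five_nsmul_deformPoint hΔ hΔ' P
  have hT0 : T ≠ 0 := hT ▸ deformPoint_ne_zero hΔ hΔ' hP5 hP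
  have hT5' : T + T + T + T + T = 0 := by rw [← hT5]; abel
  have hT2 : T + T ≠ 0 := fun e => hT0 (by
    have := hT5'; rw [e, zero_add, e, zero_add] at this; exact this)
  have hT4 : T + T + T + T ≠ 0 := fun e => hT0 (by
    have := hT5'; rwa [e, zero_add] at this)
  have hT3 : T + T + T ≠ 0 := fun e => hT2 (by
    have := hT5'; rwa [e, zero_add] at this)
  -- multiples
  have hd : g (P + P) = T + T := by rw [hg, deformPoint_double hΔ hΔ' hP5, ← hg, hT]
  have hnegQ : P ≠ -Q := by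
    intro e
    apply hT2
    have : g P = -g Q := by rw [e, hg, deformPoint_neg hΔ hΔ' hQ5]
    rw [hT, hT'] at this
    rw [← add_eq_zero_iff_eq_neg] at this
    exact this
  have h2P5 : (5 : ℕ) • (P + P) = 0 := by rw [nsmul_add, hP5, add_zero]
  have hP2 : P + P ≠ 0 := by
    intro e; apply hP
    have : (5 : ℕ) • P = (P + P) + (P + P) + P := by abel
    rwa [hP5, e, add_zero, zero_add, eq_comm] at this
  have h2PQ : P + P ≠ Q := by
    intro e; apply hT0
    rw [e, hT'] at hd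
    exact (add_eq_left.mp hd.symm)
  have h2PQ' : P + P ≠ -Q := by
    intro e; apply hT3
    rw [e, hg, deformPoint_neg hΔ hΔ' hQ5, ← hg, hT'] at hd
    rw [add_assoc, ← hd, add_neg_cancel]
  have hA : g (P + P + Q) = T + T + T := by
    rw [hg, deformPoint_add_of_ne hΔ hΔ' h4 h6 h2P5 hQ5 hP2 hQ h2PQ h2PQ', ← hg, hd, hT']
    · rw [← hg, hd, hT']; exact fun e => hT0 (add_eq_left.mp e)
    · rw [← hg, hd, hT']; exact fun e => hT3 (by rw [e, neg_add_cancel])
  have hP5n : (5 : ℕ) • (-P) = 0 := by rw [smul_neg, hP5, neg_zero]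
  have hS : g (P + Q) = T + T := by
    have e : P + Q = (P + P + Q) + -P := by abel
    rw [e, hg, deformPoint_add_of_ne hΔ hΔ' h4 h6
      (by rw [nsmul_add, h2P5, hQ5, add_zero]) hP5n
      (fun e => h2PQ' (add_eq_zero_iff_eq_neg.mp e)) (neg_ne_zero.mpr hP)]
    · rw [← hg, hA, hg, deformPoint_neg hΔ hΔ' hP5, ← hg, hT, add_neg_cancel_right]
    · intro e
      apply h2PQ
      calc P + P = (5 : ℕ) • P - (P + P + P) := by abel
        _ = -(P + P + P) := by rw [hP5, zero_sub]
        _ = (P + P + Q) + -P + -(P + P + P) + (P + P) - Q + Q := by rw [e]; abel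
        _ = Q := by abel
    · intro e
      rw [neg_neg] at e
      exact hnegQ (by rw [eq_neg_iff_add_eq_zero]; linear_combination (norm := abel) e)
    · rw [← hg, hA, hg, deformPoint_neg hΔ hΔ' hP5, ← hg, hT]
      exact fun e => hT4 (by rw [e, neg_add_cancel])
    · rw [← hg, hA, hg, deformPoint_neg hΔ hΔ' hP5, ← hg, hT, neg_neg]
      exact fun e => hT2 (add_eq_right.mp e)
  have hR5 : (5 : ℕ) • (P + -Q) = 0 := by rw [nsmul_add, hP5, smul_neg, hQ5, neg_zero, add_zero]
  have hR0 : P + -Q ≠ 0 := fun e => hne (add_neg_eq_zero.mp e)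
  have hgR : g (P + -Q) ≠ 0 := deformPoint_ne_zero hΔ hΔ' hR5 hR0
  have hRQ : g (P + -Q) = T ∨ g (P + -Q) = -T := by
    by_contra hc
    push Not at hc
    apply hgR
    have e1 : P + -Q ≠ Q := by
      intro e; apply hT0
      have : P = Q + Q := by linear_combination (norm := abel) e
      rw [this, hg, deformPoint_double hΔ hΔ' hQ5, ← hg, hT'] at hT
      exact add_eq_left.mp hT
    have e2 : P + -Q ≠ -Q := fun e => hP (by simpa using e)
    have hadd := deformPoint_add_of_ne hΔ hΔ' h4 h6 hR5 hQ5 hR0 hQ e1 e2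
      (by rw [← hg, hT']; exact hc.1) (by rw [← hg, hT']; exact hc.2)
    rw [neg_add_cancel_right, ← hg, hT, hT'] at hadd
    exact add_eq_right.mp hadd.symm
  have hPQ5 : (5 : ℕ) • (P + Q) = 0 := by rw [nsmul_add, hP5, hQ5, add_zero]
  have hadd := deformPoint_add_of_ne hΔ hΔ' h4 h6 hR5 hPQ5 hR0
    (fun e => hnegQ (add_eq_zero_iff_eq_neg.mp e))
    (fun e => hQ (by
      have e' : Q + Q = 0 := by linear_combination (norm := abel) -e
      have : (5 : ℕ) • Q = (Q + Q) + (Q + Q) + Q := by abel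
      rwa [hQ5, e', add_zero, zero_add, eq_comm] at this))
    (fun e => hP2 (by linear_combination (norm := abel) e))
    (by
      rw [← hg, hS]
      rcases hRQ with e | e <;> rw [e]
      · exact fun e' => hT0 (add_eq_left.mp e'.symm)
      · exact fun e' => hT3 (by rw [← e', neg_add_cancel]))
    (by
      rw [← hg, hS]
      rcases hRQ with e | e <;> rw [e]
      · exact fun e' => hT3 (by linear_combination (norm := abel) e')
      · exact fun e' => hT0 (add_eq_left.mp (neg_inj.mp e').symm))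
  rw [← hg, hS, show P + -Q + (P + Q) = P + P by abel, hd] at hadd
  exact hgR (add_eq_right.mp hadd.symm)

theorem deformPoint_add {P Q : W.toAffine.Point} (hP5 : (5 : ℕ) • P = 0)
    (hQ5 : (5 : ℕ) • Q = 0) :
    deformPoint hΔ hΔ' (P + Q) = deformPoint hΔ hΔ' P + deformPoint hΔ hΔ' Q := by
  rcases eq_or_ne P 0 with rfl | hP
  · simp [deformPoint_zero]
  rcases eq_or_ne Q 0 with rfl | hQ
  · simp [deformPoint_zero]
  rcases eq_or_ne P Q with rfl | hne
  · exact deformPoint_double hΔ hΔ' hP5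
  rcases eq_or_ne P (-Q) with rfl | hne'
  · simp [deformPoint_zero, deformPoint_neg hΔ hΔ' hQ5]
  refine deformPoint_add_of_ne hΔ hΔ' h4 h6 hP5 hQ5 hP hQ hne hne'
    (fun h => hne (deformPoint_injective hΔ hΔ' h4 h6 hP5 hQ5 h)) ?_
  rw [← deformPoint_neg hΔ hΔ' hQ5]
  exact fun h => hne' (deformPoint_injective hΔ hΔ' h4 h6 hP5
    (by rw [smul_neg, hQ5, neg_zero]) h)

omit h4 h6 in
theorem mem_torsionBy_five {W : WeierstrassCurve K} {P : W.toAffine.Point} :
    P ∈ Submodule.torsionBy ℤ W.toAffine.Point ((5 : ℕ) : ℤ) ↔ (5 : ℕ) • P = 0 := by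
  rw [Submodule.mem_torsionBy_iff, natCast_zsmul]

/-- The isomorphism of `5`-torsion groups. -/
def torsionMap : Submodule.torsionBy ℤ W.toAffine.Point ((5 : ℕ) : ℤ) →+
    Submodule.torsionBy ℤ (famCurve W a b).toAffine.Point ((5 : ℕ) : ℤ) where
  toFun P := ⟨deformPoint hΔ hΔ' P.1, mem_torsionBy_five.mpr (five_nsmul_deformPoint hΔ hΔ' P.1)⟩
  map_zero' := Subtype.ext (deformPoint_zero hΔ hΔ')
  map_add' P Q := Subtype.ext (deformPoint_add hΔ hΔ' h4 h6 (mem_torsionBy_five.mp P.2)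
    (mem_torsionBy_five.mp Q.2))

theorem torsionMap_bijective (h4' : (famCurve W a b).c₄ ≠ 0) (h6' : (famCurve W a b).c₆ ≠ 0) :
    Function.Bijective (torsionMap hΔ hΔ' h4 h6 (a := a) (b := b)) := by
  classical
  obtain ⟨F, hF24, hF⟩ := exists_fivePairs W hΔ h4 h6
  obtain ⟨F', hF'24, hF'⟩ := exists_fivePairs _ hΔ' h4' h6'
  have hinj : Function.Injective (torsionMap hΔ hΔ' h4 h6 (a := a) (b := b)) := fun P Q h =>
    Subtype.ext (deformPoint_injective hΔ hΔ' h4 h6 (mem_torsionBy_five.mp P.2)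
      (mem_torsionBy_five.mp Q.2) (congrArg Subtype.val h))
  refine ⟨hinj, ?_⟩
  have himg : F.image (deformPair a b) = F' := by
    apply Finset.eq_of_subset_of_card_le
    · intro s hs
      obtain ⟨t, ht, rfl⟩ := Finset.mem_image.mp hs
      exact (hF' _).mpr (((hF _).mp ht).deform a b)
    · rw [hF'24, Finset.card_image_of_injOn, hF24]
      intro s hs t ht hst
      have hs' := (hF s).mp hs
      have ht' := (hF t).mp ht
      apply fivePoint_inj hΔ hs' ht'
      apply deformPoint_injective hΔ hΔ' h4 h6 (five_nsmul_fivePoint hΔ _ _)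
        (five_nsmul_fivePoint hΔ _ _)
      rw [deformPoint_fivePoint, deformPoint_fivePoint]
      simp only [fivePoint, hst]
  rintro ⟨R, hR⟩
  rcases eq_or_ne R 0 with rfl | hR0
  · exact ⟨0, map_zero _⟩
  obtain ⟨r, hr, rfl⟩ := exists_fivePair hΔ' hR0 (mem_torsionBy_five.mp hR)
  obtain ⟨s, hs, rfl⟩ := Finset.mem_image.mp (himg ▸ (hF' r).mpr hr)
  exact ⟨⟨fivePoint hΔ s ((hF s).mp hs), mem_torsionBy_five.mpr (five_nsmul_fivePoint hΔ _ _)⟩,
    Subtype.ext (deformPoint_fivePoint hΔ hΔ' ((hF s).mp hs))⟩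

end

end Fermat.Agent.Switch35
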