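import Mathlib
import Fermat.Agent.Switch35.Forms

/-!
# The `3`-division polynomial of the family has no polynomial root

If `Y` were a root then the discriminant of the family would be `β³ - 54c²` with `deg β ≤ 5`,
whereas it is the fifth power of a squarefree polynomial of degree at least `8`.
-/

set_option autoImplicit false

noncomputable section

namespace Fermat.Agent.Switch35

open Polynomial

variable {K : Type*} [Field K] [CharZero K]

/-- The monic `3`-division polynomial in terms of `c₄, c₆`. -/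
def threeQuartic {R : Type*} [CommRing R] (C₄ C₆ ξ : R) : R :=
  ξ ^ 4 - 54 * C₄ * ξ ^ 2 - 216 * C₆ * ξ - 243 * C₄ ^ 2

/-- The deformed `U` as a polynomial in the parameter. -/
def lineU (U V : K) : K[X] := utForm (C U) (C V) X 1

/-- The deformed `V` as a polynomial in the parameter. -/
def lineV (U V : K) : K[X] := vtForm (C U) (C V) X 1

/-- The linear factor attached to a cusp. -/
def lineA (U V s : K) : K[X] := 1 + X * C (U ^ 2 + V ^ 2 + 6 * s * U * V)

theorem discForm_turn (U V : K) : discForm V (-U) = discForm U V := by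
  simp only [discForm, cuspForm2]; ring

theorem eval_lineU (U V r : K) : (lineU U V).eval r = utForm U V r 1 := by
  rw [lineU, ← coe_evalRingHom, map_utForm]; simp

theorem eval_lineV (U V r : K) : (lineV U V).eval r = vtForm U V r 1 := by
  rw [lineV, ← coe_evalRingHom, map_vtForm]; simp

theorem lineV_eq (U V : K) : lineV U V = lineU V (-U) := by
  rw [lineV, lineU, vtForm_eq_utForm, C_neg]

theorem cusp_ne_zero {U V s : K} (hs : s ^ 2 = 5) (hd : discForm U V ≠ 0) :
    U ≠ 0 ∧ V ≠ 0 ∧ s ≠ 0 ∧ 2 * V - (11 + 5 * s) * U ≠ 0 := by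
  refine ⟨fun h => hd (by simp [discForm, h]), fun h => hd (by simp [discForm, h]), ?_, ?_⟩
  · intro h; rw [h] at hs; norm_num at hs
  · intro h
    apply hd
    have : cuspForm2 U V = 0 := by
      simp only [cuspForm2]
      linear_combination (1 / 4) * (2 * V - (11 + 5 * -s) * U) * h + (25 / 4) * U ^ 2 * hs
    simp [discForm, this]

theorem lineU_identity (U V s : K) (hs : s ^ 2 = 5) :
    C (10 * s) * lineU U V = C (2 * V - (11 + 5 * -s) * U) * lineA U V (-s) ^ 5
      - C (2 * V - (11 + 5 * s) * U) * lineA U V s ^ 5 := by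
  have hsC : (C s : K[X]) ^ 2 = 5 := by rw [← C_pow, hs, map_ofNat]
  have hA := line_utForm (C U) (C V) X 1 (C s) hsC
  have hB := line_utForm (C U) (C V) X 1 (-(C s)) (by rw [neg_sq, hsC])
  simp only [lineA, lineU, map_mul, map_add, map_sub, map_neg, map_ofNat, map_pow]
  linear_combination hB - hA

theorem four_le_natDegree_lineU {U V s : K} (hs : s ^ 2 = 5) (hd : discForm U V ≠ 0) :
    4 ≤ (lineU U V).natDegree := by
  obtain ⟨hU, hV, hs0, hLp⟩ := cusp_ne_zero hs hd
  obtain ⟨-, -, -, hLm⟩ := cusp_ne_zero (s := -s) (by rw [neg_sq, hs]) hd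
  by_contra hlt
  push Not at hlt
  have hcoef : ∀ n, 4 ≤ n → (C (10 * s) * lineU U V).coeff n = 0 := fun n hn => by
    rw [coeff_C_mul, coeff_eq_zero_of_natDegree_lt (by omega), mul_zero]
  have h4 := hcoef 4 le_rfl
  have h5 := hcoef 5 (by norm_num)
  rw [lineU_identity U V s hs] at h4 h5
  have key : ∀ (Q : K) (n : ℕ), ((1 + X * C Q) ^ 5).coeff n = (5 : ℕ).choose n * Q ^ n := by
    intro Q n
    rw [show (1 + X * C Q : K[X]) = (X + C (1 : K)).comp (C Q * X) by simp; ring, ← pow_comp,
      comp_C_mul_X_coeff, coeff_X_add_C_pow, one_pow, one_mul]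
  simp only [lineA, coeff_sub, coeff_C_mul, key] at h4 h5
  norm_num [Nat.choose] at h4 h5
  set Qp := U ^ 2 + V ^ 2 + 6 * s * U * V with hQp
  set Qm := U ^ 2 + V ^ 2 + -(6 * s * U * V) with hQm
  have hne : Qp ≠ Qm := by
    intro h
    have : (12 : K) * (s * U * V) = 0 := by rw [hQp, hQm] at h; linear_combination h
    simp [hs0, hU, hV] at this
  have hz : (2 * V - (11 + 5 * s) * U) * Qp ^ 4 * (Qp - Qm) = 0 := by
    linear_combination -h5 + (Qm / 5) * h4
  have hp0 : Qp = 0 := by
    simpa [hLp, sub_ne_zero.mpr hne] using hz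
  have hm0 : Qm = 0 := by
    rw [hp0] at h5
    have : (2 * V - (11 + 5 * -s) * U) * Qm ^ 5 = 0 := by linear_combination h5
    exact eq_zero_of_pow_eq_zero ((mul_eq_zero.mp this).resolve_left hLm)
  exact hne (hp0.trans hm0.symm)

theorem lineU_simple_root {U V s r : K} (hs : s ^ 2 = 5) (hd : discForm U V ≠ 0)
    (hr : (lineU U V).eval r = 0) (hA : (lineA U V s).eval r ≠ 0) :
    (derivative (lineU U V)).eval r ≠ 0 := by
  intro hr'
  obtain ⟨hU, hV, hs0, hLp⟩ := cusp_ne_zero hs hd
  have h := lineU_identity U V s hs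
  have h1 := congrArg (Polynomial.eval r) h
  have h2 := congrArg (fun P => (derivative P).eval r) h
  simp only [lineA, derivative_mul, derivative_sub, derivative_pow, derivative_add, derivative_C,
    derivative_one, derivative_X, eval_mul, eval_sub, eval_pow, eval_add, eval_C, eval_one,
    eval_X, eval_zero, hr, hr', mul_zero, zero_mul, zero_add, add_zero, one_mul,
    Nat.cast_ofNat, Nat.add_one_sub_one] at h1 h2 hA
  set Qp := U ^ 2 + V ^ 2 + 6 * s * U * V with hQp
  set Qm := U ^ 2 + V ^ 2 + 6 * -s * U * V with hQm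
  have : (5 : K) * (2 * V - (11 + 5 * s) * U) * (1 + r * Qp) ^ 4 * (Qp - Qm) = 0 := by
    linear_combination (1 + r * Qm) * h2 - 5 * Qm * h1
  simp only [mul_eq_zero, pow_eq_zero_iff (show 4 ≠ 0 by norm_num), hLp, hA,
    (show (5 : K) ≠ 0 by norm_num), false_or] at this
  have h12 : (12 : K) * (s * U * V) = 0 := by rw [hQp, hQm] at this; linear_combination this
  simp [hs0, hU, hV] at h12

theorem lineA_simple_root {U V s r : K} (hr : (lineA U V s).eval r = 0) :
    (derivative (lineA U V s)).eval r ≠ 0 := by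
  intro h
  unfold lineA at h hr
  generalize U ^ 2 + V ^ 2 + 6 * s * U * V = Q at h hr
  simp at h hr
  rw [h] at hr
  simp at hr

/-- The radical of the discriminant of the family. -/
def lineD (U V s : K) : K[X] := lineU U V * lineV U V * (lineA U V s * lineA U V (-s))

theorem disc_line {U V s : K} (hs : s ^ 2 = 5) :
    discForm (lineU U V) (lineV U V) = C (cuspForm2 U V) * lineD U V s ^ 5 := by
  have hsC : (C s : K[X]) ^ 2 = 5 := by rw [← C_pow, hs, map_ofNat]
  have hA := line_utForm (C U) (C V) X 1 (C s) hsC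
  have hB := line_utForm (C U) (C V) X 1 (-(C s)) (by rw [neg_sq, hsC])
  have h4 : (4 : K[X]) * cuspForm2 (lineU U V) (lineV U V)
      = 4 * C (cuspForm2 U V) * (lineA U V s * lineA U V (-s)) ^ 5 := by
    simp only [cuspForm2, lineA, lineU, lineV, map_mul, map_add, map_sub, map_neg, map_ofNat,
      map_pow]
    generalize utForm (C U) (C V) X 1 = u at hA hB ⊢
    generalize vtForm (C U) (C V) X 1 = v at hA hB ⊢
    generalize (1 + X * (C U ^ 2 + C V ^ 2 + 6 * C s * C U * C V)) = A₁ at hA hB ⊢
    generalize (1 + X * (C U ^ 2 + C V ^ 2 + 6 * -C s * C U * C V)) = A₂ at hA hB ⊢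
    rw [mul_pow]
    generalize A₁ ^ 5 = P₁ at hA hB ⊢
    generalize A₂ ^ 5 = P₂ at hA hB ⊢
    linear_combination (2 * v - (11 + 5 * -C s) * u) * hA
      + ((2 * C V - (11 + 5 * C s) * C U) * P₁) * hB
      + 25 * (u ^ 2 - C U ^ 2 * P₁ * P₂) * hsC
  apply mul_left_cancel₀ (show (4 : K[X]) ≠ 0 by norm_num)
  simp only [discForm, lineD, mul_pow]
  linear_combination (lineU U V ^ 5 * lineV U V ^ 5) * h4

theorem line_not_both_zero {U V s : K} (hs : s ^ 2 = 5) (hd : discForm U V ≠ 0) (r : K)
    (hu : (lineU U V).eval r = 0) (hv : (lineV U V).eval r = 0) : False := by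
  rw [eval_lineU] at hu
  rw [eval_lineV] at hv
  rcases eq_or_ne r 0 with rfl | hr
  · rw [utForm_zero, one_pow, one_mul] at hu
    exact (cusp_ne_zero hs hd).1 hu
  · rcases utForm_ne_zero_or (by norm_num) (by norm_num) (by norm_num) hs (b := 1) (.inl hr) hd with
      h | h
    · exact h hu
    · exact h hv

theorem lineD_simple_root {U V s r : K} (hs : s ^ 2 = 5) (hd : discForm U V ≠ 0)
    (hr : (lineD U V s).eval r = 0) : (derivative (lineD U V s)).eval r ≠ 0 := by
  have hs' : (-s) ^ 2 = 5 := by rw [neg_sq, hs]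
  obtain ⟨hU, hV, hs0, -⟩ := cusp_ne_zero hs hd
  have hAu : ∀ t : K, t ^ 2 = 5 → (lineA U V t).eval r = 0 →
      (lineU U V).eval r ≠ 0 ∧ (lineV U V).eval r ≠ 0 := by
    intro t ht hA
    have e := line_utForm U V r 1 t ht
    simp only [lineA, eval_add, eval_one, eval_mul, eval_X, eval_C] at hA
    rw [hA, zero_pow (by norm_num), mul_zero, ← eval_lineU, ← eval_lineV] at e
    constructor
    · intro h
      refine line_not_both_zero hs hd r h ?_
      rw [h, mul_zero, sub_zero] at e
      simpa using e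
    · intro h
      refine line_not_both_zero hs hd r ?_ h
      rw [h, mul_zero, zero_sub, neg_eq_zero, mul_eq_zero] at e
      refine e.resolve_left fun h11 => ?_
      have h4 : (4 : K) = 0 := by linear_combination (-(11 - 5 * t)) * h11 - 25 * ht
      norm_num at h4
  have hAA : (lineA U V s).eval r = 0 → (lineA U V (-s)).eval r ≠ 0 := by
    intro h h'
    have h2 : (12 : K) * (r * s * U * V) = 0 := by
      simp [lineA] at h h'
      linear_combination h - h'
    have hr0 : r ≠ 0 := by
      rintro rfl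
      simp [lineA] at h
    simp [hr0, hs0, hU, hV] at h2
  simp only [lineD, eval_mul, mul_eq_zero] at hr
  simp only [lineD, derivative_mul, eval_add, eval_mul]
  rcases hr with (hu | hv) | (hA | hB)
  · have hv : (lineV U V).eval r ≠ 0 := fun h => line_not_both_zero hs hd r hu h
    have ha : (lineA U V s).eval r ≠ 0 := fun h => (hAu s hs h).1 hu
    have hb : (lineA U V (-s)).eval r ≠ 0 := fun h => (hAu _ hs' h).1 hu
    simp [hu, hv, ha, hb, lineU_simple_root hs hd hu ha]
  · have hu : (lineU U V).eval r ≠ 0 := fun h => line_not_both_zero hs hd r h hv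
    have ha : (lineA U V s).eval r ≠ 0 := fun h => (hAu s hs h).2 hv
    have hb : (lineA U V (-s)).eval r ≠ 0 := fun h => (hAu _ hs' h).2 hv
    have ha' : (lineA V (-U) (-s)).eval r ≠ 0 := by
      convert ha using 2
      simp only [lineA]
      congr 2
      simp only [map_mul, map_add, map_pow, map_neg, map_ofNat]
      ring
    have hd' : discForm V (-U) ≠ 0 := by rwa [discForm_turn]
    have hv' := lineU_simple_root hs' hd' (by rw [← lineV_eq]; exact hv) ha'
    rw [← lineV_eq] at hv'
    simp [hu, hv, ha, hb, hv']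
  · have h := hAu s hs hA
    simp [hA, h.1, h.2, hAA hA, lineA_simple_root hA]
  · have h := hAu _ hs' hB
    have hA : (lineA U V s).eval r ≠ 0 := fun e => hAA e hB
    simp [hB, h.1, h.2, hA, lineA_simple_root hB]

theorem natDegree_fourForm_line_le (U V : K) :
    (fourForm (lineU U V) (lineV U V)).natDegree ≤ 20 := by
  have hu : ∀ U V : K, (lineU U V).natDegree ≤ 5 := by
    intro U V
    simp only [lineU, utForm, evenFive, oddFive]
    compute_degree
  have h1 := hu U V
  have h2 := hu V (-U)
  rw [← lineV_eq] at h2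
  simp only [fourForm]
  generalize lineU U V = u at h1 ⊢
  generalize lineV U V = v at h2 ⊢
  compute_degree <;> omega

theorem multiplicity_contra {r k : K} {Y β D : K[X]} (hk : k ≠ 0) (hD0 : D ≠ 0)
    (hD : rootMultiplicity r D = 1) (hY : Y.eval r ≠ 0) (hb : β.eval r = 0)
    (hid : (C (144 : K) * Y ^ 2) * (C k * D ^ 5) = β ^ 3 * (144 * Y ^ 2 - 54 * β)) : False := by
  have hpow : ∀ (P : K[X]) (n : ℕ), P ≠ 0 →
      rootMultiplicity r (P ^ n) = n * rootMultiplicity r P := by
    intro P n hP
    induction n with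
    | zero => simp
    | succ n ih =>
      rw [pow_succ, rootMultiplicity_mul (mul_ne_zero (pow_ne_zero n hP) hP), ih]; ring
  have hlhs : (C (144 : K) * Y ^ 2).eval r ≠ 0 := by simp [hY]
  have hrhs : (144 * Y ^ 2 - 54 * β).eval r ≠ 0 := by simp [hb, hY]
  have hL0 : C (144 : K) * Y ^ 2 ≠ 0 := fun h => hlhs (by rw [h, eval_zero])
  have hR : β ^ 3 * (144 * Y ^ 2 - 54 * β) ≠ 0 :=
    hid ▸ mul_ne_zero hL0 (mul_ne_zero (C_ne_zero.mpr hk) (pow_ne_zero _ hD0))
  have hβ0 : β ≠ 0 := fun h => left_ne_zero_of_mul hR (by rw [h]; exact zero_pow (by norm_num))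
  have h5 := congrArg (rootMultiplicity r) hid
  rw [rootMultiplicity_mul (mul_ne_zero hL0 (mul_ne_zero (C_ne_zero.mpr hk) (pow_ne_zero _ hD0))),
    rootMultiplicity_mul (mul_ne_zero (C_ne_zero.mpr hk) (pow_ne_zero _ hD0)),
    rootMultiplicity_eq_zero hlhs, rootMultiplicity_C, rootMultiplicity_mul hR,
    rootMultiplicity_eq_zero hrhs, hpow _ _ hD0, hpow _ _ hβ0, hD] at h5
  omega

theorem threeQuartic_line_ne_zero [IsAlgClosed K] {U V : K} (hd : discForm U V ≠ 0) (Y : K[X]) :
    threeQuartic (fourForm (lineU U V) (lineV U V)) (sixForm (lineU U V) (lineV U V)) Y ≠ 0 := by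
  intro hY
  obtain ⟨s, hs⟩ := IsAlgClosed.exists_pow_nat_eq (5 : K) two_pos
  have hdisc := disc_line (U := U) (V := V) hs
  have hc : cuspForm2 U V ≠ 0 := fun h => hd (by simp [discForm, h])
  have hDdeg : 8 ≤ (lineD U V s).natDegree ∧ lineD U V s ≠ 0 := by
    have h1 := four_le_natDegree_lineU hs hd
    have h2 := four_le_natDegree_lineU hs (U := V) (V := -U) (by rwa [discForm_turn])
    rw [← lineV_eq] at h2
    have hu : lineU U V ≠ 0 := ne_zero_of_natDegree_gt (n := 0) (by omega)
    have hv : lineV U V ≠ 0 := ne_zero_of_natDegree_gt (n := 0) (by omega)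
    have hA : ∀ t, lineA U V t ≠ 0 := fun t h => by
      simpa [lineA] using congrArg (Polynomial.eval 0) h
    have hAA := mul_ne_zero (hA s) (hA (-s))
    refine ⟨?_, mul_ne_zero (mul_ne_zero hu hv) hAA⟩
    rw [lineD, natDegree_mul (mul_ne_zero hu hv) hAA, natDegree_mul hu hv]
    omega
  set g₄ := fourForm (lineU U V) (lineV U V) with hg₄
  set g₆ := sixForm (lineU U V) (lineV U V) with hg₆
  simp only [threeQuartic] at hY
  have hrel : C (12 : K) * Y * (Y ^ 3 - 27 * g₄ * Y - 54 * g₆) = (3 * Y ^ 2 - 27 * g₄) ^ 2 := by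
    simp only [map_ofNat]; linear_combination 3 * hY
  have hD : (3 * Y ^ 2 - 27 * g₄) ^ 3 - 54 * (Y ^ 3 - 27 * g₄ * Y - 54 * g₆) ^ 2
      = C ((157464 * 1728 : K) * cuspForm2 U V) * lineD U V s ^ 5 := by
    rw [map_mul, mul_assoc (C (157464 * 1728 : K)), ← hdisc, map_mul, map_ofNat, map_ofNat]
    linear_combination (-27 * Y ^ 2 + 729 * g₄) * hY
      + (157464 : K[X]) * forms_relation (lineU U V) (lineV U V)
  have hk : (157464 * 1728 : K) * cuspForm2 U V ≠ 0 := mul_ne_zero (by norm_num) hc
  generalize (157464 * 1728 : K) * cuspForm2 U V = k at hD hk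
  set β := 3 * Y ^ 2 - 27 * g₄ with hβ
  set γ := Y ^ 3 - 27 * g₄ * Y - 54 * g₆ with hγ
  have hγroot : ∀ r, γ.eval r ≠ 0 := by
    intro r hr
    have hb : β.eval r = 0 := by simpa [hr] using (congrArg (Polynomial.eval r) hrel).symm
    have hYr : Y.eval r ≠ 0 := by
      intro h
      have h4 : g₄.eval r = 0 := by simpa [hβ, h] using hb
      have h6 : g₆.eval r = 0 := by simpa [hγ, h] using hr
      rw [hg₄, ← coe_evalRingHom, map_fourForm] at h4
      rw [hg₆, ← coe_evalRingHom, map_sixForm] at h6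
      have hrel' := forms_relation (evalRingHom r (lineU U V)) (evalRingHom r (lineV U V))
      rw [h4, h6] at hrel'
      obtain ⟨e₁, e₂⟩ := eq_zero_of_fourForm_eq_zero (k := K) (by norm_num) h4
        (by simpa using hrel'.symm)
      exact line_not_both_zero hs hd r (by simpa using e₁) (by simpa using e₂)
    have hid : (C (144 : K) * Y ^ 2) * (β ^ 3 - 54 * γ ^ 2) = β ^ 3 * (144 * Y ^ 2 - 54 * β) := by
      simp only [map_ofNat] at hrel ⊢
      linear_combination (-54) * (12 * Y * γ + β ^ 2) * hrel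
    rw [hD] at hid
    have hDr : (lineD U V s).eval r = 0 := by
      have := congrArg (Polynomial.eval r) hid
      simpa [hb, hk, hYr, pow_eq_zero_iff, hc] using this
    have hm : rootMultiplicity r (lineD U V s) = 1 := by
      have h1 : 0 < rootMultiplicity r (lineD U V s) :=
        (rootMultiplicity_pos hDdeg.2).mpr hDr
      have h2 : ¬ 1 < rootMultiplicity r (lineD U V s) := by
        rw [one_lt_rootMultiplicity_iff_isRoot hDdeg.2]
        exact fun h => lineD_simple_root hs hd hDr h.2
      omega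
    exact multiplicity_contra hk hDdeg.2 hm hYr hb hid
  have hγdeg : γ.degree = 0 := by
    by_contra h
    obtain ⟨r, hr⟩ := IsAlgClosed.exists_root γ h
    exact hγroot r hr
  obtain ⟨c, hcγ⟩ : ∃ c, γ = C c := ⟨_, eq_C_of_degree_le_zero hγdeg.le⟩
  have hc0 : c ≠ 0 := fun h => hγroot 0 (by simp [hcγ, h])
  have hYdeg : Y.natDegree = 2 * β.natDegree := by
    have := congrArg natDegree hrel
    rwa [hcγ, natDegree_mul_C hc0, natDegree_C_mul (by norm_num), natDegree_pow] at this
  have hg : C (27 : K) * g₄ = C 3 * Y ^ 2 - β := by simp only [map_ofNat, hβ]; ring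
  have hβdeg : β.natDegree ≤ 5 := by
    by_contra h
    have h1 := congrArg natDegree hg
    rw [natDegree_C_mul (by norm_num), natDegree_sub_eq_left_of_natDegree_lt] at h1
    · rw [natDegree_C_mul (by norm_num), natDegree_pow] at h1
      have := natDegree_fourForm_line_le U V
      rw [← hg₄] at this
      omega
    · rw [natDegree_C_mul (by norm_num), natDegree_pow]; omega
  have h1 := congrArg natDegree hD
  rw [natDegree_C_mul hk, natDegree_pow, hcγ] at h1
  have h2 : (β ^ 3 - 54 * C c ^ 2).natDegree ≤ 15 := by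
    rw [show (54 : K[X]) * C c ^ 2 = C (54 * c ^ 2) by simp [map_ofNat], natDegree_sub_C,
      natDegree_pow]
    omega
  omega

end Fermat.Agent.Switch35
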