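import Mathlib
import Fermat.Agent.Switch35.Generic

/-!
# Integral roots along a progression give a polynomial root

A finite difference and van der Waerden argument: if the monic quartic `threeQuartic` attached to
two polynomials has an integral root at all sufficiently large members of a progression, then it
has a polynomial root.
-/

set_option autoImplicit false

noncomputable section

namespace Fermat.Agent.Switch35

open Polynomial Filter Topology Finset

/-- Integers close to a polynomial of degree `≤ n` on an interval lie on such a polynomial. -/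
theorem exists_interpolation {K n : ℕ} (f : ℕ → ℤ) (R : ℂ[X]) (hR : R.natDegree ≤ n)
    (hclose : ∀ m < K, ‖(f m : ℂ) - R.eval (m : ℂ)‖ < (1 / 2) ^ K) :
    ∃ q : ℂ[X], q.natDegree ≤ n ∧ ∀ m < K, q.eval (m : ℂ) = f m := by
  set g : ℕ → ℂ := fun m => (f m : ℂ) with hg
  have hdiff : ∀ j, n < j → j < K → (fwdDiff 1)^[j] g 0 = 0 := by
    intro j hnj hjK
    have hint : ∃ d : ℤ, (fwdDiff 1)^[j] g 0 = d := by
      refine ⟨∑ k ∈ range (j + 1), ((-1 : ℤ) ^ (j - k) * j.choose k) * f k, ?_⟩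
      rw [fwdDiff_iter_eq_sum_shift]
      simp [hg, zsmul_eq_mul]
    obtain ⟨d, hd⟩ := hint
    have hzero : (fwdDiff 1)^[j] R.eval (0 : ℂ) = 0 := by
      rw [Polynomial.fwdDiff_iter_eq_zero_of_degree_lt (lt_of_le_of_lt hR hnj)]; rfl
    rw [fwdDiff_iter_eq_sum_shift] at hzero
    have hsum : (fwdDiff 1)^[j] g 0 = ∑ k ∈ range (j + 1),
        ((-1 : ℤ) ^ (j - k) * j.choose k) • (g k - R.eval (k : ℂ)) := by
      rw [fwdDiff_iter_eq_sum_shift]
      simp only [smul_sub, sum_sub_distrib]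
      simp only [nsmul_eq_mul, mul_one, zero_add] at hzero ⊢
      rw [hzero, sub_zero]
      simp
    have hlt : ‖(d : ℂ)‖ < 1 := by
      rw [← hd, hsum]
      refine lt_of_le_of_lt (norm_sum_le _ _) ?_
      calc ∑ k ∈ range (j + 1), ‖((-1 : ℤ) ^ (j - k) * j.choose k) • (g k - R.eval (k : ℂ))‖
          < ∑ k ∈ range (j + 1), (j.choose k : ℝ) * (1 / 2) ^ K := by
            apply Finset.sum_lt_sum_of_nonempty nonempty_range_add_one
            intro k hk
            rw [Finset.mem_range] at hk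
            rw [zsmul_eq_mul, norm_mul]
            simp only [Int.cast_mul, Int.cast_pow, Int.cast_neg, Int.cast_one, Int.cast_natCast,
              norm_mul, norm_pow, norm_neg, norm_one, one_pow, one_mul, Complex.norm_natCast]
            exact mul_lt_mul_of_pos_left (hclose k (by omega))
              (by exact_mod_cast Nat.choose_pos (by omega))
        _ = 2 ^ j * (1 / 2) ^ K := by
            rw [← Finset.sum_mul]; congr 1; exact_mod_cast Nat.sum_range_choose j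
        _ ≤ 2 ^ K * (1 / 2) ^ K := by
            refine mul_le_mul_of_nonneg_right (pow_le_pow_right₀ (by norm_num) hjK.le) (by positivity)
        _ = 1 := by rw [← mul_pow]; norm_num
    rw [Complex.norm_intCast] at hlt
    have : d = 0 := by
      have h : |d| < 1 := by exact_mod_cast hlt
      exact Int.abs_lt_one_iff.mp h
    simp [hd, this]
  refine ⟨∑ j ∈ range (n + 1), C ((fwdDiff 1)^[j] g 0 / (j.factorial : ℂ)) * descPochhammer ℂ j, ?_, ?_⟩
  · refine natDegree_sum_le_of_forall_le _ _ fun j hj => ?_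
    refine natDegree_C_mul_le _ _ |>.trans ?_
    rw [descPochhammer_natDegree]
    exact Nat.lt_succ_iff.mp (Finset.mem_range.mp hj)
  · intro m hm
    have h := shift_eq_sum_fwdDiff_iter (1 : ℕ) g m 0
    simp only [nsmul_eq_mul, mul_one, zero_add, Nat.cast_id] at h
    show _ = g m
    rw [h, eval_finsetSum]
    have e : ∀ j, (C ((fwdDiff 1)^[j] g 0 / (j.factorial : ℂ)) * descPochhammer ℂ j).eval (m : ℂ)
        = (m.choose j : ℂ) * (fwdDiff 1)^[j] g 0 := by
      intro j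
      rw [eval_mul, eval_C, Nat.cast_choose_eq_descPochhammer_div]
      ring
    simp only [e]
    rcases le_total n m with hnm | hmn
    · refine Finset.sum_subset (Finset.range_mono (by omega)) fun j hj hj' => ?_
      simp only [Finset.mem_range] at hj hj'
      rw [hdiff j (by omega) (by omega), mul_zero]
    · refine (Finset.sum_subset (Finset.range_mono (by omega)) fun j hj hj' => ?_).symm
      simp only [Finset.mem_range] at hj hj'
      rw [Nat.choose_eq_zero_of_lt (by omega), Nat.cast_zero, zero_mul]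

/-- A simple root at `0` extends to an approximate polynomial root. -/
theorem exists_approx (g₄ g₆ : ℂ[X]) {y₀ : ℂ}
    (h₀ : threeQuartic (g₄.eval 0) (g₆.eval 0) y₀ = 0)
    (h₁ : y₀ ^ 3 - 27 * g₄.eval 0 * y₀ - 54 * g₆.eval 0 ≠ 0) (n : ℕ) :
    ∃ r : ℂ[X], r.natDegree ≤ n ∧ r.eval 0 = y₀ ∧ X ^ (n + 1) ∣ threeQuartic g₄ g₆ r := by
  induction n with
  | zero =>
    refine ⟨C y₀, by simp, by simp, ?_⟩
    rw [pow_one, X_dvd_iff, coeff_zero_eq_eval_zero]
    simpa [threeQuartic] using h₀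
  | succ n ih =>
    obtain ⟨r, hdeg, hr0, h, hh⟩ := ih
    set γ₀ := y₀ ^ 3 - 27 * g₄.eval 0 * y₀ - 54 * g₆.eval 0
    set c := -h.eval 0 / (4 * γ₀) with hc
    refine ⟨r + C c * X ^ (n + 1), ?_, ?_, ?_⟩
    · refine (natDegree_add_le _ _).trans (max_le (hdeg.trans (Nat.le_succ n)) ?_)
      exact natDegree_C_mul_X_pow_le _ _
    · simp [hr0]
    · have hexp : threeQuartic g₄ g₆ (r + C c * X ^ (n + 1))
          = X ^ (n + 1) * (h + C c * (4 * (r ^ 3 - 27 * g₄ * r - 54 * g₆))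
            + X ^ (n + 1) * C c ^ 2 * (6 * r ^ 2 + 4 * r * (C c * X ^ (n + 1))
              + (C c * X ^ (n + 1)) ^ 2 - 54 * g₄)) := by
        simp only [threeQuartic] at hh ⊢
        linear_combination hh
      rw [hexp, pow_succ X (n + 1)]
      apply mul_dvd_mul_left
      rw [X_dvd_iff, coeff_zero_eq_eval_zero]
      simp [hr0, hc]
      field_simp
      ring

/-- Near a simple root at `0`, roots are approximated to order `11` by a polynomial. -/
theorem exists_branch (g₄ g₆ : ℂ[X]) {y₀ : ℂ}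
    (h₀ : threeQuartic (g₄.eval 0) (g₆.eval 0) y₀ = 0)
    (h₁ : y₀ ^ 3 - 27 * g₄.eval 0 * y₀ - 54 * g₆.eval 0 ≠ 0) :
    ∃ (r : ℂ[X]) (ρ : ℝ) (M : ℝ), r.natDegree ≤ 10 ∧ 0 < ρ ∧ ∀ w y : ℂ, ‖w‖ < ρ → ‖y - y₀‖ < ρ →
      threeQuartic (g₄.eval w) (g₆.eval w) y = 0 → ‖y - r.eval w‖ ≤ M * ‖w‖ ^ 11 := by
  obtain ⟨r, hdeg, hr0, h, hh⟩ := exists_approx g₄ g₆ h₀ h₁ 10
  set Q : ℂ × ℂ → ℂ := fun p => p.2 ^ 3 + p.2 ^ 2 * r.eval p.1 + p.2 * r.eval p.1 ^ 2
    + r.eval p.1 ^ 3 - 54 * g₄.eval p.1 * (p.2 + r.eval p.1) - 216 * g₆.eval p.1 with hQ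
  have hcont : Continuous fun p => ‖Q p‖ := by
    simp only [hQ]; fun_prop
  have hQ0 : 0 < ‖Q (0, y₀)‖ := by
    rw [norm_pos_iff]
    intro e
    apply h₁
    simp only [hQ, hr0] at e
    linear_combination (1 / 4) * e
  have hev : ∀ᶠ p in 𝓝 ((0, y₀) : ℂ × ℂ), ‖Q (0, y₀)‖ / 2 < ‖Q p‖ :=
    hcont.continuousAt.eventually (lt_mem_nhds (by linarith))
  have hev2 : ∀ᶠ p in 𝓝 ((0, y₀) : ℂ × ℂ), ‖h.eval p.1‖ < ‖h.eval 0‖ + 1 := by
    have hcont2 : Continuous fun p : ℂ × ℂ => ‖h.eval p.1‖ := by fun_prop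
    exact hcont2.continuousAt.eventually (gt_mem_nhds (by simp))
  obtain ⟨ρ, hρ, hball⟩ := Metric.eventually_nhds_iff.mp (hev.and hev2)
  refine ⟨r, ρ, (‖h.eval 0‖ + 1) / (‖Q (0, y₀)‖ / 2), hdeg, hρ, fun w y hw hy he => ?_⟩
  obtain ⟨hb1, hb2⟩ := hball (y := (w, y)) (by
    rw [Prod.dist_eq, dist_zero_right, dist_eq_norm]; exact max_lt hw hy)
  have hh' : threeQuartic (g₄.eval w) (g₆.eval w) (r.eval w) = w ^ 11 * h.eval w := by
    have := congrArg (Polynomial.eval w) hh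
    simpa [threeQuartic] using this
  have key : (y - r.eval w) * Q (w, y) = -(w ^ 11 * h.eval w) := by
    simp only [threeQuartic] at he hh'
    simp only [hQ]
    linear_combination he - hh'
  rw [div_mul_eq_mul_div, le_div_iff₀ (by linarith)]
  calc ‖y - r.eval w‖ * (‖Q (0, y₀)‖ / 2) ≤ ‖y - r.eval w‖ * ‖Q (w, y)‖ :=
        mul_le_mul_of_nonneg_left hb1.le (norm_nonneg _)
    _ = ‖w‖ ^ 11 * ‖h.eval w‖ := by rw [← norm_mul, key, norm_neg, norm_mul, norm_pow]
    _ ≤ (‖h.eval 0‖ + 1) * ‖w‖ ^ 11 := by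
        rw [mul_comm]; exact mul_le_mul_of_nonneg_right hb2.le (by positivity)

/-- The homogenisation of `g` in degree `n`, evaluated at `(A, B + N X)`. -/
def progPoly (A B N : ℂ) (n : ℕ) (g : ℂ[X]) : ℂ[X] :=
  ∑ j ∈ range (n + 1), C (g.coeff j * A ^ j) * (C B + C N * X) ^ (n - j)

theorem natDegree_progPoly_le (A B N : ℂ) (n : ℕ) (g : ℂ[X]) :
    (progPoly A B N n g).natDegree ≤ n := by
  refine natDegree_sum_le_of_forall_le _ _ fun j _ => ?_
  refine (natDegree_C_mul_le _ _).trans (natDegree_pow_le.trans ?_)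
  have : (C B + C N * X : ℂ[X]).natDegree ≤ 1 := by compute_degree
  calc (n - j) * (C B + C N * X : ℂ[X]).natDegree ≤ (n - j) * 1 := Nat.mul_le_mul_left _ this
    _ ≤ n := by omega

theorem eval_progPoly {A B N k : ℂ} {n : ℕ} {g : ℂ[X]} (hg : g.natDegree ≤ n)
    (hb : B + N * k ≠ 0) :
    (progPoly A B N n g).eval k = (B + N * k) ^ n * g.eval (A / (B + N * k)) := by
  rw [progPoly, eval_finsetSum, eval_eq_sum_range' (Nat.lt_succ_of_le hg), Finset.mul_sum]
  refine Finset.sum_congr rfl fun j hj => ?_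
  rw [Finset.mem_range] at hj
  simp only [eval_mul, eval_C, eval_pow, eval_add, eval_X, div_pow]
  have hsplit : (B + N * k) ^ n = (B + N * k) ^ (n - j) * (B + N * k) ^ j := by
    rw [← pow_add, Nat.sub_add_cancel (by omega)]
  rw [hsplit]
  field_simp

theorem threeQuartic_scale {R : Type*} [CommRing R] (b g₄ g₆ y : R) :
    threeQuartic (b ^ 20 * g₄) (b ^ 30 * g₆) (b ^ 10 * y) = b ^ 40 * threeQuartic g₄ g₆ y := by
  simp only [threeQuartic]; ring

theorem threeQuartic_factor {C₄ C₆ : ℂ} (s : Finset ℂ)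
    (hs : ∀ y, y ∈ s ↔ threeQuartic C₄ C₆ y = 0)
    (hsimple : ∀ y ∈ s, y ^ 3 - 27 * C₄ * y - 54 * C₆ ≠ 0) (y : ℂ) :
    threeQuartic C₄ C₆ y = ∏ t ∈ s, (y - t) := by
  set p : ℂ[X] := X ^ 4 - C (54 * C₄) * X ^ 2 - C (216 * C₆) * X - C (243 * C₄ ^ 2) with hp
  have hmonic : p.Monic := by rw [hp]; monicity!
  have heval : ∀ t, p.eval t = threeQuartic C₄ C₆ t := fun t => by simp [hp, threeQuartic]
  have hnd : p.roots.Nodup := by
    rw [Multiset.nodup_iff_count_le_one]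
    intro b
    rw [count_roots]
    by_contra hcon
    push Not at hcon
    obtain ⟨hb, hb'⟩ := (one_lt_rootMultiplicity_iff_isRoot hmonic.ne_zero).mp hcon
    rw [IsRoot, heval] at hb
    apply hsimple b ((hs b).mpr hb)
    simp [hp, derivative_pow, IsRoot] at hb'
    linear_combination (1 / 4) * hb'
  have hset : p.roots.toFinset = s := by
    ext t
    rw [Multiset.mem_toFinset, mem_roots hmonic.ne_zero, hs, IsRoot, heval]
  rw [← heval, (IsAlgClosed.splits p).eval_eq_prod_roots_of_monic hmonic, ← hset,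
    Finset.prod_eq_multiset_prod, Multiset.toFinset_val, Multiset.dedup_eq_self.mpr hnd]

theorem simple_of_disc_ne_zero {C₄ C₆ y : ℂ} (hd : C₄ ^ 3 ≠ C₆ ^ 2)
    (hy : threeQuartic C₄ C₆ y = 0) : y ^ 3 - 27 * C₄ * y - 54 * C₆ ≠ 0 := by
  intro h
  apply hd
  simp only [threeQuartic] at hy
  have hb : 3 * y ^ 2 - 27 * C₄ = 0 := by
    have : (3 * y ^ 2 - 27 * C₄) ^ 2 = 0 := by linear_combination (12 * y) * h - 3 * hy
    exact eq_zero_of_pow_eq_zero this
  linear_combination (-(-27 * y ^ 2 + 729 * C₄) / 157464) * hy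
    + ((3 * y ^ 2 - 27 * C₄) ^ 2 / 157464) * hb - ((y ^ 3 - 27 * C₄ * y - 54 * C₆) * 54 / 157464) * h

/-- Integral roots at all large members of a progression give a polynomial root. -/
theorem exists_polynomial_root (g₄ g₆ : ℂ[X]) (h4 : g₄.natDegree ≤ 20) (h6 : g₆.natDegree ≤ 30)
    (hd : g₄.eval 0 ^ 3 ≠ g₆.eval 0 ^ 2) (A B : ℤ) (hA : A ≠ 0) (N : ℕ) (hN : 0 < N)
    (ξ : ℕ → ℤ)
    (hroot : ∀ᶠ k : ℕ in atTop,
      threeQuartic ((progPoly (A : ℂ) (B : ℂ) (N : ℂ) 20 g₄).eval (k : ℂ))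
        ((progPoly (A : ℂ) (B : ℂ) (N : ℂ) 30 g₆).eval (k : ℂ)) (ξ k : ℂ) = 0) :
    ∃ Y : ℂ[X], threeQuartic g₄ g₆ Y = 0 := by
  classical
  set b : ℕ → ℂ := fun k => (B : ℂ) + (N : ℂ) * k with hbdef
  have hNC : (N : ℂ) ≠ 0 := by exact_mod_cast hN.ne'
  have hAC : (A : ℂ) ≠ 0 := by exact_mod_cast hA
  have hbig : Tendsto (fun k => ‖b k‖) atTop atTop := by
    have h1 : Tendsto (fun k : ℕ => (k : ℝ) - |(B : ℝ)|) atTop atTop :=
      tendsto_atTop_add_const_right _ _ tendsto_natCast_atTop_atTop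
    refine tendsto_atTop_mono (fun k => ?_) h1
    have h2 : ‖(N : ℂ) * k‖ ≤ ‖b k‖ + ‖(B : ℂ)‖ := by
      rw [show (N : ℂ) * k = b k - B by simp [hbdef]]
      exact norm_sub_le _ _
    have h3 : (k : ℝ) ≤ (N : ℝ) * k :=
      le_mul_of_one_le_left (Nat.cast_nonneg k) (by exact_mod_cast hN)
    rw [norm_mul, Complex.norm_natCast, Complex.norm_natCast, Complex.norm_intCast] at h2
    linarith
  have hb : ∀ᶠ k in atTop, b k ≠ 0 :=
    (hbig.eventually_gt_atTop 0).mono fun k hk => norm_pos_iff.mp hk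
  set w : ℕ → ℂ := fun k => (A : ℂ) / b k with hwdef
  have hw : Tendsto w atTop (𝓝 0) := by
    rw [tendsto_zero_iff_norm_tendsto_zero]
    simp only [hwdef, norm_div]
    exact tendsto_const_nhds.div_atTop hbig
  set y : ℕ → ℂ := fun k => (ξ k : ℂ) / b k ^ 10 with hydef
  have hy : ∀ᶠ k in atTop, threeQuartic (g₄.eval (w k)) (g₆.eval (w k)) (y k) = 0 := by
    filter_upwards [hroot, hb] with k hk hbk
    rw [eval_progPoly h4 hbk, eval_progPoly h6 hbk,
      show (ξ k : ℂ) = b k ^ 10 * y k by rw [hydef]; field_simp [hbk],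
      threeQuartic_scale] at hk
    exact (mul_eq_zero.mp hk).resolve_left (pow_ne_zero _ hbk)
  set s : Finset ℂ := (X ^ 4 - C (54 * g₄.eval 0) * X ^ 2 - C (216 * g₆.eval 0) * X
    - C (243 * g₄.eval 0 ^ 2) : ℂ[X]).roots.toFinset with hsdef
  have hs : ∀ t, t ∈ s ↔ threeQuartic (g₄.eval 0) (g₆.eval 0) t = 0 := by
    intro t
    rw [hsdef, Multiset.mem_toFinset, mem_roots (Monic.ne_zero (by monicity!))]
    simp [threeQuartic]
  have hbr : ∀ t ∈ s, ∃ (r : ℂ[X]) (ρ : ℝ) (M : ℝ), r.natDegree ≤ 10 ∧ 0 < ρ ∧ ∀ w y : ℂ,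
      ‖w‖ < ρ → ‖y - t‖ < ρ → threeQuartic (g₄.eval w) (g₆.eval w) y = 0 →
      ‖y - r.eval w‖ ≤ M * ‖w‖ ^ 11 := fun t ht =>
    exists_branch g₄ g₆ ((hs t).mp ht) (simple_of_disc_ne_zero hd ((hs t).mp ht))
  choose! r ρ M hr hρ hM using hbr
  have hg4 : Tendsto (fun k => g₄.eval (w k)) atTop (𝓝 (g₄.eval 0)) :=
    ((g₄.continuous).tendsto 0).comp hw
  have hg6 : Tendsto (fun k => g₆.eval (w k)) atTop (𝓝 (g₆.eval 0)) :=
    ((g₆.continuous).tendsto 0).comp hw
  set B₀ : ℝ := 54 * (‖g₄.eval 0‖ + 1) + 216 * (‖g₆.eval 0‖ + 1)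
    + 243 * (‖g₄.eval 0‖ + 1) ^ 2 + 1 with hB₀
  have hbound : ∀ᶠ k in atTop, ‖y k‖ ≤ B₀ := by
    filter_upwards [hy, hg4.norm.eventually (gt_mem_nhds (lt_add_one _)),
      hg6.norm.eventually (gt_mem_nhds (lt_add_one _))] with k hk hk4 hk6
    by_contra hlt
    push Not at hlt
    have hB1 : 1 ≤ B₀ := by rw [hB₀]; nlinarith [norm_nonneg (g₄.eval 0), norm_nonneg (g₆.eval 0)]
    have h1 : 1 ≤ ‖y k‖ := hB1.trans hlt.le
    simp only [threeQuartic] at hk
    have he : y k ^ 4 = 54 * g₄.eval (w k) * y k ^ 2 + 216 * g₆.eval (w k) * y k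
        + 243 * g₄.eval (w k) ^ 2 := by linear_combination hk
    have hn := congrArg (fun z : ℂ => ‖z‖) he
    simp only [norm_pow] at hn
    have hle : ‖y k‖ ^ 4 ≤ (B₀ - 1) * ‖y k‖ ^ 2 := by
      rw [hn]
      refine (norm_add₃_le).trans ?_
      simp only [norm_mul, norm_pow, RCLike.norm_ofNat]
      have e1 : ‖y k‖ ≤ ‖y k‖ ^ 2 := by nlinarith
      have e2 : ‖g₄.eval (w k)‖ ^ 2 ≤ (‖g₄.eval 0‖ + 1) ^ 2 :=
        pow_le_pow_left₀ (norm_nonneg _) hk4.le 2
      have a1 := mul_le_mul_of_nonneg_right hk4.le (sq_nonneg ‖y k‖)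
      have a2 := mul_le_mul hk6.le e1 (norm_nonneg _) (by positivity)
      have a3 : ‖g₄.eval (w k)‖ ^ 2 ≤ (‖g₄.eval 0‖ + 1) ^ 2 * ‖y k‖ ^ 2 :=
        e2.trans (le_mul_of_one_le_right (by positivity) (one_le_pow₀ h1))
      rw [hB₀]
      linarith
    have : ‖y k‖ ^ 2 ≤ B₀ - 1 := by
      have hpos : 0 < ‖y k‖ ^ 2 := by positivity
      nlinarith
    nlinarith
  have hp0 : Tendsto (fun k => ∏ t ∈ s, ‖y k - t‖) atTop (𝓝 0) := by
    have hlim : Tendsto (fun k => 54 * ‖g₄.eval (w k) - g₄.eval 0‖ * B₀ ^ 2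
        + 216 * ‖g₆.eval (w k) - g₆.eval 0‖ * B₀
        + 243 * ‖g₄.eval (w k) ^ 2 - g₄.eval 0 ^ 2‖) atTop (𝓝 0) := by
      have h1 := (hg4.sub_const (g₄.eval 0)).norm
      have h2 := (hg6.sub_const (g₆.eval 0)).norm
      have h3 := ((hg4.pow 2).sub_const (g₄.eval 0 ^ 2)).norm
      simpa using (((h1.const_mul 54).mul_const (B₀ ^ 2)).add
        ((h2.const_mul 216).mul_const B₀)).add (h3.const_mul 243)
    refine squeeze_zero' (Eventually.of_forall fun k => Finset.prod_nonneg fun t _ => norm_nonneg _)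
      ?_ hlim
    filter_upwards [hy, hbound] with k hk hkB
    rw [← norm_prod, ← threeQuartic_factor s hs
      (fun t ht => simple_of_disc_ne_zero hd ((hs t).mp ht))]
    have he : threeQuartic (g₄.eval 0) (g₆.eval 0) (y k)
        = 54 * (g₄.eval (w k) - g₄.eval 0) * y k ^ 2
          + 216 * (g₆.eval (w k) - g₆.eval 0) * y k
          + 243 * (g₄.eval (w k) ^ 2 - g₄.eval 0 ^ 2) := by
      simp only [threeQuartic] at hk ⊢
      linear_combination hk
    rw [he]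
    refine (norm_add₃_le).trans ?_
    simp only [norm_mul, norm_pow, RCLike.norm_ofNat]
    gcongr
  -- every root is eventually near one of the branches
  have hε : ∀ᶠ k in atTop, ∃ t ∈ s, ‖w k‖ < ρ t ∧ ‖y k - t‖ < ρ t := by
    have hpos : 0 < ∏ t ∈ s, ρ t := Finset.prod_pos hρ
    have hwρ : ∀ᶠ k in atTop, ∀ t ∈ s, ‖w k‖ < ρ t :=
      (Finset.eventually_all s).mpr fun t ht =>
        (tendsto_zero_iff_norm_tendsto_zero.mp hw).eventually (gt_mem_nhds (hρ t ht))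
    filter_upwards [hp0.eventually (gt_mem_nhds hpos), hwρ] with k hk hkw
    by_contra hcon
    push Not at hcon
    exact absurd hk (not_lt.mpr (Finset.prod_le_prod (fun t ht => (hρ t ht).le)
      fun t ht => hcon t ht (hkw t ht)))
  set R : ℂ → ℂ[X] := fun t => progPoly (A : ℂ) (B : ℂ) (N : ℂ) 10 (r t) with hRdef
  have hclose : ∀ᶠ k in atTop, ∃ t ∈ s, ‖(ξ k : ℂ) - (R t).eval (k : ℂ)‖ < (1 / 2) ^ 41 := by
    have hlim : Tendsto (fun k => (∑ t ∈ s, |M t|) * ‖(A : ℂ)‖ ^ 10 * ‖w k‖) atTop (𝓝 0) := by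
      simpa using (tendsto_zero_iff_norm_tendsto_zero.mp hw).const_mul
        ((∑ t ∈ s, |M t|) * ‖(A : ℂ)‖ ^ 10)
    filter_upwards [hε, hy, hb, hlim.eventually (gt_mem_nhds (show (0 : ℝ) < (1 / 2) ^ 41 by positivity))]
      with k ⟨t, ht, hwt, hyt⟩ hk hbk hsmall
    refine ⟨t, ht, lt_of_le_of_lt ?_ hsmall⟩
    rw [hRdef, eval_progPoly (hr t ht) hbk,
      show (ξ k : ℂ) = b k ^ 10 * y k by rw [hydef]; field_simp [hbk]]
    rw [show (B : ℂ) + (N : ℂ) * (k : ℂ) = b k from rfl,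
      show (A : ℂ) / b k = w k from rfl, ← mul_sub, norm_mul]
    calc ‖b k ^ 10‖ * ‖y k - (r t).eval (w k)‖
        ≤ ‖b k ^ 10‖ * ((∑ t ∈ s, |M t|) * ‖w k‖ ^ 11) := by
          refine mul_le_mul_of_nonneg_left ((hM t ht _ _ hwt hyt hk).trans ?_) (norm_nonneg _)
          refine mul_le_mul_of_nonneg_right ((le_abs_self _).trans ?_) (by positivity)
          exact Finset.single_le_sum (f := fun t => |M t|) (fun _ _ => abs_nonneg _) ht
      _ = (∑ t ∈ s, |M t|) * ‖(A : ℂ)‖ ^ 10 * ‖w k‖ := by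
          have hnorm : ‖b k‖ * ‖w k‖ = ‖(A : ℂ)‖ := by
            rw [← norm_mul, hwdef, mul_div_cancel₀ _ hbk]
          rw [norm_pow, ← hnorm]; ring
  obtain ⟨k₀, hk₀⟩ := eventually_atTop.mp (hclose.and hroot)
  have hcol : ∀ k : ℕ, ∃ t : s, ‖(ξ (k₀ + k) : ℂ) - (R t).eval ((k₀ + k : ℕ) : ℂ)‖ < (1 / 2) ^ 41 :=
    fun k => by
      obtain ⟨t, ht, h⟩ := (hk₀ (k₀ + k) (Nat.le_add_right _ _)).1
      exact ⟨⟨t, ht⟩, h⟩
  choose col hcol using hcol
  obtain ⟨a, ha, c, t, hmono⟩ := Combinatorics.exists_mono_homothetic_copy (range 41) col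
  set L : ℂ[X] := C ((k₀ + c : ℕ) : ℂ) + C (a : ℂ) * X with hL
  have hLeval : ∀ m : ℕ, L.eval (m : ℂ) = ((k₀ + (a • m + c) : ℕ) : ℂ) := by
    intro m; simp [hL]; ring
  obtain ⟨q, hqdeg, hq⟩ := exists_interpolation (K := 41) (n := 10)
    (fun m => ξ (k₀ + (a • m + c))) ((R t).comp L) (by
      rw [natDegree_comp]
      have h1 : L.natDegree ≤ 1 := by rw [hL]; compute_degree
      calc (R t).natDegree * L.natDegree ≤ 10 * 1 :=
            Nat.mul_le_mul (natDegree_progPoly_le _ _ _ _ _) h1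
        _ = 10 := rfl)
    (fun m hm => by
      rw [eval_comp, hLeval]
      have := hcol (a • m + c)
      rwa [hmono m (Finset.mem_range.mpr hm)] at this)
  set P : ℂ[X] := threeQuartic ((progPoly (A : ℂ) (B : ℂ) (N : ℂ) 20 g₄).comp L)
    ((progPoly (A : ℂ) (B : ℂ) (N : ℂ) 30 g₆).comp L) q with hP
  have hPev : ∀ x, P.eval x = threeQuartic ((progPoly (A : ℂ) (B : ℂ) (N : ℂ) 20 g₄).eval (L.eval x))
      ((progPoly (A : ℂ) (B : ℂ) (N : ℂ) 30 g₆).eval (L.eval x)) (q.eval x) := by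
    intro x; simp [hP, threeQuartic]
  have hP0 : P = 0 := by
    apply eq_zero_of_natDegree_lt_card_of_eval_eq_zero P
      (f := fun i : Fin 41 => ((i : ℕ) : ℂ))
      (fun i j h => Fin.ext (by simpa using h))
    · intro i
      rw [hPev, hq _ i.2, hLeval]
      exact (hk₀ _ (Nat.le_add_right _ _)).2
    · rw [Fintype.card_fin, Nat.lt_succ_iff, hP]
      have hLdeg : L.natDegree ≤ 1 := by rw [hL]; compute_degree
      have e4 : ((progPoly (A : ℂ) (B : ℂ) (N : ℂ) 20 g₄).comp L).natDegree ≤ 20 := by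
        rw [natDegree_comp]
        exact (Nat.mul_le_mul (natDegree_progPoly_le _ _ _ _ _) hLdeg).trans (by norm_num)
      have e6 : ((progPoly (A : ℂ) (B : ℂ) (N : ℂ) 30 g₆).comp L).natDegree ≤ 30 := by
        rw [natDegree_comp]
        exact (Nat.mul_le_mul (natDegree_progPoly_le _ _ _ _ _) hLdeg).trans (by norm_num)
      generalize (progPoly (A : ℂ) (B : ℂ) (N : ℂ) 20 g₄).comp L = G₄ at e4 ⊢
      generalize (progPoly (A : ℂ) (B : ℂ) (N : ℂ) 30 g₆).comp L = G₆ at e6 ⊢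
      simp only [threeQuartic]
      compute_degree <;> omega
  -- back to the parameter
  have haC : (a : ℂ) ≠ 0 := by exact_mod_cast ha.ne'
  set q₀ : ℂ[X] := q.comp (C ((a : ℂ)⁻¹) * (X - C ((k₀ + c : ℕ) : ℂ))) with hq₀
  have hq₀deg : q₀.natDegree ≤ 10 := by
    rw [hq₀, natDegree_comp]
    have : (C ((a : ℂ)⁻¹) * (X - C ((k₀ + c : ℕ) : ℂ))).natDegree ≤ 1 := by compute_degree
    exact (Nat.mul_le_mul hqdeg this).trans (by norm_num)
  have hall : ∀ k : ℂ, threeQuartic ((progPoly (A : ℂ) (B : ℂ) (N : ℂ) 20 g₄).eval k)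
      ((progPoly (A : ℂ) (B : ℂ) (N : ℂ) 30 g₆).eval k) (q₀.eval k) = 0 := by
    intro k
    have := hPev ((a : ℂ)⁻¹ * (k - ((k₀ + c : ℕ) : ℂ)))
    rw [hP0, eval_zero, show L.eval ((a : ℂ)⁻¹ * (k - ((k₀ + c : ℕ) : ℂ))) = k by
      simp [hL]; field_simp; ring] at this
    rw [this, hq₀, eval_comp]
    simp
  set Y : ℂ[X] := ∑ j ∈ range 11, C (q₀.coeff j / ((N : ℂ) ^ j * (A : ℂ) ^ 10)) *
    (X ^ (10 - j) * (C (A : ℂ) - C (B : ℂ) * X) ^ j) with hY
  refine ⟨Y, ?_⟩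
  apply Polynomial.eq_zero_of_infinite_isRoot
  refine Set.Infinite.mono (s := {x : ℂ | x ≠ 0}) (fun x hx => ?_)
    ((Set.finite_singleton (0 : ℂ)).infinite_compl)
  replace hx : x ≠ 0 := hx
  show Polynomial.IsRoot _ x
  rw [IsRoot]
  set k : ℂ := ((A : ℂ) - (B : ℂ) * x) / ((N : ℂ) * x) with hk
  have hbk : (B : ℂ) + (N : ℂ) * k = (A : ℂ) / x := by
    rw [hk]; field_simp; ring
  have hbk0 : (B : ℂ) + (N : ℂ) * k ≠ 0 := by rw [hbk]; exact div_ne_zero hAC hx
  have hwk : (A : ℂ) / ((B : ℂ) + (N : ℂ) * k) = x := by rw [hbk]; field_simp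
  have hYq : q₀.eval k = ((B : ℂ) + (N : ℂ) * k) ^ 10 * Y.eval x := by
    rw [hY, eval_finsetSum, eval_eq_sum_range' (Nat.lt_succ_of_le hq₀deg), Finset.mul_sum]
    refine Finset.sum_congr rfl fun j hj => ?_
    rw [Finset.mem_range] at hj
    simp only [eval_mul, eval_C, eval_pow, eval_sub, eval_X]
    rw [hbk, hk, div_pow, div_pow, mul_pow]
    have : x ^ 10 = x ^ (10 - j) * x ^ j := by rw [← pow_add, Nat.sub_add_cancel (by omega)]
    rw [this]
    field_simp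
  have := hall k
  rw [eval_progPoly h4 hbk0, eval_progPoly h6 hbk0, hYq, threeQuartic_scale, hwk] at this
  have h0 := (mul_eq_zero.mp this).resolve_left (pow_ne_zero _ hbk0)
  simpa [threeQuartic] using h0

end Fermat.Agent.Switch35
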