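import Mathlib
import Fermat.Prelude.Def_FLTPrelim_ModularRep
import Fermat.Agent.Switch35.Generic

/-!
# A reducible mod `3` representation gives an integral root of the monic `3`-division polynomial
-/

set_option autoImplicit false

noncomputable section

namespace Fermat.Agent.Switch35

open WeierstrassCurve Polynomial

variable {K : Type*} [Field K] [CharZero K]

theorem threeQuartic_scale_two {R : Type*} [CommRing R] (l g₄ g₆ y : R) :
    threeQuartic (l ^ 2 * g₄) (l ^ 3 * g₆) (l * y) = l ^ 4 * threeQuartic g₄ g₆ y := by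
  simp only [threeQuartic]; ring

theorem gamma_ne_zero {C₄ C₆ y : K} (hd : C₄ ^ 3 ≠ C₆ ^ 2) (hy : threeQuartic C₄ C₆ y = 0) :
    y ^ 3 - 27 * C₄ * y - 54 * C₆ ≠ 0 := by
  intro h
  apply hd
  simp only [threeQuartic] at hy
  have hb : 3 * y ^ 2 - 27 * C₄ = 0 := by
    have : (3 * y ^ 2 - 27 * C₄) ^ 2 = 0 := by linear_combination (12 * y) * h - 3 * hy
    exact eq_zero_of_pow_eq_zero this
  linear_combination (-(-27 * y ^ 2 + 729 * C₄) / 157464) * hy
    + ((3 * y ^ 2 - 27 * C₄) ^ 2 / 157464) * hb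
    - ((y ^ 3 - 27 * C₄ * y - 54 * C₆) * 54 / 157464) * h

variable [DecidableEq K] {E : WeierstrassCurve K}

/-- The coordinate in which the `3`-division polynomial is monic. -/
def threeCoord (E : WeierstrassCurve K) (x : K) : K := 36 * x + 3 * E.b₂

theorem threeQuartic_of_three_torsion {x y : K} {h : E.toAffine.Nonsingular x y}
    (h3 : (3 : ℕ) • Affine.Point.some x y h = 0) :
    threeQuartic E.c₄ E.c₆ (threeCoord E x) = 0 := by
  have hPP : Affine.Point.some x y h + Affine.Point.some x y h = -Affine.Point.some x y h := by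
    rw [← add_eq_zero_iff_eq_neg, ← h3]; abel
  have hy : y ≠ E.toAffine.negY x y := by
    intro e
    rw [Affine.Point.add_self_of_Y_eq e, eq_comm, neg_eq_zero] at hPP
    exact Affine.Point.some_ne_zero h hPP
  obtain ⟨l, hl⟩ : ∃ l, E.toAffine.slope x x y y = l := ⟨_, rfl⟩
  have hadd := Affine.Point.add_self_of_Y_ne (h₁ := h) hy
  simp only [hl] at hadd
  rw [hadd, Affine.Point.neg_some] at hPP
  obtain ⟨hx, -⟩ := Affine.Point.some.inj hPP
  simp only [Affine.addX] at hx
  rw [Affine.slope_of_Y_ne rfl hy, div_eq_iff (sub_ne_zero.mpr hy)] at hl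
  simp only [Affine.negY] at hl
  have heq := (Affine.equation_iff _ _).mp h.left
  obtain ⟨X₀, hX⟩ : ∃ X₀, x + E.b₂ / 12 = X₀ := ⟨_, rfl⟩
  obtain ⟨m, hm⟩ : ∃ m, l + E.a₁ / 2 = m := ⟨_, rfl⟩
  obtain ⟨Y, hY⟩ : ∃ Y, 2 * y + E.a₁ * x + E.a₃ = Y := ⟨_, rfl⟩
  have hm2 : m ^ 2 = 3 * X₀ := by
    rw [← hm, ← hX, b₂]; linear_combination hx
  have hmY : 3 * X₀ ^ 2 - E.c₄ / 48 = m * Y := by
    rw [← hm, ← hX, ← hY, c₄, b₂, b₄]; linear_combination hl
  have hY2 : Y ^ 2 = 4 * X₀ ^ 3 - E.c₄ / 12 * X₀ - E.c₆ / 216 := by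
    rw [← hX, ← hY, c₄, c₆, b₂, b₄, b₆]; linear_combination 4 * heq
  have hxi : threeCoord E x = 36 * X₀ := by rw [threeCoord, ← hX]; ring
  rw [hxi, threeQuartic]
  linear_combination (-559872 : K) * (3 * X₀ ^ 2 - E.c₄ / 48 + m * Y) * hmY
    - (559872 : K) * Y ^ 2 * hm2 - (559872 : K) * (3 * X₀) * hY2

theorem exists_three_torsion [IsAlgClosed K] (hΔ : E.Δ ≠ 0) :
    ∃ P : E.toAffine.Point, P ≠ 0 ∧ (3 : ℕ) • P = 0 := by
  have hd : E.c₄ ^ 3 ≠ E.c₆ ^ 2 := by
    intro h; apply hΔ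
    have := E.c_relation
    rw [h, sub_self, mul_eq_zero] at this
    exact this.resolve_left (by norm_num)
  obtain ⟨ξ, hξ⟩ := IsAlgClosed.exists_root
    (X ^ 4 - C (54 * E.c₄) * X ^ 2 - C (216 * E.c₆) * X - C (243 * E.c₄ ^ 2) : K[X]) (by
    intro hdeg
    have := natDegree_eq_zero_iff_degree_le_zero.mpr hdeg.le
    have h4 : (X ^ 4 - C (54 * E.c₄) * X ^ 2 - C (216 * E.c₆) * X - C (243 * E.c₄ ^ 2)
      : K[X]).natDegree = 4 := by compute_degree!
    omega)
  have hq : threeQuartic E.c₄ E.c₆ ξ = 0 := by simpa [threeQuartic, IsRoot] using hξ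
  have hg := gamma_ne_zero hd hq
  obtain ⟨Y, hY⟩ := IsAlgClosed.exists_pow_nat_eq
    ((ξ ^ 3 - 27 * E.c₄ * ξ - 54 * E.c₆) / 11664) two_pos
  have hY0 : Y ≠ 0 := by
    rintro rfl
    rw [zero_pow two_ne_zero, eq_comm, div_eq_zero_iff] at hY
    exact hY.elim hg (by norm_num)
  set x := ξ / 36 - E.b₂ / 12 with hx
  set y := (Y - E.a₁ * x - E.a₃) / 2 with hy
  have heq : E.toAffine.Equation x y := by
    rw [Affine.equation_iff, hy, hx]
    simp only [c₄, c₆, b₂, b₄, b₆] at hY ⊢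
    linear_combination (1 / 4) * hY
  have hns := (Affine.equation_iff_nonsingular_of_Δ_ne_zero hΔ).mp heq
  have hne : y ≠ E.toAffine.negY x y := by
    intro e; apply hY0
    simp only [Affine.negY, hy] at e
    linear_combination e
  refine ⟨.some x y hns, Affine.Point.some_ne_zero _, ?_⟩
  obtain ⟨l, hl⟩ : ∃ l, E.toAffine.slope x x y y = l := ⟨_, rfl⟩
  have hX3 : E.toAffine.addX x x l = x := by
    rw [Affine.slope_of_Y_ne rfl hne, div_eq_iff (sub_ne_zero.mpr hne)] at hl
    obtain ⟨m, hm⟩ : ∃ m, l + E.a₁ / 2 = m := ⟨_, rfl⟩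
    have hmY : ξ ^ 2 / 432 - E.c₄ / 48 = m * Y := by
      rw [← hm]
      simp only [Affine.negY, hy, hx, c₄, b₂, b₄] at hl ⊢
      linear_combination hl
    have hm2 : (m ^ 2 - ξ / 12) * Y ^ 2 = 0 := by
      simp only [threeQuartic] at hq
      linear_combination (-(ξ ^ 2 / 432 - E.c₄ / 48 + m * Y)) * hmY - (ξ / 12) * hY
        + (-1 / 559872) * hq
    rw [mul_eq_zero, or_iff_left (pow_ne_zero 2 hY0), sub_eq_zero] at hm2
    rw [← hm] at hm2
    simp only [Affine.addX, hx, b₂]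
    linear_combination hm2
  have hPP : Affine.Point.some x y hns + Affine.Point.some x y hns
      = -Affine.Point.some x y hns := by
    rw [Affine.Point.add_self_of_Y_ne hne, Affine.Point.neg_some]
    simp only [Affine.Point.some.injEq, hl]
    refine ⟨hX3, ?_⟩
    rw [Affine.addY, Affine.negAddY, hX3, sub_self, mul_zero, zero_add]
  rw [succ_nsmul, two_nsmul, hPP, neg_add_cancel]

local notation "L" => AlgebraicClosure ℚ

/-- A stable proper nonzero submodule of the `3`-torsion gives a rational `x`-coordinate. -/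
theorem exists_int_root_of_not_irreducible (W : WeierstrassCurve ℤ) (hΔ : W.Δ ≠ 0)
    (h : ¬ W.ModRepIsIrreducible 3) : ∃ ξ : ℤ, threeQuartic W.c₄ W.c₆ ξ = 0 := by
  classical
  set E : WeierstrassCurve L := (W.map (Int.castRingHom ℚ))⁄L with hE
  have halg : Algebra.IsAlgebraic ℚ L := AlgebraicClosure.isAlgebraic ℚ
  have : Normal ℚ L := @IsAlgClosure.normal ℚ L _ _ _ ⟨inferInstance, halg⟩
  have : IsGalois ℚ L := ⟨⟩
  have hEΔ : E.Δ ≠ 0 := by simp [hE, WeierstrassCurve.baseChange, WeierstrassCurve.map_Δ, hΔ]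
  have hc4 : E.c₄ = (W.c₄ : L) := by simp [hE, WeierstrassCurve.baseChange, WeierstrassCurve.map_c₄]
  have hc6 : E.c₆ = (W.c₆ : L) := by simp [hE, WeierstrassCurve.baseChange, WeierstrassCurve.map_c₆]
  obtain ⟨P₀, hP₀, hP₀3⟩ := exists_three_torsion hEΔ
  have hnt : Nontrivial (Submodule.torsionBy ℤ
      ((W.map (Int.castRingHom ℚ))⁄L).toAffine.Point ((3 : ℕ) : ℤ)) := by
    refine ⟨⟨P₀, ?_⟩, 0, fun e => hP₀ (congrArg Subtype.val e)⟩
    rw [Submodule.mem_torsionBy_iff, natCast_zsmul]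
    exact hP₀3
  simp only [ModRepIsIrreducible, Affine.Point.GaloisRepIsIrreducible, not_and, not_forall,
    not_or] at h
  obtain ⟨M, hM, hbot, htop⟩ := h hnt
  obtain ⟨P, hPM, hP⟩ := (Submodule.ne_bot_iff M).mp hbot
  obtain ⟨P, hP3⟩ := P
  have h3 : (3 : ℕ) • P = 0 := by
    rw [← natCast_zsmul]; exact (Submodule.mem_torsionBy_iff _ _).mp hP3
  rcases P with - | ⟨x, y, hns⟩
  · exact absurd rfl hP
  have hroot := threeQuartic_of_three_torsion (E := E) h3
  by_cases hfix : ∀ σ : L ≃ₐ[ℚ] L, σ x = x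
  · obtain ⟨q, hq⟩ := (InfiniteGalois.mem_range_algebraMap_iff_fixed (k := ℚ) x).mpr hfix
    have hb : E.b₂ = (W.b₂ : L) := by simp [hE, WeierstrassCurve.baseChange, WeierstrassCurve.map_b₂]
    have hco : threeCoord E x = algebraMap ℚ L (36 * q + 3 * (W.b₂ : ℚ)) := by
      rw [threeCoord, hb, ← hq]; simp [map_ofNat]
    set p : ℤ[X] := X ^ 4 - C (54 * W.c₄) * X ^ 2 - C (216 * W.c₆) * X - C (243 * W.c₄ ^ 2) with hp
    have hp' : ∀ r : ℚ, aeval r p = threeQuartic (W.c₄ : ℚ) (W.c₆ : ℚ) r := fun r => by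
      simp [hp, threeQuartic, map_ofNat]
    have hr : aeval (36 * q + 3 * (W.b₂ : ℚ)) p = 0 := by
      apply (algebraMap ℚ L).injective
      rw [hp', map_zero, ← hroot, hco, hc4, hc6]
      simp [threeQuartic, map_ofNat]
    obtain ⟨z, hz⟩ := isInteger_of_is_root_of_monic (by rw [hp]; monicity!) hr
    refine ⟨z, ?_⟩
    apply Int.cast_injective (α := ℚ)
    rw [← hz, hp'] at hr
    simpa [threeQuartic] using hr
  · exfalso
    push Not at hfix
    obtain ⟨σ, hσ⟩ := hfix
    set P' : E.toAffine.Point := Affine.Point.some x y hns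
    set Q' : E.toAffine.Point :=
      (σ • (⟨_, hP3⟩ : Submodule.torsionBy ℤ ((W.map (Int.castRingHom ℚ))⁄L).toAffine.Point ((3 : ℕ) : ℤ)) :
        Submodule.torsionBy ℤ ((W.map (Int.castRingHom ℚ))⁄L).toAffine.Point ((3 : ℕ) : ℤ)).1 with hQ'
    have hQM := hM σ _ hPM
    have hQval : ∃ h', Q' = Affine.Point.some (σ x) (σ y) h' := ⟨_, rfl⟩
    obtain ⟨hns', hQval⟩ := hQval
    have hQ3 : (3 : ℕ) • Q' = 0 := by
      rw [← natCast_zsmul]; exact (Submodule.mem_torsionBy_iff _ _).mp (σ • (⟨_, hP3⟩ :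
        Submodule.torsionBy ℤ ((W.map (Int.castRingHom ℚ))⁄L).toAffine.Point ((3 : ℕ) : ℤ))).2
    have hne : P' ≠ Q' ∧ P' ≠ -Q' := by
      rw [hQval, Affine.Point.neg_some]
      exact ⟨fun e => hσ (Affine.Point.some.inj e).1.symm,
        fun e => hσ (Affine.Point.some.inj e).1.symm⟩
    have hsum : P' + Q' ≠ 0 := fun e => hne.2 (add_eq_zero_iff_eq_neg.mp e)
    have hdif : P' + -Q' ≠ 0 := fun e => hne.1 (add_neg_eq_zero.mp e)
    -- membership in `M` of a point of the `3`-torsion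
    have memM : ∀ R : E.toAffine.Point, R ∈ ({P', Q', P' + Q', P' + -Q'} : Set E.toAffine.Point) →
        (3 : ℕ) • R = 0 ∧ ∀ hR, (⟨R, hR⟩ :
          Submodule.torsionBy ℤ ((W.map (Int.castRingHom ℚ))⁄L).toAffine.Point ((3 : ℕ) : ℤ)) ∈ M := by
      rintro R (rfl | rfl | rfl | rfl)
      · exact ⟨h3, fun _ => hPM⟩
      · exact ⟨hQ3, fun _ => hQM⟩
      · exact ⟨by rw [nsmul_add, h3, hQ3, add_zero], fun _ => M.add_mem hPM hQM⟩
      · exact ⟨by rw [nsmul_add, h3, neg_nsmul, hQ3, neg_zero, add_zero],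
          fun _ => M.add_mem hPM (M.neg_mem hQM)⟩
    let xc : E.toAffine.Point → L := fun R => match R with
      | .zero => 0
      | .some u _ _ => threeCoord E u
    have hinj : ∀ R S : E.toAffine.Point, R ≠ 0 → S ≠ 0 → xc R = xc S → R = S ∨ R = -S := by
      rintro (- | ⟨u, v, hu⟩) (- | ⟨u', v', hu'⟩) hR hS e
      any_goals exact absurd rfl hR
      any_goals exact absurd rfl hS
      exact (Affine.Point.X_eq_iff (h₁ := hu) (h₂ := hu')).mp (by
        simp only [xc, threeCoord] at e; linear_combination (1 / 36) * e)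
    have hxroot : ∀ R : E.toAffine.Point, R ≠ 0 → (3 : ℕ) • R = 0 →
        threeQuartic E.c₄ E.c₆ (xc R) = 0 := by
      rintro (- | ⟨u, v, hu⟩) hR hR3
      · exact absurd rfl hR
      · exact threeQuartic_of_three_torsion hR3
    apply htop
    rw [eq_top_iff]
    rintro ⟨R, hR⟩ -
    rcases eq_or_ne R 0 with rfl | hR0
    · exact M.zero_mem
    have hR3 : (3 : ℕ) • R = 0 := by
      rw [← natCast_zsmul]; exact (Submodule.mem_torsionBy_iff _ _).mp hR
    -- the four roots
    set p : L[X] := X ^ 4 - C (54 * E.c₄) * X ^ 2 - C (216 * E.c₆) * X - C (243 * E.c₄ ^ 2) with hp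
    have hp0 : p ≠ 0 := Monic.ne_zero (by rw [hp]; monicity!)
    have hmem : ∀ S : E.toAffine.Point, S ≠ 0 → (3 : ℕ) • S = 0 → xc S ∈ p.roots.toFinset := by
      intro S hS hS3
      rw [Multiset.mem_toFinset, mem_roots hp0]
      simpa [hp, threeQuartic] using hxroot S hS hS3
    have hcard : p.roots.toFinset.card ≤ 4 :=
      (Multiset.toFinset_card_le _).trans ((card_roots' p).trans (by rw [hp]; compute_degree))
    have hQ0 : Q' ≠ 0 := by rw [hQval]; exact Affine.Point.some_ne_zero _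
    have hP'0 : P' ≠ 0 := Affine.Point.some_ne_zero _
    have two_eq : ∀ S : E.toAffine.Point, (3 : ℕ) • S = 0 → S + S = 0 → S = 0 := by
      intro S hS h2
      have : (3 : ℕ) • S = (S + S) + S := by abel
      rwa [hS, h2, zero_add, eq_comm] at this
    have key : ({xc P', xc Q', xc (P' + Q'), xc (P' + -Q')} : Finset L).card = 4 := by
      have n1 : xc P' ≠ xc Q' := fun e => (hinj _ _ hP'0 hQ0 e).elim hne.1 hne.2
      have n2 : xc P' ≠ xc (P' + Q') := fun e => (hinj _ _ hP'0 hsum e).elim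
        (fun e => hQ0 (left_eq_add.mp e))
        (fun e => hne.1 (by linear_combination (norm := abel) (-1 : ℤ) • e + h3))
      have n3 : xc P' ≠ xc (P' + -Q') := fun e => (hinj _ _ hP'0 hdif e).elim
        (fun e => hQ0 (neg_eq_zero.mp (left_eq_add.mp e)))
        (fun e => hne.2 (by linear_combination (norm := abel) (-1 : ℤ) • e + h3))
      have n4 : xc Q' ≠ xc (P' + Q') := fun e => (hinj _ _ hQ0 hsum e).elim
        (fun e => hP'0 (right_eq_add.mp e))
        (fun e => hne.1 (by linear_combination (norm := abel) e - hQ3))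
      have n5 : xc Q' ≠ xc (P' + -Q') := fun e => (hinj _ _ hQ0 hdif e).elim
        (fun e => hne.2 (by linear_combination (norm := abel) (-1 : ℤ) • e + hQ3))
        (fun e => hP'0 (by linear_combination (norm := abel) e))
      have n6 : xc (P' + Q') ≠ xc (P' + -Q') := fun e => (hinj _ _ hsum hdif e).elim
        (fun e => hQ0 (two_eq _ hQ3 (by linear_combination (norm := abel) e)))
        (fun e => hP'0 (two_eq _ h3 (by linear_combination (norm := abel) e)))
      rw [Finset.card_insert_of_notMem (by simp [n1, n2, n3]),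
        Finset.card_insert_of_notMem (by simp [n4, n5]), Finset.card_pair n6]
    have hsub : ({xc P', xc Q', xc (P' + Q'), xc (P' + -Q')} : Finset L) ⊆ p.roots.toFinset := by
      intro z hz
      simp only [Finset.mem_insert, Finset.mem_singleton] at hz
      rcases hz with rfl | rfl | rfl | rfl
      · exact hmem _ hP'0 h3
      · exact hmem _ hQ0 hQ3
      · exact hmem _ hsum (by rw [nsmul_add, h3, hQ3, add_zero])
      · exact hmem _ hdif (by rw [nsmul_add, h3, neg_nsmul, hQ3, neg_zero, add_zero])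
    have hfull := Finset.eq_of_subset_of_card_le hsub (by rw [key]; exact hcard)
    have hxR := hmem R hR0 hR3
    rw [← hfull] at hxR
    simp only [Finset.mem_insert, Finset.mem_singleton] at hxR
    have fin : ∀ S : E.toAffine.Point, S ∈ ({P', Q', P' + Q', P' + -Q'} : Set E.toAffine.Point) →
        S ≠ 0 → xc R = xc S → (⟨R, hR⟩ :
          Submodule.torsionBy ℤ ((W.map (Int.castRingHom ℚ))⁄L).toAffine.Point ((3 : ℕ) : ℤ)) ∈ M := by
      intro S hS hS0 e
      have hSmem := (memM S hS).2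
      have hS3 : S ∈ Submodule.torsionBy ℤ ((W.map (Int.castRingHom ℚ))⁄L).toAffine.Point ((3 : ℕ) : ℤ) := by
        rw [Submodule.mem_torsionBy_iff, natCast_zsmul]; exact (memM S hS).1
      rcases hinj R S hR0 hS0 e with h' | h'
      · subst h'; exact hSmem hR
      · subst h'; exact M.neg_mem (hSmem hS3)
    rcases hxR with e | e | e | e
    · exact fin _ (.inl rfl) hP'0 e
    · exact fin _ (.inr (.inl rfl)) hQ0 e
    · exact fin _ (.inr (.inr (.inl rfl))) hsum e
    · exact fin _ (.inr (.inr (.inr rfl))) hdif e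

end Fermat.Agent.Switch35
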