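import Mathlib
import Fermat.Prelude.Def_FLTPrelim_ModularRep
import Fermat.Agent.Galois.Places
import Fermat.Agent.Switch35.FiveMap

/-!
# Integral models of the members of the family

Integrality and congruences of the invariants of the family, semistability away from the bad
primes of the base curve, and the integral models for `(a, b)` congruent to `(0, 1)`.
-/

set_option autoImplicit false

noncomputable section

namespace Fermat.Agent.Switch35

open WeierstrassCurve MvPolynomial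

theorem exists_integral_multiple (G : R4) :
    ∃ D : ℕ, 0 < D ∧ ∃ Gz : MvPolynomial (Fin 4) ℤ, ∀ x : Fin 4 → ℤ,
      ((eval x Gz : ℤ) : ℚ) = D * aeval (fun i => (x i : ℚ)) G := by
  induction G using MvPolynomial.induction_on with
  | C r => exact ⟨r.den, r.pos, C r.num, fun x => by simp [mul_comm, Rat.mul_den_eq_num]⟩
  | add p q hp hq =>
    obtain ⟨D, hD, Gz, hG⟩ := hp
    obtain ⟨D', hD', Gz', hG'⟩ := hq
    refine ⟨D * D', Nat.mul_pos hD hD', (D' : MvPolynomial (Fin 4) ℤ) * Gz + (D : _) * Gz',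
      fun x => ?_⟩
    simp only [map_add, map_mul, map_natCast, Int.cast_add, Int.cast_mul, Int.cast_natCast, hG, hG']
    push_cast; ring
  | mul_X p i hp =>
    obtain ⟨D, hD, Gz, hG⟩ := hp
    refine ⟨D, hD, Gz * X i, fun x => ?_⟩
    simp [hG, mul_assoc]

theorem dvd_eval_sub {M : ℤ} {x y : Fin 4 → ℤ} (h : ∀ i, M ∣ x i - y i)
    (G : MvPolynomial (Fin 4) ℤ) : M ∣ eval x G - eval y G := by
  induction G using MvPolynomial.induction_on with
  | C r => simp
  | add p q hp hq => rw [map_add, map_add, add_sub_add_comm]; exact dvd_add hp hq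
  | mul_X p i hp =>
    simp only [map_mul, eval_X]
    rw [show eval x p * x i - eval y p * y i
      = (eval x p - eval y p) * x i + eval y p * (x i - y i) by ring]
    exact dvd_add (hp.mul_right _) ((h i).mul_left _)

theorem exists_common_den :
    ∃ D : ℕ, 0 < D ∧ ∃ F₄ F₆ : MvPolynomial (Fin 4) ℤ, ∀ x : Fin 4 → ℤ,
      ((eval x F₄ : ℤ) : ℚ) = D * aeval (fun i => (x i : ℚ)) fourPoly ∧
      ((eval x F₆ : ℤ) : ℚ) = D * aeval (fun i => (x i : ℚ)) sixPoly := by
  obtain ⟨D, hD, F, hF⟩ := exists_integral_multiple fourPoly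
  obtain ⟨D', hD', F', hF'⟩ := exists_integral_multiple sixPoly
  refine ⟨D * D', Nat.mul_pos hD hD', (D' : MvPolynomial (Fin 4) ℤ) * F, (D : _) * F',
    fun x => ⟨?_, ?_⟩⟩
  · simp only [map_mul, map_natCast, Int.cast_mul, Int.cast_natCast, hF]; push_cast; ring
  · simp only [map_mul, map_natCast, Int.cast_mul, Int.cast_natCast, hF']; push_cast; ring

/-- A common denominator of the two family polynomials. -/
def famDen : ℕ := exists_common_den.choose

theorem famDen_pos : 0 < famDen := exists_common_den.choose_spec.1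

/-- `famDen` times the deformed `c₄`. -/
def fourInt (W : WeierstrassCurve ℤ) (a b : ℤ) : ℤ :=
  eval ![W.c₄, W.c₆, b, a] exists_common_den.choose_spec.2.choose

/-- `famDen` times the deformed `c₆`. -/
def sixInt (W : WeierstrassCurve ℤ) (a b : ℤ) : ℤ :=
  eval ![W.c₄, W.c₆, b, a] exists_common_den.choose_spec.2.choose_spec.choose

theorem cast_vec (p q r t : ℤ) :
    (fun i => ((![p, q, r, t] : Fin 4 → ℤ) i : ℚ)) = ![(p : ℚ), q, r, t] := by
  funext i; fin_cases i <;> simp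

theorem cast_fourInt (W : WeierstrassCurve ℤ) (a b : ℤ) :
    (fourInt W a b : ℚ) = famDen * fourFam (W.c₄ : ℚ) (W.c₆ : ℚ) (a : ℚ) (b : ℚ) := by
  have h := (exists_common_den.choose_spec.2.choose_spec.choose_spec ![W.c₄, W.c₆, b, a]).1
  rw [cast_vec] at h
  exact h

theorem cast_sixInt (W : WeierstrassCurve ℤ) (a b : ℤ) :
    (sixInt W a b : ℚ) = famDen * sixFam (W.c₄ : ℚ) (W.c₆ : ℚ) (a : ℚ) (b : ℚ) := by
  have h := (exists_common_den.choose_spec.2.choose_spec.choose_spec ![W.c₄, W.c₆, b, a]).2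
  rw [cast_vec] at h
  exact h

theorem fourInt_congr (W : WeierstrassCurve ℤ) {M a b a' b' : ℤ} (ha : M ∣ a - a')
    (hb : M ∣ b - b') : M ∣ fourInt W a b - fourInt W a' b' :=
  dvd_eval_sub (fun i => by fin_cases i <;> simp [ha, hb]) _

theorem sixInt_congr (W : WeierstrassCurve ℤ) {M a b a' b' : ℤ} (ha : M ∣ a - a')
    (hb : M ∣ b - b') : M ∣ sixInt W a b - sixInt W a' b' :=
  dvd_eval_sub (fun i => by fin_cases i <;> simp [ha, hb]) _

/-- The invariants of a semistable model are nonzero. -/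
theorem c₄_ne_zero_and_c₆_ne_zero (W : WeierstrassCurve ℤ) (hΔ : W.Δ ≠ 0)
    (hW : W.IsSemistableModel) : W.c₄ ≠ 0 ∧ W.c₆ ≠ 0 := by
  have hrel := W.c_relation
  have hunit : (W.c₄ = 0 ∨ W.c₆ = 0) → W.Δ = 1 ∨ W.Δ = -1 := by
    intro h
    refine Int.natAbs_eq_iff.mp (Nat.eq_one_iff_not_exists_prime_dvd.mpr fun q hq hdvd => ?_)
    have hdvd' : (q : ℤ) ∣ W.Δ := Int.natCast_dvd.mpr hdvd
    rcases h with h | h
    · exact hW q hq hdvd' (by rw [h]; exact dvd_zero _)
    · have h3 : (q : ℤ) ∣ W.c₄ ^ 3 := by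
        rw [h, zero_pow two_ne_zero, sub_zero] at hrel
        rw [← hrel]; exact hdvd'.mul_left _
      exact hW q hq hdvd' ((Nat.prime_iff_prime_int.mp hq).dvd_of_dvd_pow h3)
  constructor
  · intro h
    rw [h, zero_pow three_ne_zero, zero_sub] at hrel
    rcases hunit (.inl h) with e | e <;> rw [e] at hrel
    · nlinarith [sq_nonneg W.c₆]
    · have hlo : 41 ^ 2 < W.c₆ ^ 2 := by linarith
      have hhi : W.c₆ ^ 2 < 42 ^ 2 := by linarith
      rw [sq_lt_sq] at hlo hhi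
      norm_num at hlo hhi
      omega
  · intro h
    rw [h, zero_pow two_ne_zero, sub_zero] at hrel
    have h12 : W.c₄ = 12 ∨ W.c₄ = -12 := by
      rcases hunit (.inr h) with e | e <;> rw [e] at hrel
      · left
        have h0 : 0 < W.c₄ := by
          by_contra h0; push Not at h0
          nlinarith [sq_nonneg W.c₄]
        nlinarith [sq_nonneg (W.c₄ - 12), sq_nonneg W.c₄]
      · right
        have h0 : W.c₄ < 0 := by
          by_contra h0; push Not at h0
          nlinarith [sq_nonneg W.c₄]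
        nlinarith [sq_nonneg (W.c₄ + 12), sq_nonneg W.c₄]
    rcases Int.even_or_odd W.a₁ with ⟨k, hk⟩ | hodd
    · have h16 : (16 : ℤ) ∣ W.c₄ :=
        ⟨(k * k + W.a₂) ^ 2 - 3 * (W.a₄ + k * W.a₃), by simp only [c₄, b₂, b₄, hk]; ring⟩
      rcases h12 with e | e <;> rw [e] at h16 <;> norm_num at h16
    · obtain ⟨k, hk⟩ := hodd
      have h2 : (2 : ℤ) ∣ W.c₄ - 1 :=
        ⟨2 * k * (k + 1) * (4 * k ^ 2 + 4 * k + 2 + 8 * W.a₂) + 4 * W.a₂ + 8 * W.a₂ ^ 2
          - 12 * (2 * W.a₄ + W.a₁ * W.a₃), by simp only [c₄, b₂, b₄, hk]; ring⟩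
      rcases h12 with e | e <;> rw [e] at h2 <;> norm_num at h2

local notation "Qb" => AlgebraicClosure ℚ

/-- The base change of an integral model to `ℚ̄`. -/
abbrev qbarCurve (W : WeierstrassCurve ℤ) : WeierstrassCurve Qb := W.map (Int.castRingHom Qb)

theorem qbarCurve_c₄ (W : WeierstrassCurve ℤ) : (qbarCurve W).c₄ = (W.c₄ : Qb) :=
  W.map_c₄ _

theorem qbarCurve_c₆ (W : WeierstrassCurve ℤ) : (qbarCurve W).c₆ = (W.c₆ : Qb) :=
  W.map_c₆ _

theorem qbarCurve_Δ (W : WeierstrassCurve ℤ) : (qbarCurve W).Δ = (W.Δ : Qb) :=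
  W.map_Δ _

theorem exists_pair_qbar (W : WeierstrassCurve ℤ) (hΔ : W.Δ ≠ 0) (hW : W.IsSemistableModel) :
    ∃ p : Qb × Qb, IsFivePair (qbarCurve W) p := by
  obtain ⟨h4, h6⟩ := c₄_ne_zero_and_c₆_ne_zero W hΔ hW
  obtain ⟨F, hF24, hF⟩ := exists_fivePairs (qbarCurve W)
    (by rw [qbarCurve_Δ]; exact_mod_cast hΔ) (by rw [qbarCurve_c₄]; exact_mod_cast h4)
    (by rw [qbarCurve_c₆]; exact_mod_cast h6)
  obtain ⟨p, hp⟩ := Finset.card_pos.mp (by omega : 0 < F.card)
  exact ⟨p, (hF p).mp hp⟩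

theorem cast_fam_eq {W : WeierstrassCurve ℤ} {p : Qb × Qb} (hp : IsFivePair (qbarCurve W) p)
    (a b : ℚ) :
    algebraMap ℚ Qb (fourFam (W.c₄ : ℚ) (W.c₆ : ℚ) a b)
        = fourForm (utForm p.1 p.2 (algebraMap ℚ Qb a) (algebraMap ℚ Qb b))
          (vtForm p.1 p.2 (algebraMap ℚ Qb a) (algebraMap ℚ Qb b)) ∧
      algebraMap ℚ Qb (sixFam (W.c₄ : ℚ) (W.c₆ : ℚ) a b)
        = sixForm (utForm p.1 p.2 (algebraMap ℚ Qb a) (algebraMap ℚ Qb b))
          (vtForm p.1 p.2 (algebraMap ℚ Qb a) (algebraMap ℚ Qb b)) := by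
  constructor
  · rw [← fourFam_forms, hp.1, hp.2, qbarCurve_c₄, qbarCurve_c₆, ← Algebra.ofId_apply,
      map_fourFam]
    simp [Algebra.ofId_apply]
  · rw [← sixFam_forms, hp.1, hp.2, qbarCurve_c₄, qbarCurve_c₆, ← Algebra.ofId_apply,
      map_sixFam]
    simp [Algebra.ofId_apply]

/-- The value at `(0, 1)` is the curve itself. -/
theorem fam_zero_one (W : WeierstrassCurve ℤ) (hΔ : W.Δ ≠ 0) (hW : W.IsSemistableModel) :
    fourFam (W.c₄ : ℚ) (W.c₆ : ℚ) 0 1 = W.c₄ ∧ sixFam (W.c₄ : ℚ) (W.c₆ : ℚ) 0 1 = W.c₆ := by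
  obtain ⟨p, hp⟩ := exists_pair_qbar W hΔ hW
  obtain ⟨e4, e6⟩ := cast_fam_eq hp 0 1
  constructor <;> apply (algebraMap ℚ Qb).injective
  · rw [e4, map_zero, map_one, utForm_zero, vtForm_zero, one_pow, one_mul, one_mul, hp.1,
      qbarCurve_c₄]
    simp
  · rw [e6, map_zero, map_one, utForm_zero, vtForm_zero, one_pow, one_mul, one_mul, hp.2,
      qbarCurve_c₆]
    simp

/-- At a prime not dividing `30 famDen Δ` the deformed invariants do not both vanish. -/
theorem not_dvd_fourInt_and_sixInt (W : WeierstrassCurve ℤ) (hΔ : W.Δ ≠ 0)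
    (hW : W.IsSemistableModel) {q : ℕ} (hq : q.Prime) (h2 : q ≠ 2) (h3 : q ≠ 3) (h5 : q ≠ 5)
    (hqD : ¬ q ∣ famDen) (hqΔ : ¬ (q : ℤ) ∣ W.Δ) {a b : ℤ}
    (hab : ¬ ((q : ℤ) ∣ a ∧ (q : ℤ) ∣ b)) :
    ¬ ((q : ℤ) ∣ fourInt W a b ∧ (q : ℤ) ∣ sixInt W a b) := by
  rintro ⟨hC4, hC6⟩
  obtain ⟨p, hp⟩ := exists_pair_qbar W hΔ hW
  obtain ⟨e4, e6⟩ := cast_fam_eq hp (a : ℚ) (b : ℚ)
  obtain ⟨A, hA⟩ := Galois.exists_liesOverPrime (L := Qb) hq
  let κ := IsLocalRing.ResidueField A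
  let ρ : A →+* κ := IsLocalRing.residue A
  have hres : ∀ (x : A), ρ x = 0 ↔ (x : Qb) ∈ A.nonunits := fun x => by
    rw [IsLocalRing.residue_eq_zero_iff, IsLocalRing.mem_maximalIdeal,
      ValuationSubring.coe_mem_nonunits_iff, IsLocalRing.mem_maximalIdeal]
  have hint : ∀ n : ℤ, (ρ (n : A) = 0 ↔ (q : ℤ) ∣ n) := fun n => by
    rw [hres, ← Galois.place_intCast_mem_nonunits_iff hA hq n]
    simp
  have hnum : ∀ n : ℤ, (n : κ) = 0 ↔ (q : ℤ) ∣ n := fun n => by rw [← hint n, map_intCast]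
  have hsmall : ∀ m : ℕ, m.Prime → q ≠ m → ((m : ℤ) : κ) ≠ 0 := fun m hm hne h =>
    hne ((Nat.prime_dvd_prime_iff_eq hq hm).mp (Int.natCast_dvd_natCast.mp ((hnum _).mp h)))
  have k2 : (2 : κ) ≠ 0 := by have := hsmall 2 Nat.prime_two h2; exact_mod_cast this
  have k3 : (3 : κ) ≠ 0 := by have := hsmall 3 Nat.prime_three h3; exact_mod_cast this
  have k5 : (5 : κ) ≠ 0 := by have := hsmall 5 Nat.prime_five h5; exact_mod_cast this
  have hdisc : ∀ x y : κ, fourForm x y = 0 → sixForm x y = 0 → discForm x y = 0 := by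
    intro x y u v
    have h := forms_relation x y
    rw [u, v] at h
    have h' : (2 : κ) ^ 6 * 3 ^ 3 * discForm x y = 0 := by linear_combination -h
    simpa [k2, k3] using h'
  have memA : p.1 ∈ A ∧ p.2 ∈ A := by
    obtain ⟨hU, hV⟩ := hp.ne_zero (by rw [qbarCurve_Δ]; exact_mod_cast hΔ)
    have h4 := hp.1
    have h6 := hp.2
    rw [qbarCurve_c₄] at h4
    rw [qbarCurve_c₆] at h6
    have contra : ∀ U V z : Qb, U ≠ 0 → z ∈ A → V = U * z → fourForm U V = (W.c₄ : Qb) →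
        sixForm U V = (W.c₆ : Qb) → U ∈ A := by
      intro U V z hU hz hV f4 f6
      by_contra hUA
      have hinv : U⁻¹ ∈ A := (A.mem_or_inv_mem U).resolve_left hUA
      have hm : ρ ⟨U⁻¹, hinv⟩ = 0 := by
        rw [hres, ValuationSubring.mem_nonunits_iff_or]
        right
        simpa using hUA
      have s4 : fourForm (1 : A) ⟨z, hz⟩ = (W.c₄ : A) * ⟨U⁻¹, hinv⟩ ^ 4 := by
        apply A.subtype_injective
        rw [map_fourForm]
        have := fourForm_scale (1 : Qb) z U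
        rw [mul_one, ← hV, f4] at this
        simp only [map_mul, map_pow, map_intCast, map_one, ValuationSubring.subtype_apply]
        rw [this]; field_simp
      have s6 : sixForm (1 : A) ⟨z, hz⟩ = (W.c₆ : A) * ⟨U⁻¹, hinv⟩ ^ 6 := by
        apply A.subtype_injective
        rw [map_sixForm]
        have := sixForm_scale (1 : Qb) z U
        rw [mul_one, ← hV, f6] at this
        simp only [map_mul, map_pow, map_intCast, map_one, ValuationSubring.subtype_apply]
        rw [this]; field_simp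
      have r4 := congrArg ρ s4
      have r6 := congrArg ρ s6
      rw [map_fourForm, map_one, map_mul, map_pow, hm, zero_pow (by norm_num), mul_zero] at r4
      rw [map_sixForm, map_one, map_mul, map_pow, hm, zero_pow (by norm_num), mul_zero] at r6
      exact one_ne_zero (eq_zero_of_fourForm_eq_zero k5 r4 (hdisc _ _ r4 r6)).1
    rcases A.mem_or_inv_mem (p.2 / p.1) with hz | hz
    · have hU' := contra p.1 p.2 _ hU hz (by field_simp) h4 h6
      exact ⟨hU', by simpa [mul_div_cancel₀ _ hU] using mul_mem hU' hz⟩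
    · have hV' : p.2 ∈ A := by
        refine contra p.2 (-p.1) _ hV (neg_mem hz) (by field_simp) ?_ ?_
        · rw [← h4]; simp only [fourForm]; ring
        · rw [← h6]; simp only [sixForm]; ring
      refine ⟨?_, hV'⟩
      have := mul_mem hV' hz
      rwa [inv_div, mul_div_cancel₀ _ hV] at this
  obtain ⟨s, hs⟩ := IsAlgClosed.exists_pow_nat_eq (5 : Qb) two_pos
  have hsA : s ∈ A :=
    Galois.place_mem_of_isIntegral A (IsIntegral.of_pow two_pos (by rw [hs]; exact isIntegral_algebraMap (x := (5 : ℤ))))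
  set u : A := ⟨p.1, memA.1⟩
  set v : A := ⟨p.2, memA.2⟩
  have hρs : ρ ⟨s, hsA⟩ ^ 2 = (5 : κ) := by
    rw [← map_pow, ← map_ofNat ρ 5]
    congr 1
    exact A.subtype_injective (by simpa [map_ofNat] using hs)
  have hρd : discForm (ρ u) (ρ v) ≠ 0 := by
    have hd : discForm u v = (W.Δ : A) := by
      apply A.subtype_injective
      have := hp.discForm_eq
      rw [qbarCurve_Δ] at this
      simp only [discForm, cuspForm2] at this ⊢
      simp only [map_mul, map_sub, map_pow, map_ofNat, map_intCast]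
      exact this
    intro h
    apply hqΔ
    rw [← hint, ← hd]
    simpa [discForm, cuspForm2, map_ofNat] using h
  have hint4 : (fourInt W a b : A)
      = (famDen : A) * fourForm (utForm u v (a : A) (b : A)) (vtForm u v (a : A) (b : A)) := by
    apply A.subtype_injective
    rw [map_mul, map_fourForm, map_utForm, map_vtForm]
    simp only [map_intCast, map_natCast, ValuationSubring.subtype_apply, u, v]
    rw [show ((fourInt W a b : ℤ) : Qb) = algebraMap ℚ Qb (fourInt W a b : ℚ) by simp,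
      cast_fourInt, map_mul, e4]
    simp
  have hint6 : (sixInt W a b : A)
      = (famDen : A) * sixForm (utForm u v (a : A) (b : A)) (vtForm u v (a : A) (b : A)) := by
    apply A.subtype_injective
    rw [map_mul, map_sixForm, map_utForm, map_vtForm]
    simp only [map_intCast, map_natCast, ValuationSubring.subtype_apply, u, v]
    rw [show ((sixInt W a b : ℤ) : Qb) = algebraMap ℚ Qb (sixInt W a b : ℚ) by simp,
      cast_sixInt, map_mul, e6]
    simp
  have hDκ : (famDen : κ) ≠ 0 := fun h =>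
    hqD (Int.natCast_dvd_natCast.mp ((hnum _).mp (by exact_mod_cast h)))
  have r4 := congrArg ρ hint4
  have r6 := congrArg ρ hint6
  rw [(hint _).mpr hC4, map_mul, map_natCast, eq_comm, mul_eq_zero, or_iff_right hDκ, map_fourForm,
    map_utForm, map_vtForm, map_intCast, map_intCast] at r4
  rw [(hint _).mpr hC6, map_mul, map_natCast, eq_comm, mul_eq_zero, or_iff_right hDκ, map_sixForm,
    map_utForm, map_vtForm, map_intCast, map_intCast] at r6
  obtain ⟨z1, z2⟩ := eq_zero_of_fourForm_eq_zero k5 r4 (hdisc _ _ r4 r6)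
  have hab' : (a : κ) ≠ 0 ∨ (b : κ) ≠ 0 := by
    rw [Ne, Ne, hnum, hnum, ← not_and_or]; exact hab
  rcases utForm_ne_zero_or k2 k3 k5 hρs hab' hρd with h | h
  · exact h z1
  · exact h z2

/-- The model with the same `a₁, a₂, a₃` and invariants `c₄ + 1728 u`, `c₆ + 1728 v`. -/
def shiftModel (W : WeierstrassCurve ℤ) (u v : ℤ) : WeierstrassCurve ℤ :=
  ⟨W.a₁, W.a₂, W.a₃, W.a₄ - 36 * u, W.a₆ - 3 * W.b₂ * u - 2 * v⟩

theorem shiftModel_c₄ (W : WeierstrassCurve ℤ) (u v : ℤ) :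
    (shiftModel W u v).c₄ = W.c₄ + 1728 * u := by
  simp only [shiftModel, c₄, b₂, b₄]; ring

theorem shiftModel_c₆ (W : WeierstrassCurve ℤ) (u v : ℤ) :
    (shiftModel W u v).c₆ = W.c₆ + 1728 * v := by
  simp only [shiftModel, c₆, b₂, b₄, b₆]; ring

theorem shiftModel_congr (W : WeierstrassCurve ℤ) {q : ℕ} {u v : ℤ} (hu : (q : ℤ) ∣ u)
    (hv : (q : ℤ) ∣ v) :
    ((q : ℤ) ∣ (shiftModel W u v).Δ ↔ (q : ℤ) ∣ W.Δ) ∧
      ((q : ℤ) ∣ (shiftModel W u v).c₄ ↔ (q : ℤ) ∣ W.c₄) := by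
  have hu' := (ZMod.intCast_zmod_eq_zero_iff_dvd u q).mpr hu
  have hv' := (ZMod.intCast_zmod_eq_zero_iff_dvd v q).mpr hv
  have h : (shiftModel W u v).map (Int.castRingHom (ZMod q)) = W.map (Int.castRingHom (ZMod q)) := by
    ext <;> simp [shiftModel, hu', hv']
  simp only [← ZMod.intCast_zmod_eq_zero_iff_dvd]
  constructor
  · have e := congrArg WeierstrassCurve.Δ h
    simp only [map_Δ, eq_intCast] at e
    rw [e]
  · have e := congrArg WeierstrassCurve.c₄ h
    simp only [map_c₄, eq_intCast] at e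
    rw [e]

/-- The modulus absorbing all bad primes. -/
def badMod (W : WeierstrassCurve ℤ) : ℕ := 30 * famDen * W.Δ.natAbs

theorem badMod_pos (W : WeierstrassCurve ℤ) (hΔ : W.Δ ≠ 0) : 0 < badMod W :=
  Nat.mul_pos (Nat.mul_pos (by norm_num) famDen_pos) (Int.natAbs_pos.mpr hΔ)

theorem dvd_badMod {W : WeierstrassCurve ℤ} {q : ℕ}
    (h : q ∣ 30 ∨ q ∣ famDen ∨ (q : ℤ) ∣ W.Δ) : q ∣ badMod W := by
  rcases h with h | h | h
  · exact (h.mul_right _).mul_right _
  · exact (h.mul_left _).mul_right _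
  · exact (Int.natCast_dvd.mp h).mul_left _

/-- For `(a, b)` congruent to `(0, 1)` there is a semistable integral model of the member `(a, b)`
with the same `a₁, a₂, a₃`. -/
theorem exists_semistable_model (W : WeierstrassCurve ℤ) (hΔ : W.Δ ≠ 0)
    (hW : W.IsSemistableModel) {a b : ℤ}
    (ha : ((famDen * 1728 * badMod W : ℕ) : ℤ) ∣ a)
    (hb : ((famDen * 1728 * badMod W : ℕ) : ℤ) ∣ b - 1)
    (hcop : ∀ q : ℕ, q.Prime → ¬ ((q : ℤ) ∣ a ∧ (q : ℤ) ∣ b)) :
    ∃ W' : WeierstrassCurve ℤ, W'.IsSemistableModel ∧ W'.a₁ = W.a₁ ∧ W'.a₂ = W.a₂ ∧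
      W'.a₃ = W.a₃ ∧ (W'.c₄ : ℚ) = fourFam (W.c₄ : ℚ) (W.c₆ : ℚ) (a : ℚ) (b : ℚ) ∧
      (W'.c₆ : ℚ) = sixFam (W.c₄ : ℚ) (W.c₆ : ℚ) (a : ℚ) (b : ℚ) := by
  obtain ⟨z4, z6⟩ := fam_zero_one W hΔ hW
  have c4z : fourInt W 0 1 = famDen * W.c₄ := by
    have := cast_fourInt W 0 1; rw [Int.cast_zero, Int.cast_one, z4] at this; exact_mod_cast this
  have c6z : sixInt W 0 1 = famDen * W.c₆ := by
    have := cast_sixInt W 0 1; rw [Int.cast_zero, Int.cast_one, z6] at this; exact_mod_cast this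
  obtain ⟨t, ht⟩ := fourInt_congr W (a' := 0) (b' := 1) (a := a) (by rw [sub_zero]; exact ha) hb
  obtain ⟨t', ht'⟩ := sixInt_congr W (a' := 0) (b' := 1) (a := a) (by rw [sub_zero]; exact ha) hb
  push_cast at ht ht'
  set M : ℤ := ((badMod W : ℕ) : ℤ) with hM
  set W' := shiftModel W (M * t) (M * t') with hW'
  have hD : (famDen : ℤ) ≠ 0 := by exact_mod_cast famDen_pos.ne'
  have e4 : fourInt W a b = famDen * W'.c₄ := by
    rw [hW', shiftModel_c₄]; linear_combination ht + c4z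
  have e6 : sixInt W a b = famDen * W'.c₆ := by
    rw [hW', shiftModel_c₆]; linear_combination ht' + c6z
  have hDQ : (famDen : ℚ) ≠ 0 := by exact_mod_cast famDen_pos.ne'
  have f4 : (W'.c₄ : ℚ) = fourFam (W.c₄ : ℚ) (W.c₆ : ℚ) (a : ℚ) (b : ℚ) := by
    apply mul_left_cancel₀ hDQ
    rw [← cast_fourInt, e4]; push_cast; ring
  have f6 : (W'.c₆ : ℚ) = sixFam (W.c₄ : ℚ) (W.c₆ : ℚ) (a : ℚ) (b : ℚ) := by
    apply mul_left_cancel₀ hDQ
    rw [← cast_sixInt, e6]; push_cast; ring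
  refine ⟨W', fun q hq hqΔ hq4 => ?_, rfl, rfl, rfl, f4, f6⟩
  by_cases hqM : q ∣ badMod W
  · have hqM' : (q : ℤ) ∣ M := Int.natCast_dvd_natCast.mpr hqM
    obtain ⟨i1, i2⟩ := shiftModel_congr W (hqM'.mul_right t) (hqM'.mul_right t')
    exact hW q hq (i1.mp hqΔ) (i2.mp hq4)
  · have hno : ∀ m : ℕ, m ∣ 30 → q ≠ m := fun m hm e => hqM (dvd_badMod (.inl (e ▸ hm)))
    have hq6 : (q : ℤ) ∣ W'.c₆ := by
      have hrel := W'.c_relation
      have h' : (q : ℤ) ∣ W'.c₆ ^ 2 := by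
        rw [show W'.c₆ ^ 2 = W'.c₄ ^ 3 - 1728 * W'.Δ by rw [hrel]; ring]
        exact dvd_sub (dvd_pow hq4 three_ne_zero) (hqΔ.mul_left _)
      exact (Nat.prime_iff_prime_int.mp hq).dvd_of_dvd_pow h'
    apply not_dvd_fourInt_and_sixInt W hΔ hW hq (hno 2 (by norm_num)) (hno 3 (by norm_num))
      (hno 5 (by norm_num)) (fun h => hqM (dvd_badMod (.inr (.inl h))))
      (fun h => hqM (dvd_badMod (.inr (.inr h)))) (hcop q hq)
    rw [e4, e6]
    exact ⟨hq4.mul_left _, hq6.mul_left _⟩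

end Fermat.Agent.Switch35
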