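import Mathlib
import Fermat.Prelude.Def_EllipticCurve_FrobeniusTrace
import Fermat.Agent.ECFrob.Main
import Fermat.Agent.Galois.Decomposition
import Fermat.Agent.Switch35.Model
import Fermat.Agent.Switch35.Sparse
import Fermat.Agent.Switch35.Three

/-!
# The `3`–`5` switch

The members of the family have the same traces of Frobenius modulo `5` as the base curve, and are
not eventually reducible modulo `3` along a progression.
-/

set_option autoImplicit false

noncomputable section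

namespace Fermat.Agent.Switch35

open WeierstrassCurve Filter
open scoped WeierstrassCurve.Affine

local notation "Qb" => AlgebraicClosure ℚ

/-- A pair attached to `W` over `ℂ`. -/
theorem exists_pair_complex (W : WeierstrassCurve ℤ) (hΔ : W.Δ ≠ 0) (hW : W.IsSemistableModel) :
    ∃ U V : ℂ, fourForm U V = (W.c₄ : ℂ) ∧ sixForm U V = (W.c₆ : ℂ) ∧ discForm U V ≠ 0 := by
  obtain ⟨p, hp⟩ := exists_pair_qbar W hΔ hW
  haveI : Algebra.IsAlgebraic ℚ Qb := AlgebraicClosure.isAlgebraic ℚ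
  let ψ : Qb →ₐ[ℚ] ℂ := IsAlgClosed.lift
  have hU4 : fourForm (ψ p.1) (ψ p.2) = (W.c₄ : ℂ) := by
    have := congrArg ψ.toRingHom hp.1
    rw [map_fourForm, qbarCurve_c₄, map_intCast] at this
    exact this
  have hU6 : sixForm (ψ p.1) (ψ p.2) = (W.c₆ : ℂ) := by
    have := congrArg ψ.toRingHom hp.2
    rw [map_sixForm, qbarCurve_c₆, map_intCast] at this
    exact this
  refine ⟨_, _, hU4, hU6, fun h => hΔ ?_⟩
  have hrel := forms_relation (ψ p.1) (ψ p.2)
  rw [hU4, hU6, h, mul_zero] at hrel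
  have h' : ((1728 * W.Δ : ℤ) : ℂ) = 0 := by rw [W.c_relation]; push_cast; exact hrel
  simpa using h'

/-- The members of the family are eventually nonsingular along a progression. -/
theorem eventually_disc_ne_zero (W : WeierstrassCurve ℤ) (hΔ : W.Δ ≠ 0)
    (hW : W.IsSemistableModel) {A B : ℤ} {N : ℕ} (hN : 0 < N) :
    ∀ᶠ k : ℕ in atTop,
      fourFam (W.c₄ : ℚ) (W.c₆ : ℚ) (A : ℚ) ((B + N * k : ℤ) : ℚ) ^ 3
        ≠ sixFam (W.c₄ : ℚ) (W.c₆ : ℚ) (A : ℚ) ((B + N * k : ℤ) : ℚ) ^ 2 := by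
  obtain ⟨U, V, hU4, hU6, hd⟩ := exists_pair_complex W hΔ hW
  set b : ℕ → ℂ := fun k => ((B + N * k : ℤ) : ℂ) with hbdef
  have hbig : Tendsto (fun k => ‖b k‖) atTop atTop := by
    refine tendsto_atTop_mono (fun k => ?_)
      (tendsto_atTop_add_const_right atTop (-|(B : ℝ)|) tendsto_natCast_atTop_atTop)
    rw [hbdef, Complex.norm_intCast]
    have h3 : (k : ℝ) ≤ (N : ℝ) * k :=
      le_mul_of_one_le_left (Nat.cast_nonneg k) (by exact_mod_cast hN)
    push_cast
    linarith [le_abs_self ((B : ℝ) + N * k), neg_abs_le (B : ℝ)]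
  have hw : Tendsto (fun k => (A : ℂ) / b k) atTop (nhds 0) := by
    rw [tendsto_zero_iff_norm_tendsto_zero]
    simp only [norm_div]
    exact tendsto_const_nhds.div_atTop hbig
  set P : Polynomial ℂ := discForm (lineU U V) (lineV U V) with hP
  have hev : ∀ w : ℂ, P.eval w = discForm (utForm U V w 1) (vtForm U V w 1) := by
    intro w
    simp [hP, discForm, cuspForm2, eval_lineU, eval_lineV]
  have hP0 : P.eval 0 ≠ 0 := by rwa [hev, utForm_zero, vtForm_zero, one_pow, one_mul, one_mul]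
  filter_upwards [((P.continuous.tendsto 0).comp hw).eventually (isOpen_ne.mem_nhds hP0),
    hbig.eventually_gt_atTop 0] with k hk hbk h
  have hb0 : b k ≠ 0 := norm_pos_iff.mp hbk
  apply hk
  simp only [Function.comp_apply]
  rw [hev]
  have h' := congrArg (algebraMap ℚ ℂ) h
  rw [map_pow, map_pow, ← Algebra.ofId_apply ℂ (fourFam _ _ _ _),
    ← Algebra.ofId_apply ℂ (sixFam _ _ _ _), map_fourFam, map_sixFam] at h'
  simp only [Algebra.ofId_apply, map_intCast] at h'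
  rw [← hU4, ← hU6, fourFam_forms, sixFam_forms, ← sub_eq_zero, forms_relation] at h'
  have hu := utForm_mul U V ((A : ℂ) / b k) 1 (b k)
  have hv := vtForm_mul U V ((A : ℂ) / b k) 1 (b k)
  rw [mul_div_cancel₀ _ hb0, mul_one] at hu hv
  rw [show ((B + N * k : ℤ) : ℂ) = b k from rfl, hu, hv] at h'
  have h'' : (b k) ^ 60 * discForm (utForm U V ((A : ℂ) / b k) 1) (vtForm U V ((A : ℂ) / b k) 1)
      = 0 := by
    simp only [discForm, cuspForm2] at h' ⊢
    linear_combination (1 / 1728) * h'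
  exact (mul_eq_zero.mp h'').resolve_left (pow_ne_zero _ hb0)

theorem natDegree_sixForm_line_le {K : Type*} [Field K] (U V : K) :
    (sixForm (lineU U V) (lineV U V)).natDegree ≤ 30 := by
  have hu : ∀ U V : K, (lineU U V).natDegree ≤ 5 := by
    intro U V
    simp only [lineU, utForm, evenFive, oddFive]
    compute_degree
  have h1 := hu U V
  have h2 : (lineV U V).natDegree ≤ 5 := by
    simp only [lineV, vtForm, evenFive, oddFive]
    compute_degree
  simp only [sixForm]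
  generalize lineU U V = u at h1 ⊢
  generalize lineV U V = v at h2 ⊢
  compute_degree <;> omega

/-- The members of the family are not eventually reducible modulo `3` along a progression. -/
theorem not_eventually_reducible (W : WeierstrassCurve ℤ) (hΔ : W.Δ ≠ 0)
    (hW : W.IsSemistableModel) {A B : ℤ} (hA : A ≠ 0) {N : ℕ} (hN : 0 < N) {lam : ℚ}
    (hlam : lam ≠ 0) :
    ¬ ∀ᶠ k : ℕ in atTop, ∃ W' : WeierstrassCurve ℤ, W'.Δ ≠ 0 ∧
      (W'.c₄ : ℚ) = lam ^ 2 * fourFam (W.c₄ : ℚ) (W.c₆ : ℚ) (A : ℚ) ((B + N * k : ℤ) : ℚ) ∧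
      (W'.c₆ : ℚ) = lam ^ 3 * sixFam (W.c₄ : ℚ) (W.c₆ : ℚ) (A : ℚ) ((B + N * k : ℤ) : ℚ) ∧
      ¬ W'.ModRepIsIrreducible 3 := by
  intro hev
  obtain ⟨U, V, hU4, hU6, hd⟩ := exists_pair_complex W hΔ hW
  have hrel : (W.c₄ : ℂ) ^ 3 - (W.c₆ : ℂ) ^ 2 ≠ 0 := by
    rw [← hU4, ← hU6, forms_relation]
    exact mul_ne_zero (by norm_num) hd
  set l : ℂ := (lam : ℂ)
  have hl : l ≠ 0 := Rat.cast_ne_zero.mpr hlam
  set g₄ := Polynomial.C (l ^ 2) * fourForm (lineU U V) (lineV U V) with hg₄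
  set g₆ := Polynomial.C (l ^ 3) * sixForm (lineU U V) (lineV U V) with hg₆
  have h4deg : g₄.natDegree ≤ 20 :=
    (Polynomial.natDegree_C_mul_le _ _).trans (natDegree_fourForm_line_le U V)
  have h6deg : g₆.natDegree ≤ 30 :=
    (Polynomial.natDegree_C_mul_le _ _).trans (natDegree_sixForm_line_le U V)
  have heval : ∀ w : ℂ, g₄.eval w = l ^ 2 * fourForm (utForm U V w 1) (vtForm U V w 1) ∧
      g₆.eval w = l ^ 3 * sixForm (utForm U V w 1) (vtForm U V w 1) := by
    intro w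
    simp only [hg₄, hg₆, ← Polynomial.coe_evalRingHom, map_mul, map_fourForm, map_sixForm]
    simp [eval_lineU, eval_lineV]
  have h0 : g₄.eval 0 ^ 3 ≠ g₆.eval 0 ^ 2 := by
    obtain ⟨a4, a6⟩ := heval 0
    rw [a4, a6, utForm_zero, vtForm_zero, one_pow, one_mul, one_mul, hU4, hU6]
    intro e
    apply mul_ne_zero (pow_ne_zero 6 hl) hrel
    linear_combination e
  have hint : ∀ᶠ k : ℕ in atTop, ∃ ξ : ℤ,
      threeQuartic ((progPoly (A : ℂ) (B : ℂ) (N : ℂ) 20 g₄).eval (k : ℂ))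
        ((progPoly (A : ℂ) (B : ℂ) (N : ℂ) 30 g₆).eval (k : ℂ)) (ξ : ℂ) = 0 := by
    filter_upwards [hev, eventually_gt_atTop B.natAbs] with k hk hkB
    obtain ⟨W', hΔ', e4, e6, hred⟩ := hk
    obtain ⟨ξ, hξ⟩ := exists_int_root_of_not_irreducible W' hΔ' hred
    refine ⟨ξ, ?_⟩
    have hb : (B : ℂ) + (N : ℂ) * (k : ℂ) ≠ 0 := by
      have hz : B + (N : ℤ) * k ≠ 0 := by
        intro h
        have h1 : (k : ℤ) ≤ (N : ℤ) * k := le_mul_of_one_le_left (by omega) (by omega)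
        omega
      exact_mod_cast hz
    have key : ∀ (n : ℕ) (g : Polynomial ℂ), g.natDegree ≤ n →
        (progPoly (A : ℂ) (B : ℂ) (N : ℂ) n g).eval (k : ℂ)
          = ((B : ℂ) + N * k) ^ n * g.eval ((A : ℂ) / ((B : ℂ) + N * k)) :=
      fun n g hg => eval_progPoly hg hb
    rw [key 20 g₄ h4deg, key 30 g₆ h6deg, (heval _).1, (heval _).2]
    have hbb := mul_div_cancel₀ (A : ℂ) hb
    have c4C : (W'.c₄ : ℂ) = l ^ 2 * fourForm (utForm U V (A : ℂ) ((B : ℂ) + N * k))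
        (vtForm U V (A : ℂ) ((B : ℂ) + N * k)) := by
      have h := congrArg (algebraMap ℚ ℂ) e4
      rw [map_mul, map_pow, ← Algebra.ofId_apply ℂ (fourFam _ _ _ _), map_fourFam] at h
      rw [← fourFam_forms, hU4, hU6]
      simpa [Algebra.ofId_apply] using h
    have c6C : (W'.c₆ : ℂ) = l ^ 3 * sixForm (utForm U V (A : ℂ) ((B : ℂ) + N * k))
        (vtForm U V (A : ℂ) ((B : ℂ) + N * k)) := by
      have h := congrArg (algebraMap ℚ ℂ) e6
      rw [map_mul, map_pow, ← Algebra.ofId_apply ℂ (sixFam _ _ _ _), map_sixFam] at h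
      rw [← sixFam_forms, hU4, hU6]
      simpa [Algebra.ofId_apply] using h
    have hu := utForm_mul U V ((A : ℂ) / ((B : ℂ) + N * k)) 1 ((B : ℂ) + N * k)
    have hv := vtForm_mul U V ((A : ℂ) / ((B : ℂ) + N * k)) 1 ((B : ℂ) + N * k)
    rw [hbb, mul_one] at hu hv
    rw [hu, hv, fourForm_scale] at c4C
    rw [hu, hv, sixForm_scale] at c6C
    have h := congrArg (Int.cast : ℤ → ℂ) hξ
    simp only [threeQuartic, Int.cast_sub, Int.cast_mul, Int.cast_pow, Int.cast_ofNat,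
      Int.cast_zero] at h
    rw [c4C, c6C] at h
    simp only [threeQuartic]
    linear_combination h
  obtain ⟨k₀, hk₀⟩ := eventually_atTop.mp hint
  choose! ξ hξ using hk₀
  obtain ⟨Y, hY⟩ := exists_polynomial_root g₄ g₆ h4deg h6deg h0 A B hA N hN ξ
    (eventually_atTop.mpr ⟨k₀, hξ⟩)
  apply threeQuartic_line_ne_zero hd (Polynomial.C l⁻¹ * Y)
  have e : Y = Polynomial.C l * (Polynomial.C l⁻¹ * Y) := by
    rw [← mul_assoc, ← Polynomial.C_mul, mul_inv_cancel₀ hl, Polynomial.C_1, one_mul]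
  rw [hg₄, hg₆, e, Polynomial.C_pow, Polynomial.C_pow, threeQuartic_scale_two] at hY
  exact (mul_eq_zero.mp hY).resolve_left (pow_ne_zero _ (Polynomial.C_ne_zero.mpr hl))

section Transport

variable {K : Type*} [Field K] [DecidableEq K]

/-- Transport of points along an equality of curves. -/
def castPoint {E E' : WeierstrassCurve K} (h : E = E') :
    E.toAffine.Point ≃+ E'.toAffine.Point :=
  h ▸ AddEquiv.refl _

theorem castPoint_some {E E' : WeierstrassCurve K} (h : E = E') {x y : K}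
    (hns : E.toAffine.Nonsingular x y) :
    castPoint h (.some x y hns) = .some x y (h ▸ hns) := by
  subst h; rfl

end Transport

/-- Equality of traces on the `5`-torsion of a curve over `ℚ` and a member of its family. -/
theorem galoisTrace_five_eq {K : Type*} [Field K] [CharZero K] [IsAlgClosed K] [DecidableEq K]
    [Algebra ℚ K] (E E' : WeierstrassCurve ℚ) (a b : ℚ) (hΔ : E.Δ ≠ 0)
    (h4 : E.c₄ ≠ 0) (h6 : E.c₆ ≠ 0) (hΔ' : E'.Δ ≠ 0) (h4' : E'.c₄ ≠ 0) (h6' : E'.c₆ ≠ 0)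
    (hfam : (E'⁄K) =
      famCurve (E⁄K) (algebraMap ℚ K a) (algebraMap ℚ K b))
    (σ : K ≃ₐ[ℚ] K) :
    Affine.Point.galoisTrace (K := K) ℚ E' 5 σ = Affine.Point.galoisTrace (K := K) ℚ E 5 σ := by
  have inj := (algebraMap ℚ K).injective
  have hΔK : (E⁄K).Δ ≠ 0 := by simpa [WeierstrassCurve.baseChange, WeierstrassCurve.map_Δ] using hΔ
  have h4K : (E⁄K).c₄ ≠ 0 := by simpa [WeierstrassCurve.baseChange, WeierstrassCurve.map_c₄] using h4
  have h6K : (E⁄K).c₆ ≠ 0 := by simpa [WeierstrassCurve.baseChange, WeierstrassCurve.map_c₆] using h6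
  have hΔ'K := hfam ▸ (show (E'⁄K).Δ ≠ 0 by
    simpa [WeierstrassCurve.baseChange, WeierstrassCurve.map_Δ] using hΔ')
  have h4'K := hfam ▸ (show (E'⁄K).c₄ ≠ 0 by
    simpa [WeierstrassCurve.baseChange, WeierstrassCurve.map_c₄] using h4')
  have h6'K := hfam ▸ (show (E'⁄K).c₆ ≠ 0 by
    simpa [WeierstrassCurve.baseChange, WeierstrassCurve.map_c₆] using h6')
  let T := Submodule.torsionBy ℤ (E⁄K).toAffine.Point ((5 : ℕ) : ℤ)
  let T' := Submodule.torsionBy ℤ (E'⁄K).toAffine.Point ((5 : ℕ) : ℤ)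
  let f : T →+ T' :=
    { toFun := fun P => ⟨(castPoint hfam).symm (deformPoint hΔK hΔ'K P.1), by
        rw [mem_torsionBy_five (W := (E'⁄K)), ← map_nsmul (castPoint hfam).symm,
          five_nsmul_deformPoint, map_zero]⟩
      map_zero' := Subtype.ext (by
        show (castPoint hfam).symm (deformPoint hΔK hΔ'K 0) = 0
        rw [deformPoint_zero, map_zero])
      map_add' := fun P Q => Subtype.ext (by
        show (castPoint hfam).symm (deformPoint hΔK hΔ'K (P.1 + Q.1)) =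
          (castPoint hfam).symm (deformPoint hΔK hΔ'K P.1) +
            (castPoint hfam).symm (deformPoint hΔK hΔ'K Q.1)
        rw [deformPoint_add hΔK hΔ'K h4K h6K (mem_torsionBy_five.mp P.2)
          (mem_torsionBy_five.mp Q.2), map_add]) }
  have hf : Function.Bijective f := by
    obtain ⟨hinj, hsurj⟩ := torsionMap_bijective hΔK hΔ'K h4K h6K h4'K h6'K
    refine ⟨fun P Q e => ?_, fun R => ?_⟩
    · exact hinj (Subtype.ext ((castPoint hfam).symm.injective (congrArg Subtype.val e)))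
    · obtain ⟨P, hP⟩ := hsurj ⟨castPoint hfam R.1, mem_torsionBy_five.mpr (by
        rw [← map_nsmul, mem_torsionBy_five.mp R.2, map_zero])⟩
      refine ⟨P, Subtype.ext ?_⟩
      show (castPoint hfam).symm (deformPoint hΔK hΔ'K P.1) = R.1
      have hP' : deformPoint hΔK hΔ'K P.1 = castPoint hfam R.1 := congrArg Subtype.val hP
      rw [hP', AddEquiv.symm_apply_apply]
  have hequiv : ∀ P : T, f (σ • P) = σ • f P := by
    intro P
    rcases eq_or_ne P.1 0 with h0 | h0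
    · apply Subtype.ext
      show (castPoint hfam).symm (deformPoint hΔK hΔ'K (Affine.Point.map σ.toAlgHom P.1)) =
        Affine.Point.map σ.toAlgHom ((castPoint hfam).symm (deformPoint hΔK hΔ'K P.1))
      rw [h0, map_zero, deformPoint_zero, map_zero, map_zero]
    obtain ⟨q, hq, hqP⟩ := exists_fivePair hΔK h0 (mem_torsionBy_five.mp P.2)
    have hfix : ∀ r : ℚ, σ (algebraMap ℚ K r) = algebraMap ℚ K r := σ.commutes
    let σq : K × K := (σ q.1, σ q.2)
    have hσq : IsFivePair (E⁄K) σq := by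
      obtain ⟨u4, u6⟩ := hq
      constructor
      · have := congrArg σ.toAlgHom.toRingHom u4
        rw [map_fourForm] at this
        simp only [WeierstrassCurve.baseChange, WeierstrassCurve.map_c₄] at this ⊢
        exact this.trans (hfix _)
      · have := congrArg σ.toAlgHom.toRingHom u6
        rw [map_sixForm] at this
        simp only [WeierstrassCurve.baseChange, WeierstrassCurve.map_c₆] at this ⊢
        exact this.trans (hfix _)
    apply Subtype.ext
    show (castPoint hfam).symm (deformPoint hΔK hΔ'K (σ • P.1)) =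
      σ • (castPoint hfam).symm (deformPoint hΔK hΔ'K P.1)
    rw [← hqP]
    have hsig : σ • (fivePoint hΔK q hq : (E⁄K).toAffine.Point) = fivePoint hΔK σq hσq := by
      show Affine.Point.map σ.toAlgHom _ = _
      simp only [fivePoint]
      rw [Affine.Point.map_some]
      simp only [Affine.Point.some.injEq]
      simp [fiveX, fiveY, σq, WeierstrassCurve.baseChange, map_b₂, hfix, map_ofNat, map_div₀]
    rw [hsig, deformPoint_fivePoint, deformPoint_fivePoint]
    have hdef : ∀ (r : K × K) (hr : IsFivePair (E⁄K) r),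
        (castPoint hfam).symm (fivePoint hΔ'K _ (hr.deform _ _)) =
          .some (fiveX (famCurve (E⁄K) (algebraMap ℚ K a) (algebraMap ℚ K b))
              (deformPair (algebraMap ℚ K a) (algebraMap ℚ K b) r))
            (fiveY (famCurve (E⁄K) (algebraMap ℚ K a) (algebraMap ℚ K b))
              (deformPair (algebraMap ℚ K a) (algebraMap ℚ K b) r))
            (hfam.symm ▸ (hr.deform _ _).nonsingular hΔ'K) := by
      intro r hr
      rw [AddEquiv.symm_apply_eq, castPoint_some]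
      rfl
    rw [hdef σq hσq, hdef q hq]
    show _ = Affine.Point.map σ.toAlgHom _
    rw [Affine.Point.map_some]
    simp only [Affine.Point.some.injEq]
    simp [fiveX, fiveY, famCurve, modCurve, deformPair, σq, WeierstrassCurve.baseChange, map_b₂, hfix, map_ofNat, map_div₀,
      utForm, vtForm, evenFive, oddFive, b₂]
  let e : T ≃ₗ[ZMod 5] T' :=
    LinearEquiv.ofBijective (f.toZModLinearMap 5) hf
  rw [Affine.Point.galoisTrace_def, Affine.Point.galoisTrace_def,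
    ← LinearMap.trace_conj' (Affine.Point.galoisRepModuleEnd ℚ E 5 σ) e]
  congr 1
  refine LinearMap.ext fun R => ?_
  obtain ⟨P, rfl⟩ := e.surjective R
  rw [LinearEquiv.conj_apply_apply, LinearEquiv.symm_apply_apply]
  exact (hequiv P).symm

/-- Traces of Frobenius modulo `5` agree along the family. -/
theorem five_dvd_apOfModel_sub (W W' : WeierstrassCurve ℤ) (hΔ : W.Δ ≠ 0)
    (hW : W.IsSemistableModel) (hΔ' : W'.Δ ≠ 0) (hW' : W'.IsSemistableModel)
    (h₁ : W'.a₁ = W.a₁) (h₂ : W'.a₂ = W.a₂) (h₃ : W'.a₃ = W.a₃) {a b : ℚ}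
    (h4 : (W'.c₄ : ℚ) = fourFam (W.c₄ : ℚ) (W.c₆ : ℚ) a b)
    (h6 : (W'.c₆ : ℚ) = sixFam (W.c₄ : ℚ) (W.c₆ : ℚ) a b) {ℓ : ℕ} (hℓ : ℓ.Prime)
    (hg : W.IsGoodPrimeFor ℓ) (hg' : W'.IsGoodPrimeFor ℓ) (h5 : ℓ ≠ 5) :
    (5 : ℤ) ∣ W'.apOfModel ℓ - W.apOfModel ℓ := by
  obtain ⟨A, σ, hA, hσ⟩ := Galois.exists_place_isFrobeniusAt hℓ
  obtain ⟨n4, n6⟩ := c₄_ne_zero_and_c₆_ne_zero W hΔ hW
  obtain ⟨n4', n6'⟩ := c₄_ne_zero_and_c₆_ne_zero W' hΔ' hW'
  have p5 : Nat.Prime 5 := Nat.prime_five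
  have t := ECFrob.galoisTrace_eq_apOfModel W hℓ p5 h5 hg A hA σ hσ
  have t' := ECFrob.galoisTrace_eq_apOfModel W' hℓ p5 h5 hg' A hA σ hσ
  have hfam : ((W'.map (Int.castRingHom ℚ)).map (algebraMap ℚ Qb)) =
      famCurve ((W.map (Int.castRingHom ℚ)).map (algebraMap ℚ Qb)) (algebraMap ℚ Qb a)
        (algebraMap ℚ Qb b) := by
    have e4 : fourFam ((W.c₄ : ℤ) : Qb) ((W.c₆ : ℤ) : Qb) (algebraMap ℚ Qb a) (algebraMap ℚ Qb b)
        = (W'.c₄ : Qb) := by
      have h := congrArg (algebraMap ℚ Qb) h4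
      rw [← Algebra.ofId_apply Qb (fourFam _ _ _ _), map_fourFam] at h
      simpa [Algebra.ofId_apply] using h.symm
    have e6 : sixFam ((W.c₄ : ℤ) : Qb) ((W.c₆ : ℤ) : Qb) (algebraMap ℚ Qb a) (algebraMap ℚ Qb b)
        = (W'.c₆ : Qb) := by
      have h := congrArg (algebraMap ℚ Qb) h6
      rw [← Algebra.ofId_apply Qb (sixFam _ _ _ _), map_sixFam] at h
      simpa [Algebra.ofId_apply] using h.symm
    have hc4 : ((W.map (Int.castRingHom ℚ)).map (algebraMap ℚ Qb)).c₄ = (W.c₄ : Qb) := by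
      simp [map_c₄]
    have hc6 : ((W.map (Int.castRingHom ℚ)).map (algebraMap ℚ Qb)).c₆ = (W.c₆ : Qb) := by
      simp [map_c₆]
    rw [famCurve, hc4, hc6, e4, e6, modCurve]
    ext
    · simp [h₁]
    · simp [h₂]
    · simp [h₃]
    · simp [c₄, b₂, b₄, h₁, h₂, h₃]; ring
    · simp [c₄, c₆, b₂, b₄, b₆, h₁, h₂, h₃]; ring
  have heq := galoisTrace_five_eq (K := Qb) (W.map (Int.castRingHom ℚ)) (W'.map (Int.castRingHom ℚ)) a b
    (by simp [map_Δ, hΔ]) (by simp [map_c₄, n4]) (by simp [map_c₆, n6])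
    (by simp [map_Δ, hΔ']) (by simp [map_c₄, n4']) (by simp [map_c₆, n6']) hfam σ
  rw [t, t'] at heq
  exact (ZMod.intCast_zmod_eq_zero_iff_dvd _ 5).mp (by push_cast; rw [heq, sub_self])

/-- The `3`–`5` switch. -/
theorem threeFiveSwitch (W : WeierstrassCurve ℤ) (hΔ : W.Δ ≠ 0) (hW : W.IsSemistableModel) :
    ∃ W' : WeierstrassCurve ℤ, W'.Δ ≠ 0 ∧ W'.IsSemistableModel ∧ W'.ModRepIsIrreducible 3 ∧
      ∀ ℓ : ℕ, ℓ.Prime → W.IsGoodPrimeFor ℓ → W'.IsGoodPrimeFor ℓ → ℓ ≠ 5 →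
        (5 : ℤ) ∣ (W'.apOfModel ℓ - W.apOfModel ℓ) := by
  classical
  set N : ℕ := famDen * 1728 * badMod W with hN
  have hNpos : 0 < N := Nat.mul_pos (Nat.mul_pos famDen_pos (by norm_num)) (badMod_pos W hΔ)
  have hmodel : ∀ k : ℕ, ∃ W' : WeierstrassCurve ℤ, W'.IsSemistableModel ∧ W'.a₁ = W.a₁ ∧
      W'.a₂ = W.a₂ ∧ W'.a₃ = W.a₃ ∧
      (W'.c₄ : ℚ) = fourFam (W.c₄ : ℚ) (W.c₆ : ℚ) ((N : ℤ) : ℚ) ((1 + N * k : ℤ) : ℚ) ∧
      (W'.c₆ : ℚ) = sixFam (W.c₄ : ℚ) (W.c₆ : ℚ) ((N : ℤ) : ℚ) ((1 + N * k : ℤ) : ℚ) := by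
    intro k
    refine exists_semistable_model W hΔ hW dvd_rfl ⟨k, by rw [hN]; ring⟩ fun q hq hqab => ?_
    have h1 : (q : ℤ) ∣ 1 := by
      have := dvd_sub hqab.2 (hqab.1.mul_right (k : ℤ))
      rw [add_sub_cancel_right] at this
      exact this
    exact hq.one_lt.ne' (Nat.dvd_one.mp (by exact_mod_cast h1))
  choose W' hss h₁ h₂ h₃ h4 h6 using hmodel
  have hN0 : ((N : ℤ)) ≠ 0 := Int.natCast_ne_zero.mpr hNpos.ne'
  have hΔ' : ∀ᶠ k in atTop, (W' k).Δ ≠ 0 := by
    filter_upwards [eventually_disc_ne_zero W hΔ hW (A := (N : ℤ)) (B := 1) hNpos] with k hk h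
    apply hk
    rw [← h4 k, ← h6 k, ← sub_eq_zero]
    have := congrArg (Int.cast : ℤ → ℚ) (W' k).c_relation
    rw [h] at this
    push_cast at this
    linear_combination -this
  have hnot := not_eventually_reducible W hΔ hW hN0 hNpos (B := 1) (lam := 1) one_ne_zero
  have hfreq : ∃ k, (W' k).Δ ≠ 0 ∧ (W' k).ModRepIsIrreducible 3 := by
    by_contra hcon
    push Not at hcon
    refine hnot (hΔ'.mono fun k hk => ⟨W' k, hk, ?_, ?_, hcon k hk⟩)
    · rw [one_pow, one_mul]; exact h4 k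
    · rw [one_pow, one_mul]; exact h6 k
  obtain ⟨k, hk, hirr⟩ := hfreq
  exact ⟨W' k, hk, hss k, hirr, fun ℓ hℓ hg hg' h5 =>
    five_dvd_apOfModel_sub W (W' k) hΔ hW hk (hss k) (h₁ k) (h₂ k) (h₃ k) (h4 k) (h6 k) hℓ hg
      hg' h5⟩

end Fermat.Agent.Switch35
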